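import Mathlib

/-!
# S13, package W, leaf [W-c] : consequences of the root criterion (helper6)

Setting: `K` an algebraically closed field, `W` a Weierstrass curve over `K` (ANY `a_i`) with
`W.Δ ≠ 0`, `n : ℕ`, `Psi : K[X]` nonzero, and the ROOT CRITERION

  `hroot : ∀ x y (h : W.Nonsingular x y), n • Point.some x y h = 0 ↔ Psi.eval x = 0`.

Consequences:

* `exists_torsion`, `nontrivial_torsion` : a nonzero `n`-torsion point exists if `0 < natDegree`;
* `finite_torsion`, `card_torsion_le` : `#W[n] ≤ 2 * natDegree Psi + 1`;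
* `card_torsion_le_sq` : `#W[p] ≤ p ^ 2` if `natDegree Psi ≤ (p ^ 2 - 1) / 2`;
* `factorisation` : if `#W[n] = 2 * natDegree Psi + 1` then all roots of `Psi` are simple and
  `Psi = C lc * ∏ ξ ∈ xSet, (X - C ξ)`, `xSet` = the `x`-coordinates of the nonzero `n`-torsion
  points; `factorisation_split` : the same, split along any subset of `xSet`.
-/

set_option autoImplicit false

namespace Fermat.Agent.S13.W.Conseq

open Polynomial WeierstrassCurve WeierstrassCurve.Affine

variable {K : Type*} [Field K] [DecidableEq K] (W : WeierstrassCurve.Affine K)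

/-! ### Points with a given `x`-coordinate -/

omit [DecidableEq K] in
/-- Over an algebraically closed field every `x` is the `x`-coordinate of a point. -/
lemma exists_equation [IsAlgClosed K] (x : K) : ∃ y : K, W.Equation x y := by
  set q : K[X] := X ^ 2 + C (W.a₁ * x + W.a₃) * X - C (x ^ 3 + W.a₂ * x ^ 2 + W.a₄ * x + W.a₆)
    with hq
  have hdeg : q.degree = 2 := by
    rw [hq]
    compute_degree!
  obtain ⟨y, hy⟩ := IsAlgClosed.exists_root q (by rw [hdeg]; norm_num)
  refine ⟨y, ?_⟩
  rw [equation_iff]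
  have : y ^ 2 + (W.a₁ * x + W.a₃) * y - (x ^ 3 + W.a₂ * x ^ 2 + W.a₄ * x + W.a₆) = 0 := by
    simpa [hq, IsRoot.def] using hy
  linear_combination this

omit [DecidableEq K] in
/-- Over an algebraically closed field, with `Δ ≠ 0`, every `x` is the `x`-coordinate of a
nonsingular point. -/
lemma exists_nonsingular [IsAlgClosed K] (hΔ : W.Δ ≠ 0) (x : K) : ∃ y : K, W.Nonsingular x y := by
  obtain ⟨y, hy⟩ := exists_equation W x
  exact ⟨y, (equation_iff_nonsingular_of_Δ_ne_zero hΔ).mp hy⟩

/-! ### An injective code for points -/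

/-- A chosen `y` over `x` (if there is one). -/
noncomputable def yChoice (x : K) : K :=
  open Classical in if h : ∃ y, W.Equation x y then h.choose else 0

omit [DecidableEq K] in
lemma yChoice_spec {x y : K} (h : W.Equation x y) : W.Equation x (yChoice W x) := by
  have hex : ∃ y, W.Equation x y := ⟨y, h⟩
  rw [yChoice, dif_pos hex]
  exact hex.choose_spec

/-- The code of a point: its `x`-coordinate and one bit. -/
noncomputable def code : W.Point → Option (K × Bool)
  | .zero => none
  | .some x y _ => some (x, decide (y = yChoice W x))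

@[simp] lemma code_zero : code W (0 : W.Point) = none := rfl

@[simp] lemma code_some (x y : K) (h : W.Nonsingular x y) :
    code W (Point.some x y h) = some (x, decide (y = yChoice W x)) := rfl

lemma code_injective : Function.Injective (code W) := by
  intro P Q hPQ
  rcases P with _ | ⟨x₁, y₁, h₁⟩ <;> rcases Q with _ | ⟨x₂, y₂, h₂⟩
  · rfl
  · simp [code] at hPQ
  · simp [code] at hPQ
  · simp only [code, Option.some.injEq, Prod.mk.injEq] at hPQ
    obtain ⟨hx, hb⟩ := hPQ
    subst hx
    have hy : y₁ = y₂ := by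
      by_cases h1 : y₁ = yChoice W x₁
      · have h2 : y₂ = yChoice W x₁ := by
          have : decide (y₂ = yChoice W x₁) = true := by rw [← hb]; simpa using h1
          simpa using this
        rw [h1, h2]
      · have h2 : ¬ y₂ = yChoice W x₁ := by
          intro h2
          have : decide (y₁ = yChoice W x₁) = true := by rw [hb]; simpa using h2
          exact h1 (by simpa using this)
        have hc := yChoice_spec W h₁.1
        have e1 := (Y_eq_of_X_eq h₁.1 hc rfl).resolve_left h1
        have e2 := (Y_eq_of_X_eq h₂.1 hc rfl).resolve_left h2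
        rw [e1, e2]
    subst hy
    rfl

/-! ### The root criterion and its consequences -/

section Criterion

variable (n : ℕ) (Psi : K[X])

/-- The set of `x`-coordinates of the nonzero `n`-torsion points, as the finite set of roots of
`Psi`. -/
noncomputable def xSet : Finset K := Psi.roots.toFinset

lemma mem_xSet_iff_eval (hPsi : Psi ≠ 0) (ξ : K) : ξ ∈ xSet Psi ↔ Psi.eval ξ = 0 := by
  rw [xSet, Multiset.mem_toFinset, mem_roots hPsi, IsRoot.def]

variable {W n Psi}

/-- `ξ ∈ xSet` iff `ξ` is the `x`-coordinate of a nonzero `n`-torsion point. -/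
lemma mem_xSet_iff [IsAlgClosed K] (hΔ : W.Δ ≠ 0) (hPsi : Psi ≠ 0)
    (hroot : ∀ (x y : K) (h : W.Nonsingular x y), n • Point.some x y h = 0 ↔ Psi.eval x = 0)
    (ξ : K) :
    ξ ∈ xSet Psi ↔ ∃ (y : K) (h : W.Nonsingular ξ y), n • Point.some ξ y h = 0 := by
  rw [mem_xSet_iff_eval Psi hPsi]
  constructor
  · intro hξ
    obtain ⟨y, hy⟩ := exists_nonsingular W hΔ ξ
    exact ⟨y, hy, (hroot ξ y hy).mpr hξ⟩
  · rintro ⟨y, hy, h⟩
    exact (hroot ξ y hy).mp h

/-- Every point over a root is `n`-torsion; both signs. -/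
lemma nsmul_eq_zero_of_mem_xSet (hPsi : Psi ≠ 0)
    (hroot : ∀ (x y : K) (h : W.Nonsingular x y), n • Point.some x y h = 0 ↔ Psi.eval x = 0)
    {ξ y : K} (hξ : ξ ∈ xSet Psi) (h : W.Nonsingular ξ y) : n • Point.some ξ y h = 0 :=
  (hroot ξ y h).mpr ((mem_xSet_iff_eval Psi hPsi ξ).mp hξ)

/-- (c1) A nonzero `n`-torsion point exists as soon as `Psi` is not constant. -/
theorem exists_torsion [IsAlgClosed K] (hΔ : W.Δ ≠ 0)
    (hroot : ∀ (x y : K) (h : W.Nonsingular x y), n • Point.some x y h = 0 ↔ Psi.eval x = 0)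
    (hdeg : 0 < Psi.natDegree) : ∃ P : W.Point, P ≠ 0 ∧ n • P = 0 := by
  have hd : Psi.degree ≠ 0 := (natDegree_pos_iff_degree_pos.mp hdeg).ne'
  obtain ⟨x, hx⟩ := IsAlgClosed.exists_root Psi hd
  obtain ⟨y, hy⟩ := exists_nonsingular W hΔ x
  exact ⟨Point.some x y hy, Point.some_ne_zero _, (hroot x y hy).mpr hx⟩

/-- (c1) The `n`-torsion is nontrivial as soon as `Psi` is not constant. -/
theorem nontrivial_torsion [IsAlgClosed K] (hΔ : W.Δ ≠ 0)
    (hroot : ∀ (x y : K) (h : W.Nonsingular x y), n • Point.some x y h = 0 ↔ Psi.eval x = 0)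
    (hdeg : 0 < Psi.natDegree) : Nontrivial (Submodule.torsionBy ℤ W.Point (n : ℤ)) := by
  obtain ⟨P, hP0, hP⟩ := exists_torsion hΔ hroot hdeg
  have hmem : P ∈ Submodule.torsionBy ℤ W.Point (n : ℤ) := by
    rw [Submodule.mem_torsionBy_iff, natCast_zsmul]
    exact hP
  refine ⟨⟨⟨P, hmem⟩, 0, ?_⟩⟩
  intro h
  exact hP0 (congrArg Subtype.val h)

/-- The finite set of codes of torsion points. -/
noncomputable def codeSet (Psi : K[X]) : Finset (Option (K × Bool)) :=
  Finset.insertNone (xSet Psi ×ˢ (Finset.univ : Finset Bool))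

lemma card_codeSet (Psi : K[X]) : (codeSet Psi).card = 2 * (xSet Psi).card + 1 := by
  rw [codeSet, Finset.card_insertNone, Finset.card_product, Finset.card_univ, Fintype.card_bool,
    mul_comm]

lemma card_xSet_le (Psi : K[X]) : (xSet Psi).card ≤ Psi.natDegree :=
  (Multiset.toFinset_card_le _).trans (card_roots' Psi)

lemma code_mem_codeSet (hPsi : Psi ≠ 0)
    (hroot : ∀ (x y : K) (h : W.Nonsingular x y), n • Point.some x y h = 0 ↔ Psi.eval x = 0)
    {P : W.Point} (hP : n • P = 0) : code W P ∈ codeSet Psi := by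
  rcases P with _ | ⟨x, y, h⟩
  · simp [codeSet, code]
  · have hx : x ∈ xSet Psi := (mem_xSet_iff_eval Psi hPsi x).mpr ((hroot x y h).mp hP)
    simp [codeSet, code, hx]

/-- The coding map on the torsion, with values in the finite set of codes. -/
noncomputable def torsionCode (hPsi : Psi ≠ 0)
    (hroot : ∀ (x y : K) (h : W.Nonsingular x y), n • Point.some x y h = 0 ↔ Psi.eval x = 0) :
    Submodule.torsionBy ℤ W.Point (n : ℤ) → codeSet Psi :=
  fun P => ⟨code W P.1, code_mem_codeSet hPsi hroot (by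
    have := (Submodule.mem_torsionBy_iff _ _).mp P.2
    rwa [natCast_zsmul] at this)⟩

lemma torsionCode_injective (hPsi : Psi ≠ 0)
    (hroot : ∀ (x y : K) (h : W.Nonsingular x y), n • Point.some x y h = 0 ↔ Psi.eval x = 0) :
    Function.Injective (torsionCode hPsi hroot) := by
  intro P Q h
  have := congrArg Subtype.val h
  exact Subtype.ext (code_injective W this)

/-- (c2) The `n`-torsion is finite. -/
theorem finite_torsion (hPsi : Psi ≠ 0)
    (hroot : ∀ (x y : K) (h : W.Nonsingular x y), n • Point.some x y h = 0 ↔ Psi.eval x = 0) :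
    Finite (Submodule.torsionBy ℤ W.Point (n : ℤ)) :=
  Finite.of_injective _ (torsionCode_injective hPsi hroot)

/-- (c2), sharp form: `#W[n] ≤ 2 * #(roots of Psi) + 1`. -/
theorem card_torsion_le_xSet (hPsi : Psi ≠ 0)
    (hroot : ∀ (x y : K) (h : W.Nonsingular x y), n • Point.some x y h = 0 ↔ Psi.eval x = 0) :
    Nat.card (Submodule.torsionBy ℤ W.Point (n : ℤ)) ≤ 2 * (xSet Psi).card + 1 := by
  have h := Nat.card_le_card_of_injective _ (torsionCode_injective hPsi hroot)
  have h' : Nat.card (codeSet Psi) = (codeSet Psi).card := by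
    rw [Nat.card_eq_fintype_card, Fintype.card_coe]
  rw [h', card_codeSet] at h
  exact h

/-- (c2) `#W[n] ≤ 2 * natDegree Psi + 1`. -/
theorem card_torsion_le (hPsi : Psi ≠ 0)
    (hroot : ∀ (x y : K) (h : W.Nonsingular x y), n • Point.some x y h = 0 ↔ Psi.eval x = 0) :
    Nat.card (Submodule.torsionBy ℤ W.Point (n : ℤ)) ≤ 2 * Psi.natDegree + 1 :=
  (card_torsion_le_xSet hPsi hroot).trans (by have := card_xSet_le Psi; omega)

/-- (c2) `#W[p] ≤ p ^ 2` if `natDegree Psi ≤ (p ^ 2 - 1) / 2`. -/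
theorem card_torsion_le_sq (hPsi : Psi ≠ 0)
    (hroot : ∀ (x y : K) (h : W.Nonsingular x y), n • Point.some x y h = 0 ↔ Psi.eval x = 0)
    (hn : 0 < n) (hdeg : Psi.natDegree ≤ (n ^ 2 - 1) / 2) :
    Nat.card (Submodule.torsionBy ℤ W.Point (n : ℤ)) ≤ n ^ 2 := by
  have h1 := card_torsion_le hPsi hroot
  have h2 : 0 < n ^ 2 := by positivity
  omega

/-- The three statements of the deliverable (T), weak form, in one. -/
theorem tweak [IsAlgClosed K] (hΔ : W.Δ ≠ 0) (hPsi : Psi ≠ 0)
    (hroot : ∀ (x y : K) (h : W.Nonsingular x y), n • Point.some x y h = 0 ↔ Psi.eval x = 0)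
    (hn : 0 < n) (hpos : 0 < Psi.natDegree) (hdeg : Psi.natDegree ≤ (n ^ 2 - 1) / 2) :
    Nontrivial (Submodule.torsionBy ℤ W.Point (n : ℤ)) ∧
      Finite (Submodule.torsionBy ℤ W.Point (n : ℤ)) ∧
      Nat.card (Submodule.torsionBy ℤ W.Point (n : ℤ)) ≤ n ^ 2 :=
  ⟨nontrivial_torsion hΔ hroot hpos, finite_torsion hPsi hroot,
    card_torsion_le_sq hPsi hroot hn hdeg⟩

/-! ### (c3) the factorisation when the torsion is as large as possible -/

/-- If `#W[n] = 2 * natDegree Psi + 1` then `Psi` has `natDegree Psi` distinct roots. -/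
theorem card_xSet_eq (hPsi : Psi ≠ 0)
    (hroot : ∀ (x y : K) (h : W.Nonsingular x y), n • Point.some x y h = 0 ↔ Psi.eval x = 0)
    (hcard : Nat.card (Submodule.torsionBy ℤ W.Point (n : ℤ)) = 2 * Psi.natDegree + 1) :
    (xSet Psi).card = Psi.natDegree := by
  have h1 := card_torsion_le_xSet hPsi hroot
  have h2 := card_xSet_le Psi
  omega

/-- Variant: if `p ^ 2 ≤ #W[n]` and `natDegree Psi ≤ (p ^ 2 - 1) / 2` then `Psi` has exactly
`natDegree Psi = (p ^ 2 - 1) / 2` distinct roots. -/
theorem card_xSet_eq_of_sq_le (hPsi : Psi ≠ 0)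
    (hroot : ∀ (x y : K) (h : W.Nonsingular x y), n • Point.some x y h = 0 ↔ Psi.eval x = 0)
    {p : ℕ} (hp : Odd p) (hdeg : Psi.natDegree ≤ (p ^ 2 - 1) / 2)
    (hcard : p ^ 2 ≤ Nat.card (Submodule.torsionBy ℤ W.Point (n : ℤ))) :
    (xSet Psi).card = Psi.natDegree ∧ Psi.natDegree = (p ^ 2 - 1) / 2 := by
  have h1 := card_torsion_le_xSet hPsi hroot
  have h2 := card_xSet_le Psi
  have h3 : Odd (p ^ 2) := hp.pow
  obtain ⟨k, hk⟩ := h3
  omega

lemma roots_nodup_of_card (h : (xSet Psi).card = Psi.natDegree) : Psi.roots.Nodup := by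
  have h1 : Psi.roots.toFinset.card ≤ Multiset.card Psi.roots := Multiset.toFinset_card_le _
  have h2 : Multiset.card Psi.roots ≤ Psi.natDegree := card_roots' Psi
  have h3 : Psi.roots.toFinset.card = Multiset.card Psi.roots := by
    rw [xSet] at h; omega
  exact Multiset.toFinset_card_eq_card_iff_nodup.mp h3

lemma card_roots_of_card (h : (xSet Psi).card = Psi.natDegree) :
    Multiset.card Psi.roots = Psi.natDegree := by
  have h1 : Psi.roots.toFinset.card ≤ Multiset.card Psi.roots := Multiset.toFinset_card_le _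
  have h2 : Multiset.card Psi.roots ≤ Psi.natDegree := card_roots' Psi
  rw [xSet] at h; omega

/-- Factorisation from `#roots = natDegree`. -/
theorem factorisation_of_card (h : (xSet Psi).card = Psi.natDegree) :
    Psi = C Psi.leadingCoeff * ∏ ξ ∈ xSet Psi, (X - C ξ) := by
  have h1 := C_leadingCoeff_mul_prod_multiset_X_sub_C (card_roots_of_card h)
  have h2 : ∏ ξ ∈ xSet Psi, (X - C ξ) = (Psi.roots.map fun a => X - C a).prod := by
    rw [xSet, Finset.prod, Multiset.toFinset_val, (roots_nodup_of_card h).dedup]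
  rw [h2, h1]

/-- (c3) If `#W[n] = 2 * natDegree Psi + 1` then
`Psi = C lc * ∏ ξ ∈ xSet, (X - C ξ)`. -/
theorem factorisation (hPsi : Psi ≠ 0)
    (hroot : ∀ (x y : K) (h : W.Nonsingular x y), n • Point.some x y h = 0 ↔ Psi.eval x = 0)
    (hcard : Nat.card (Submodule.torsionBy ℤ W.Point (n : ℤ)) = 2 * Psi.natDegree + 1) :
    Psi = C Psi.leadingCoeff * ∏ ξ ∈ xSet Psi, (X - C ξ) :=
  factorisation_of_card (card_xSet_eq hPsi hroot hcard)

/-- (c3), split form: for every subset `T` of the roots. -/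
theorem factorisation_split_of_card (h : (xSet Psi).card = Psi.natDegree)
    (T : Finset K) (hT : T ⊆ xSet Psi) :
    Psi = C Psi.leadingCoeff * (∏ ξ ∈ T, (X - C ξ)) * ∏ ξ ∈ xSet Psi \ T, (X - C ξ) := by
  have h1 := factorisation_of_card h
  have h2 : ∏ ξ ∈ xSet Psi, (X - C ξ) = (∏ ξ ∈ T, (X - C ξ)) * ∏ ξ ∈ xSet Psi \ T, (X - C ξ) := by
    rw [mul_comm]
    exact (Finset.prod_sdiff hT).symm
  rw [mul_assoc, ← h2]
  exact h1

/-- (c3), split form. -/
theorem factorisation_split (hPsi : Psi ≠ 0)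
    (hroot : ∀ (x y : K) (h : W.Nonsingular x y), n • Point.some x y h = 0 ↔ Psi.eval x = 0)
    (hcard : Nat.card (Submodule.torsionBy ℤ W.Point (n : ℤ)) = 2 * Psi.natDegree + 1)
    (T : Finset K) (hT : T ⊆ xSet Psi) :
    Psi = C Psi.leadingCoeff * (∏ ξ ∈ T, (X - C ξ)) * ∏ ξ ∈ xSet Psi \ T, (X - C ξ) :=
  factorisation_split_of_card (card_xSet_eq hPsi hroot hcard) T hT

end Criterion

end Fermat.Agent.S13.W.Conseq
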