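import Fermat.Agent.S13.W.H6_Conseq

/-!
# S13, package W, leaf G (helper14): counting with a ONE-directional root criterion

`G_count` : if every nonzero `p`-torsion point has its `x`-coordinate among the roots of a nonzero
polynomial `F` of degree `≤ p ^ 2 - 1`, then the `p`-torsion is finite with at most `p ^ 2`
elements (it has at most `2 (p ^ 2 - 1) + 1 < p ^ 3` elements and its cardinality is a power
of `p`).
-/

set_option autoImplicit false

universe u

namespace Fermat.Agent.S13.W.H14

open Polynomial WeierstrassCurve WeierstrassCurve.Affine Fermat.Agent.S13.W.Conseq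

variable {K : Type u} [Field K] [DecidableEq K] (W : WeierstrassCurve.Affine K)

lemma code_mem_codeSet_of_imp {n : ℕ} {F : K[X]} (hF : F ≠ 0)
    (hroot : ∀ (x y : K) (h : W.Nonsingular x y),
      n • (Point.some x y h : W.Point) = 0 → F.eval x = 0)
    {P : W.Point} (hP : n • P = 0) : code W P ∈ codeSet F := by
  rcases P with _ | ⟨x, y, h⟩
  · simp [codeSet, code]
  · have hx : x ∈ xSet F := (mem_xSet_iff_eval F hF x).mpr (hroot x y h hP)
    simp [codeSet, code, hx]

/-- the coding map on the torsion. -/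
noncomputable def torsionCode' {n : ℕ} {F : K[X]} (hF : F ≠ 0)
    (hroot : ∀ (x y : K) (h : W.Nonsingular x y),
      n • (Point.some x y h : W.Point) = 0 → F.eval x = 0) :
    Submodule.torsionBy ℤ W.Point (n : ℤ) → codeSet F :=
  fun P => ⟨code W P.1, code_mem_codeSet_of_imp W hF hroot (by
    have := (Submodule.mem_torsionBy_iff _ _).mp P.2
    rwa [natCast_zsmul] at this)⟩

lemma torsionCode'_injective {n : ℕ} {F : K[X]} (hF : F ≠ 0)
    (hroot : ∀ (x y : K) (h : W.Nonsingular x y),
      n • (Point.some x y h : W.Point) = 0 → F.eval x = 0) :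
    Function.Injective (torsionCode' W hF hroot) := by
  intro P Q h
  have := congrArg Subtype.val h
  exact Subtype.ext (code_injective W this)

theorem finite_torsion_of_imp {n : ℕ} {F : K[X]} (hF : F ≠ 0)
    (hroot : ∀ (x y : K) (h : W.Nonsingular x y),
      n • (Point.some x y h : W.Point) = 0 → F.eval x = 0) :
    Finite (Submodule.torsionBy ℤ W.Point (n : ℤ)) :=
  Finite.of_injective _ (torsionCode'_injective W hF hroot)

theorem card_torsion_le_of_imp {n : ℕ} {F : K[X]} (hF : F ≠ 0)
    (hroot : ∀ (x y : K) (h : W.Nonsingular x y),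
      n • (Point.some x y h : W.Point) = 0 → F.eval x = 0) :
    Nat.card (Submodule.torsionBy ℤ W.Point (n : ℤ)) ≤ 2 * F.natDegree + 1 := by
  have h := Nat.card_le_card_of_injective _ (torsionCode'_injective W hF hroot)
  have h' : Nat.card (codeSet F) = (codeSet F).card := by
    rw [Nat.card_eq_fintype_card, Fintype.card_coe]
  rw [h', card_codeSet] at h
  have := card_xSet_le F
  omega

/-- the cardinality of the (finite) `p`-torsion of an additive commutative group is a power
of `p`. -/
lemma card_torsionBy_eq_pow {M : Type*} [AddCommGroup M] (p : ℕ) (hp : p.Prime)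
    [Finite (Submodule.torsionBy ℤ M (p : ℤ))] :
    ∃ k : ℕ, Nat.card (Submodule.torsionBy ℤ M (p : ℤ)) = p ^ k := by
  have : Fact p.Prime := ⟨hp⟩
  have hpg : IsPGroup p (Multiplicative (Submodule.torsionBy ℤ M (p : ℤ))) := by
    intro g
    refine ⟨1, ?_⟩
    have h1 : p • (Multiplicative.toAdd g) = 0 := by
      have := Submodule.smul_torsionBy (R := ℤ) (M := M) (p : ℤ) (Multiplicative.toAdd g)
      rwa [natCast_zsmul] at this
    rw [pow_one]
    exact congrArg Multiplicative.ofAdd h1
  obtain ⟨k, hk⟩ := (IsPGroup.iff_card (p := p)).mp hpg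
  exact ⟨k, by rw [← hk]; rfl⟩

/-- **Leaf G.** -/
theorem G_count (p : ℕ) (hp : p.Prime) (F : K[X]) (hF : F ≠ 0) (hdeg : F.natDegree ≤ p ^ 2 - 1)
    (hroot : ∀ (x y : K) (h : W.Nonsingular x y),
      p • (Point.some x y h : W.Point) = 0 → F.eval x = 0) :
    Finite (Submodule.torsionBy ℤ W.Point p) ∧
      Nat.card (Submodule.torsionBy ℤ W.Point p) ≤ p ^ 2 := by
  have hfin := finite_torsion_of_imp W hF hroot
  refine ⟨hfin, ?_⟩
  have h1 := card_torsion_le_of_imp W hF hroot
  obtain ⟨k, hk⟩ := card_torsionBy_eq_pow (M := W.Point) p hp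
  rw [hk] at h1 ⊢
  have hp2 : 2 ≤ p := hp.two_le
  have hpp : 0 < p ^ 2 := by positivity
  have h2 : p ^ k < p ^ 3 := by
    have h3 : 2 * p ^ 2 ≤ p ^ 3 := by
      rw [pow_succ p 2]
      nlinarith
    omega
  have hk3 : k < 3 := (Nat.pow_lt_pow_iff_right hp.one_lt).mp h2
  exact Nat.pow_le_pow_right hp.pos (by omega)

end Fermat.Agent.S13.W.H14
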