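import Fermat.Agent.S13.W.H1_Defs

/-!
# S13, package W, leaf [E] : zeros of functions on the curve (helper6)

* `E_evalAt_mul_neg` : `g(P) * g(-P) = N(g)(x(P))`;
* `E_exists_zero` : a function with nonconstant norm has a zero (algebraically closed field);
* `E_double_root` : a common zero at `P` and `-P ≠ P` is a double root of the norm;
* `E_evalAt_eq_zero_iff` : the kernel of evaluation at `(x, y)` is `XYIdeal W x (C y)`.
-/

set_option autoImplicit false

open Polynomial
open scoped Polynomial.Bivariate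
open WeierstrassCurve.Affine

namespace Fermat.Agent.S13.Wr

universe u

section CommRing

variable {K : Type u} [CommRing K] (W : WeierstrassCurve.Affine K)

lemma h6_eval_polyA (x : K) : (polyA W).eval x = W.a₁ * x + W.a₃ := by
  simp [polyA]

lemma h6_eval_polyB (x : K) :
    (polyB W).eval x = x ^ 3 + W.a₂ * x ^ 2 + W.a₄ * x + W.a₆ := by
  simp [polyB]

lemma h6_eval_nrm_pq (p q : K[X]) (x : K) :
    (nrm W (pq W p q)).eval x =
      p.eval x ^ 2 - p.eval x * q.eval x * (W.a₁ * x + W.a₃)
        - q.eval x ^ 2 * (x ^ 3 + W.a₂ * x ^ 2 + W.a₄ * x + W.a₆) := by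
  rw [nrm_pq]
  simp only [eval_sub, eval_mul, eval_pow, h6_eval_polyA, h6_eval_polyB]

/-- `g(P) * g(-P) = N(g)(x(P))`, over any commutative ring. -/
theorem h6_evalAt_mul_neg {x y : K} (h : W.Equation x y) (h' : W.Equation x (W.negY x y))
    (g : W.CoordinateRing) : evalAt W h g * evalAt W h' g = (nrm W g).eval x := by
  have key : ∀ p q : K[X],
      evalAt W h (pq W p q) * evalAt W h' (pq W p q) = (nrm W (pq W p q)).eval x := by
    intro p q
    rw [evalAt_pq, evalAt_pq, h6_eval_nrm_pq]
    have he := (equation_iff x y).mp h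
    simp only [negY]
    linear_combination (-(q.eval x) ^ 2) * he
  have := key (cp W g) (cq W g)
  rwa [pq_cp_cq] at this

/-- Evaluation at `(x, y)` kills `XYIdeal W x (C y)`. -/
lemma h6_evalAt_eq_zero_of_mem {x y : K} (h : W.Equation x y) {g : W.CoordinateRing}
    (hg : g ∈ CoordinateRing.XYIdeal W x (C y)) : evalAt W h g = 0 := by
  have hle : CoordinateRing.XYIdeal W x (C y) ≤ RingHom.ker (evalRH W h) := by
    unfold CoordinateRing.XYIdeal
    rw [Ideal.span_le]
    intro z hz
    simp only [Set.mem_insert_iff, Set.mem_singleton_iff] at hz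
    rcases hz with rfl | rfl
    · show evalRH W h (CoordinateRing.XClass W x) = 0
      unfold CoordinateRing.XClass
      rw [evalRH_mk]
      simp [evalEval]
    · show evalRH W h (CoordinateRing.YClass W (C y)) = 0
      unfold CoordinateRing.YClass
      rw [evalRH_mk]
      simp [evalEval]
  exact hle hg

/-- `pq W p q` is in `XYIdeal W x (C y)` as soon as it vanishes at `(x, y)`. -/
lemma h6_pq_mem {x y : K} (p q : K[X]) (h0 : p.eval x + q.eval x * y = 0) :
    pq W p q ∈ CoordinateRing.XYIdeal W x (C y) := by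
  obtain ⟨p₁, hp₁⟩ : X - C x ∣ p - C (p.eval x) := X_sub_C_dvd_sub_C_eval
  obtain ⟨q₁, hq₁⟩ : X - C x ∣ q - C (q.eval x) := X_sub_C_dvd_sub_C_eval
  have hp : p = (X - C x) * p₁ + C (p.eval x) := by rw [← hp₁]; ring
  have hq : q = (X - C x) * q₁ + C (q.eval x) := by rw [← hq₁]; ring
  have h1 : pq W p q = CoordinateRing.mk W (C p + C q * Y) := by
    unfold pq
    rw [map_add, map_mul, Algebra.smul_def, Algebra.smul_def, mul_one]
    rfl
  have h2 : (C p + C q * Y : K[X][Y]) =
      (C p₁ + C q₁ * Y) * C (X - C x) + C (C (q.eval x)) * (Y - C (C y))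
        + C (C (p.eval x + q.eval x * y)) := by
    conv_lhs => rw [hp, hq]
    simp only [map_add, map_mul, map_sub]
    ring
  rw [h1, h2, h0, map_zero, map_zero, add_zero, map_add, map_mul, map_mul]
  unfold CoordinateRing.XYIdeal
  refine Ideal.add_mem _ (Ideal.mul_mem_left _ _ ?_) (Ideal.mul_mem_left _ _ ?_)
  · exact Ideal.subset_span (by simp [CoordinateRing.XClass])
  · exact Ideal.subset_span (by simp [CoordinateRing.YClass])

/-- The kernel of evaluation at `(x, y)` is `XYIdeal W x (C y)`, over any commutative ring. -/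
theorem h6_evalAt_eq_zero_iff {x y : K} (h : W.Equation x y) (g : W.CoordinateRing) :
    evalAt W h g = 0 ↔ g ∈ CoordinateRing.XYIdeal W x (C y) := by
  refine ⟨fun h0 => ?_, h6_evalAt_eq_zero_of_mem W h⟩
  rw [← pq_cp_cq W g] at h0 ⊢
  rw [evalAt_pq] at h0
  exact h6_pq_mem W _ _ h0

end CommRing

section Domain

variable {K : Type u} [CommRing K] [IsDomain K] (W : WeierstrassCurve.Affine K)

/-- A common zero at `(x, y)` and `(x, y')`, `y ≠ y'`, is a double root of the norm. -/
theorem h6_double_root {x y y' : K} (h : W.Equation x y) (h' : W.Equation x y') (hy : y ≠ y')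
    (g : W.CoordinateRing) (h0 : evalAt W h g = 0) (h0' : evalAt W h' g = 0) :
    (X - C x) ^ 2 ∣ nrm W g := by
  rw [← pq_cp_cq W g, evalAt_pq] at h0 h0'
  set p := cp W g
  set q := cq W g
  have hq0 : q.eval x = 0 := by
    have : q.eval x * (y - y') = 0 := by linear_combination h0 - h0'
    rcases mul_eq_zero.mp this with h1 | h1
    · exact h1
    · exact absurd (sub_eq_zero.mp h1) hy
  have hp0 : p.eval x = 0 := by rw [hq0, zero_mul, add_zero] at h0; exact h0
  obtain ⟨p₁, hp₁⟩ : X - C x ∣ p := dvd_iff_isRoot.mpr hp0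
  obtain ⟨q₁, hq₁⟩ : X - C x ∣ q := dvd_iff_isRoot.mpr hq0
  refine ⟨p₁ ^ 2 - p₁ * q₁ * polyA W - q₁ ^ 2 * polyB W, ?_⟩
  unfold nrm
  change p ^ 2 - p * q * polyA W - q ^ 2 * polyB W = _
  rw [hp₁, hq₁]
  ring

end Domain

/-! ### The statements of the interface (findings #130), verbatim -/

theorem E_evalAt_mul_neg {K : Type u} [Field K] (W : WeierstrassCurve.Affine K) {x y : K}
    (h : W.Equation x y) (h' : W.Equation x (W.negY x y)) (g : W.CoordinateRing) :
    evalAt W h g * evalAt W h' g = (nrm W g).eval x :=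
  h6_evalAt_mul_neg W h h' g

theorem E_exists_zero {K : Type u} [Field K] [IsAlgClosed K] (W : WeierstrassCurve.Affine K)
    (g : W.CoordinateRing) (hg : 0 < (nrm W g).natDegree) :
    ∃ (x y : K) (h : W.Equation x y), evalAt W h g = 0 := by
  have hd : (nrm W g).degree ≠ 0 := (natDegree_pos_iff_degree_pos.mp hg).ne'
  obtain ⟨x, hx⟩ := IsAlgClosed.exists_root (nrm W g) hd
  -- a point over `x`
  obtain ⟨y, hy⟩ : ∃ y : K, W.Equation x y := by
    set q : K[X] :=
      X ^ 2 + C (W.a₁ * x + W.a₃) * X - C (x ^ 3 + W.a₂ * x ^ 2 + W.a₄ * x + W.a₆) with hq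
    have hdeg : q.degree = 2 := by
      rw [hq]
      compute_degree!
    obtain ⟨y, hy⟩ := IsAlgClosed.exists_root q (by rw [hdeg]; norm_num)
    refine ⟨y, ?_⟩
    rw [equation_iff]
    have : y ^ 2 + (W.a₁ * x + W.a₃) * y - (x ^ 3 + W.a₂ * x ^ 2 + W.a₄ * x + W.a₆) = 0 := by
      simpa [hq, IsRoot.def] using hy
    linear_combination this
  have hy' : W.Equation x (W.negY x y) := (equation_neg x y).mpr hy
  have hmul := h6_evalAt_mul_neg W hy hy' g
  rw [IsRoot.def] at hx
  rw [hx] at hmul
  rcases mul_eq_zero.mp hmul with h1 | h1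
  · exact ⟨x, y, hy, h1⟩
  · exact ⟨x, W.negY x y, hy', h1⟩

theorem E_double_root {K : Type u} [Field K] (W : WeierstrassCurve.Affine K) {x y : K}
    (h : W.Equation x y) (h' : W.Equation x (W.negY x y)) (hy : y ≠ W.negY x y)
    (g : W.CoordinateRing) (h0 : evalAt W h g = 0) (h0' : evalAt W h' g = 0) :
    (X - C x) ^ 2 ∣ nrm W g :=
  h6_double_root W h h' hy g h0 h0'

theorem E_evalAt_eq_zero_iff {K : Type u} [Field K] (W : WeierstrassCurve.Affine K) {x y : K}
    (h : W.Equation x y) (g : W.CoordinateRing) :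
    evalAt W h g = 0 ↔ g ∈ CoordinateRing.XYIdeal W x (C y) :=
  h6_evalAt_eq_zero_iff W h g

end Fermat.Agent.S13.Wr
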