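import Fermat.Agent.S13.W.H1_PsiData
import Fermat.Agent.S13.W.H14_Count
import Fermat.Agent.S13.W.H6_Zeros
import Fermat.Agent.S13.Asm.H11_Interfaces

/-!
# S13, package W (helper1): the deliverable `StTweak P`

`E[p] ≠ 0`, `E[p]` finite, `#E[p] ≤ p²` for the Frey curve over `AlgebraicClosure ℚ`, directly on
the Frey model (general `a_i`): the norm `F = N(Wr)` of the Wronskian has degree `p² - 1`, and the
nonzero `p`-torsion points are exactly the points over the roots of `F`.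
-/

set_option autoImplicit false

open Polynomial
open scoped Polynomial.Bivariate

namespace Fermat.Agent.S13.Wr

open WeierstrassCurve WeierstrassCurve.Affine

universe u

section General

variable {K : Type u} [Field K] [CharZero K] (W : WeierstrassCurve.Affine K)

lemma h1_risMat_det_ne_zero (p : ℕ) (hp : p.Prime) (hp2 : 2 < p) : (risMat p).det ≠ 0 := by
  intro h0
  apply (H5.B_vdm p hp hp2).2
  have : (Matrix.of fun (i j : Fin p) =>
      (ascPochhammer ℤ (i : ℕ)).eval ((ordN (j : ℕ) : ℕ) : ℤ)).det = 0 := h0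
  rw [this]; exact dvd_zero _

/-- the norm of the Wronskian has degree exactly `p² - 1`. -/
theorem natDegree_nrm_Wr (p : ℕ) (hp : p.Prime) (hp2 : 2 < p) :
    (nrm W (Wr W p)).natDegree = p ^ 2 - 1 := by
  have hF := Fil_lc_Wr W p
  rw [sum_ord p hp.pos] at hF
  apply le_antisymm
  · rw [← norm_eq_nrm]
    exact (Fermat.Agent.S13.W.fil_iff_natDegree_norm W _ _).mp hF.1
  · by_contra hlt
    replace hlt := not_le.mp hlt
    have h1 : (Algebra.norm K[X] (Wr W p)).natDegree ≤ p ^ 2 - 1 - 1 := by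
      rw [norm_eq_nrm]; omega
    have h2 := (Fermat.Agent.S13.W.fil_iff_natDegree_norm W _ _).mpr h1
    have hp1 : 1 ≤ p ^ 2 - 1 := by
      have : 3 ≤ p := hp2
      have : 9 ≤ p ^ 2 := by nlinarith
      omega
    have h3 := lc_eq_zero_of_Fil W h2 (show p ^ 2 - 1 - 1 < p ^ 2 - 1 by omega)
    rw [hF.2] at h3
    exact h1_risMat_det_ne_zero p hp hp2 (by exact_mod_cast h3)

variable [DecidableEq K]

/-- roots of the norm of the Wronskian. -/
theorem eval_nrm_Wr_eq_zero {x y : K} (h : W.Nonsingular x y) (n : ℕ) (hn : 0 < n)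
    (hP : n • (Point.some x y h : W.Point) = 0) : (nrm W (Wr W n)).eval x = 0 := by
  have h' : W.Equation x (W.negY x y) := (W.equation_neg x y).mpr h.1
  rw [← E_evalAt_mul_neg W h.1 h', (nsmul_eq_zero_iff_evalAt_Wr W h n hn).mp hP, zero_mul]

/-- `E[p]` is nontrivial, finite, of cardinality at most `p²`. -/
theorem tweak_general [IsAlgClosed K] (hΔ : W.Δ ≠ 0) (p : ℕ) (hp : p.Prime) (hp2 : 2 < p) :
    Nontrivial (Submodule.torsionBy ℤ W.Point p) ∧
      Finite (Submodule.torsionBy ℤ W.Point p) ∧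
      Nat.card (Submodule.torsionBy ℤ W.Point p) ≤ p ^ 2 := by
  have hdeg := natDegree_nrm_Wr W p hp hp2
  have hpos : 0 < (nrm W (Wr W p)).natDegree := by
    rw [hdeg]
    have : 3 ≤ p := hp2
    have : 9 ≤ p ^ 2 := by nlinarith
    omega
  have hF0 : nrm W (Wr W p) ≠ 0 := by
    intro h0; rw [h0] at hpos; simp at hpos
  obtain ⟨hfin, hcard⟩ := Fermat.Agent.S13.W.H14.G_count W p hp (nrm W (Wr W p)) hF0 hdeg.le
    (fun x y h hP => eval_nrm_Wr_eq_zero W h p hp.pos hP)
  refine ⟨?_, hfin, hcard⟩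
  obtain ⟨x, y, h, hev⟩ := E_exists_zero W (Wr W p) hpos
  have hns : W.Nonsingular x y := (W.equation_iff_nonsingular_of_Δ_ne_zero hΔ).mp h
  have hP : p • (Point.some x y hns : W.Point) = 0 :=
    (nsmul_eq_zero_iff_evalAt_Wr W hns p hp.pos).mpr hev
  refine ⟨⟨⟨Point.some x y hns, ?_⟩, 0, ?_⟩⟩
  · rw [Submodule.mem_torsionBy_iff]
    rw [natCast_zsmul]
    exact hP
  · intro h0
    have := congrArg Subtype.val h0
    exact Point.some_ne_zero hns this

end General

/-- the discriminant of the Frey curve. -/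
lemma h1_freyCurve_Δ (P : FreyPackage) :
    P.freyCurve.Δ = ((P.a : ℚ) ^ P.p * (P.b : ℚ) ^ P.p * (P.c : ℚ) ^ P.p) ^ 2 / 256 := by
  have hc : (P.c : ℚ) ^ P.p = (P.a : ℚ) ^ P.p + (P.b : ℚ) ^ P.p := by
    have := P.hFLT
    exact_mod_cast this.symm
  rw [hc]
  simp only [WeierstrassCurve.Δ, WeierstrassCurve.b₂, WeierstrassCurve.b₄, WeierstrassCurve.b₆,
    WeierstrassCurve.b₈, FreyPackage.freyCurve]
  ring

lemma h1_freyCurve_Δ_ne_zero (P : FreyPackage) : P.freyCurve.Δ ≠ 0 := by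
  rw [h1_freyCurve_Δ]
  have ha : (P.a : ℚ) ≠ 0 := by exact_mod_cast P.ha0
  have hb : (P.b : ℚ) ≠ 0 := by exact_mod_cast P.hb0
  have hc : (P.c : ℚ) ≠ 0 := by exact_mod_cast P.hc0
  positivity

open Fermat.Agent.S13.Asm in
/-- **Deliverable (W) of S13**: `E[p] ≠ 0`, finite, `#E[p] ≤ p²` for the Frey curve. -/
theorem stTweak (P : FreyPackage) : StTweak P := by
  classical
  have hΔ : (P.freyCurve⁄Kbar).toAffine.Δ ≠ 0 := by
    change (P.freyCurve.map (algebraMap ℚ Kbar)).Δ ≠ 0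
    rw [WeierstrassCurve.map_Δ]
    intro h0
    exact h1_freyCurve_Δ_ne_zero P ((map_eq_zero _).mp h0)
  have h := tweak_general (P.freyCurve⁄Kbar).toAffine hΔ P.p P.pp (by have := P.hp5; omega)
  exact h

end Fermat.Agent.S13.Wr
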