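import Mathlib

/-!
# S13, package W, leaf W1 (helper15): order of vanishing via a derivation

## Abstract layer

`R` a commutative ring, `D` a derivation of `R`, `m` a prime ideal, `t ∈ m` with
`m ≤ span {t} ⊔ m ^ 2`, `D t ∉ m`, and no positive integer in `m`.  Then
`g ∈ m ^ k ↔ ∀ i < k, D^[i] g ∈ m`.
-/

set_option autoImplicit false

namespace Fermat.Agent.S13.W.H15

section abstract

variable {A R : Type*} [CommRing A] [CommRing R] [Algebra A R] (D : Derivation A R R)
  (m : Ideal R)

/-- A derivation maps `m ^ (k + 1)` into `m ^ k`. -/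
lemma deriv_mem_pow (k : ℕ) {g : R} (hg : g ∈ m ^ (k + 1)) : D g ∈ m ^ k := by
  induction k generalizing g with
  | zero => simp
  | succ k ih =>
    rw [pow_succ] at hg
    refine Submodule.mul_induction_on hg ?_ ?_
    · intro a ha b hb
      rw [D.leibniz, smul_eq_mul, smul_eq_mul]
      refine add_mem (Ideal.mul_mem_right _ _ ha) ?_
      rw [pow_succ', ]
      exact Ideal.mul_mem_mul hb (ih ha)
    · intro x y hx hy
      rw [map_add]
      exact add_mem hx hy

/-- The `i`-th iterate of a derivation maps `m ^ (k + i)` into `m ^ k`. -/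
lemma iterate_mem_pow (i k : ℕ) {g : R} (hg : g ∈ m ^ (k + i)) : D^[i] g ∈ m ^ k := by
  induction i generalizing g k with
  | zero => simpa using hg
  | succ i ih =>
    rw [Function.iterate_succ_apply]
    apply ih
    apply deriv_mem_pow
    rw [add_assoc]
    rwa [Nat.add_comm i 1] at *

lemma iterate_mem_of_mem_pow {i k : ℕ} (hik : i < k) {g : R} (hg : g ∈ m ^ k) : D^[i] g ∈ m := by
  have h1 : g ∈ m ^ (1 + i) := Ideal.pow_le_pow_right (by omega) hg
  simpa using iterate_mem_pow D m i 1 h1

lemma iterate_add (i : ℕ) (a b : R) : D^[i] (a + b) = D^[i] a + D^[i] b := by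
  induction i generalizing a b with
  | zero => rfl
  | succ i ih => rw [Function.iterate_succ_apply, Function.iterate_succ_apply,
      Function.iterate_succ_apply, map_add, ih]

/-- Leading term of `D^k (a t^k)` modulo `m`. -/
lemma iterate_mul_pow_sub_mem {t : R} (ht : t ∈ m) (k : ℕ) (a : R) :
    D^[k] (a * t ^ k) - (k.factorial : R) * a * (D t) ^ k ∈ m := by
  induction k generalizing a with
  | zero => simp
  | succ k ih =>
    rw [Function.iterate_succ_apply]
    have e : D (a * t ^ (k + 1)) = (((k + 1 : ℕ) : R) * a * D t) * t ^ k + D a * t ^ (k + 1) := by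
      rw [D.leibniz, D.leibniz_pow, smul_eq_mul, smul_eq_mul, Nat.add_sub_cancel]
      simp only [nsmul_eq_mul, smul_eq_mul]
      ring
    rw [e, iterate_add]
    have h1 := ih (((k + 1 : ℕ) : R) * a * D t)
    have h2 : D^[k] (D a * t ^ (k + 1)) ∈ m := by
      apply iterate_mem_of_mem_pow D m (Nat.lt_succ_self k)
      exact Ideal.mul_mem_left _ _ (Ideal.pow_mem_pow ht _)
    have e2 : D^[k] (((k + 1 : ℕ) : R) * a * D t * t ^ k) + D^[k] (D a * t ^ (k + 1))
        - ((k + 1).factorial : R) * a * D t ^ (k + 1)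
        = (D^[k] (((k + 1 : ℕ) : R) * a * D t * t ^ k)
            - (k.factorial : R) * (((k + 1 : ℕ) : R) * a * D t) * D t ^ k)
          + D^[k] (D a * t ^ (k + 1)) := by
      rw [Nat.factorial_succ]
      push_cast
      ring
    rw [e2]
    exact add_mem h1 h2

variable {D m}

/-- `m ^ k ≤ span {t ^ k} ⊔ m ^ (k + 1)` if `m ≤ span {t} ⊔ m ^ 2` and `t ∈ m`. -/
lemma pow_le_span_sup {t : R} (ht : t ∈ m) (hm : m ≤ Ideal.span {t} ⊔ m ^ 2) (k : ℕ) :
    m ^ k ≤ Ideal.span {t ^ k} ⊔ m ^ (k + 1) := by
  induction k with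
  | zero =>
    rw [pow_zero, pow_zero, Ideal.span_singleton_one]
    exact le_sup_of_le_left le_top
  | succ k ih =>
    have htk : Ideal.span {t ^ k} ≤ m ^ k := by
      rw [Ideal.span_singleton_le_iff_mem]
      exact Ideal.pow_mem_pow ht k
    have ht1 : Ideal.span {t} ≤ m := by
      rw [Ideal.span_singleton_le_iff_mem]
      exact ht
    calc m ^ (k + 1) = m ^ k * m := pow_succ m k
      _ ≤ (Ideal.span {t ^ k} ⊔ m ^ (k + 1)) * (Ideal.span {t} ⊔ m ^ 2) := Ideal.mul_mono ih hm
      _ = Ideal.span {t ^ k} * Ideal.span {t} ⊔ Ideal.span {t ^ k} * m ^ 2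
            ⊔ (m ^ (k + 1) * Ideal.span {t} ⊔ m ^ (k + 1) * m ^ 2) := by
          rw [Ideal.sup_mul, Ideal.mul_sup, Ideal.mul_sup]
      _ ≤ Ideal.span {t ^ (k + 1)} ⊔ m ^ (k + 1 + 1) := by
          refine sup_le (sup_le ?_ ?_) (sup_le ?_ ?_)
          · rw [Ideal.span_singleton_mul_span_singleton, ← pow_succ]
            exact le_sup_left
          · refine le_trans (Ideal.mul_mono htk le_rfl) ?_
            rw [← pow_add]
            exact le_sup_right
          · refine le_trans (Ideal.mul_mono le_rfl ht1) ?_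
            rw [← pow_succ]
            exact le_sup_right
          · rw [← pow_add]
            exact le_trans (Ideal.pow_le_pow_right (by omega)) le_sup_right

variable (D m)

/-- **W1, abstract form.** -/
theorem mem_pow_iff_iterate_mem [m.IsPrime] {t : R} (ht : t ∈ m)
    (hm : m ≤ Ideal.span {t} ⊔ m ^ 2) (hDt : D t ∉ m)
    (hn : ∀ n : ℕ, n ≠ 0 → (n : R) ∉ m) (k : ℕ) (g : R) :
    g ∈ m ^ k ↔ ∀ i < k, D^[i] g ∈ m := by
  constructor
  · intro hg i hi
    exact iterate_mem_of_mem_pow D m hi hg
  · induction k generalizing g with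
    | zero => intro _; simp
    | succ k ih =>
      intro h
      have hgk : g ∈ m ^ k := ih g (fun i hi => h i (Nat.lt_succ_of_lt hi))
      have h2 := pow_le_span_sup ht hm k hgk
      rw [Submodule.mem_sup] at h2
      obtain ⟨y, hy, z, hz, hyz⟩ := h2
      rw [Ideal.mem_span_singleton'] at hy
      obtain ⟨a, rfl⟩ := hy
      have h3 : D^[k] g ∈ m := h k (Nat.lt_succ_self k)
      rw [← hyz, iterate_add] at h3
      have h4 : D^[k] z ∈ m := iterate_mem_of_mem_pow D m (Nat.lt_succ_self k) hz
      have h5 : D^[k] (a * t ^ k) ∈ m := by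
        have := sub_mem h3 h4
        simpa using this
      have h6 := iterate_mul_pow_sub_mem D m ht k a
      have h7 : (k.factorial : R) * a * (D t) ^ k ∈ m := by
        have := sub_mem h5 h6
        simpa using this
      have h8 : a ∈ m := by
        rcases Ideal.IsPrime.mem_or_mem ‹m.IsPrime› h7 with h9 | h9
        · rcases Ideal.IsPrime.mem_or_mem ‹m.IsPrime› h9 with h10 | h10
          · exact absurd h10 (hn _ (Nat.factorial_ne_zero k))
          · exact h10
        · exact absurd (Ideal.IsPrime.mem_of_pow_mem ‹m.IsPrime› _ h9) hDt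
      rw [← hyz]
      refine add_mem ?_ hz
      rw [pow_succ']
      exact Ideal.mul_mem_mul h8 (Ideal.pow_mem_pow ht k)

/-- `t ^ k ∉ m ^ (k + 1)`. -/
theorem pow_not_mem_pow_succ [m.IsPrime] {t : R} (ht : t ∈ m) (hDt : D t ∉ m)
    (hn : ∀ n : ℕ, n ≠ 0 → (n : R) ∉ m) (k : ℕ) : t ^ k ∉ m ^ (k + 1) := by
  intro h
  have h1 : D^[k] (t ^ k) ∈ m := iterate_mem_of_mem_pow D m (Nat.lt_succ_self k) h
  have h2 := iterate_mul_pow_sub_mem D m ht k 1
  rw [one_mul, mul_one] at h2
  have h3 : (k.factorial : R) * (D t) ^ k ∈ m := by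
    have := sub_mem h1 h2
    simpa using this
  rcases Ideal.IsPrime.mem_or_mem ‹m.IsPrime› h3 with h9 | h9
  · exact hn _ (Nat.factorial_ne_zero k) h9
  · exact hDt (Ideal.IsPrime.mem_of_pow_mem ‹m.IsPrime› _ h9)

end abstract

section curve

open Polynomial WeierstrassCurve WeierstrassCurve.Affine
open scoped Polynomial.Bivariate

variable {F : Type*} [Field F] (W : Affine F)

/-- Evaluation at a point of the curve, as a ring homomorphism on the coordinate ring. -/
noncomputable abbrev evalAt {x y : F} (h : W.Equation x y) : W.CoordinateRing →+* F :=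
  AdjoinRoot.evalEval h

lemma evalAt_mk {x y : F} (h : W.Equation x y) (p : F[X][Y]) :
    evalAt W h (CoordinateRing.mk W p) = p.evalEval x y :=
  AdjoinRoot.evalEval_mk h p

lemma evalAt_algebraMap {x y : F} (h : W.Equation x y) (c : F) :
    evalAt W h (algebraMap F W.CoordinateRing c) = c := by
  have e : algebraMap F W.CoordinateRing c = CoordinateRing.mk W (C (C c)) := rfl
  rw [e, evalAt_mk, evalEval_CC]

lemma XYIdeal_isMaximal {x y : F} (h : W.Equation x y) :
    (CoordinateRing.XYIdeal W x (C y)).IsMaximal := by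
  apply Ideal.Quotient.maximal_of_isField
  exact (CoordinateRing.quotientXYIdealEquiv h).toRingEquiv.toMulEquiv.isField
    (Field.toIsField F)

lemma XClass_eq (x : F) :
    CoordinateRing.XClass W x = CoordinateRing.mk W (C X) - algebraMap F W.CoordinateRing x := by
  have e : algebraMap F W.CoordinateRing x = CoordinateRing.mk W (C (C x)) := rfl
  rw [e, CoordinateRing.XClass, ← map_sub, ← C_sub]

lemma YClass_eq (y : F) :
    CoordinateRing.YClass W (C y)
      = CoordinateRing.mk W Y - algebraMap F W.CoordinateRing y := by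
  have e : algebraMap F W.CoordinateRing y = CoordinateRing.mk W (C (C y)) := rfl
  rw [e, CoordinateRing.YClass, ← map_sub]

lemma evalAt_XClass {x y : F} (h : W.Equation x y) :
    evalAt W h (CoordinateRing.XClass W x) = 0 := by
  rw [CoordinateRing.XClass, evalAt_mk, evalEval_C]
  simp

lemma evalAt_YClass {x y : F} (h : W.Equation x y) :
    evalAt W h (CoordinateRing.YClass W (C y)) = 0 := by
  rw [CoordinateRing.YClass, evalAt_mk]
  simp [evalEval]

/-- The maximal ideal of a point is the kernel of the evaluation. -/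
lemma mem_XYIdeal_iff {x y : F} (h : W.Equation x y) (g : W.CoordinateRing) :
    g ∈ CoordinateRing.XYIdeal W x (C y) ↔ evalAt W h g = 0 := by
  have hle : CoordinateRing.XYIdeal W x (C y) ≤ RingHom.ker (evalAt W h) := by
    rw [CoordinateRing.XYIdeal, Ideal.span_le]
    rintro z (rfl | rfl)
    · exact evalAt_XClass W h
    · exact evalAt_YClass W h
  have hmax := XYIdeal_isMaximal W h
  have hne : RingHom.ker (evalAt W h) ≠ ⊤ := RingHom.ker_ne_top _
  have heq := hmax.eq_of_le hne hle
  rw [heq, RingHom.mem_ker]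

/-- Taylor expansion of the Weierstrass polynomial at a point of the curve. -/
lemma taylor_identity {x y : F} (h : W.Equation x y) :
    algebraMap F W.CoordinateRing (W.polynomialX.evalEval x y) * CoordinateRing.XClass W x
      + algebraMap F W.CoordinateRing (W.polynomialY.evalEval x y)
          * CoordinateRing.YClass W (C y)
      = -(CoordinateRing.YClass W (C y) ^ 2
          + algebraMap F W.CoordinateRing W.a₁ * CoordinateRing.XClass W x
              * CoordinateRing.YClass W (C y)
          - (CoordinateRing.XClass W x + algebraMap F W.CoordinateRing (3 * x + W.a₂))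
              * CoordinateRing.XClass W x ^ 2) := by
  have hW : W.polynomial.evalEval x y = 0 := h
  rw [evalEval_polynomial] at hW
  have key : W.polynomial
      = (Y - C (C y)) ^ 2 + C (C W.a₁) * C (X - C x) * (Y - C (C y))
        - (C (X - C x) + C (C (3 * x + W.a₂))) * C (X - C x) ^ 2
        + C (C (W.polynomialX.evalEval x y)) * C (X - C x)
        + C (C (W.polynomialY.evalEval x y)) * (Y - C (C y))
        + C (C (y ^ 2 + W.a₁ * x * y + W.a₃ * y
            - (x ^ 3 + W.a₂ * x ^ 2 + W.a₄ * x + W.a₆))) := by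
    rw [evalEval_polynomialX, evalEval_polynomialY, Affine.polynomial]
    simp only [map_ofNat, C_add, C_sub, C_mul, C_pow]
    ring1
  rw [hW, C_0, C_0, add_zero] at key
  have h0 : CoordinateRing.mk W ((Y - C (C y)) ^ 2 + C (C W.a₁) * C (X - C x) * (Y - C (C y))
        - (C (X - C x) + C (C (3 * x + W.a₂))) * C (X - C x) ^ 2
        + C (C (W.polynomialX.evalEval x y)) * C (X - C x)
        + C (C (W.polynomialY.evalEval x y)) * (Y - C (C y))) = 0 := by
    rw [← key]
    exact AdjoinRoot.mk_self
  simp only [map_add, map_sub, map_mul, map_pow] at h0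
  have e1 : ∀ c : F, algebraMap F W.CoordinateRing c = CoordinateRing.mk W (C (C c)) :=
    fun _ => rfl
  simp only [e1, CoordinateRing.XClass, CoordinateRing.YClass]
  simp only [map_add, map_sub, map_mul]
  linear_combination h0

lemma XClass_mem {x : F} (y : F) :
    CoordinateRing.XClass W x ∈ CoordinateRing.XYIdeal W x (C y) :=
  Ideal.subset_span (by simp)

lemma YClass_mem (x : F) {y : F} :
    CoordinateRing.YClass W (C y) ∈ CoordinateRing.XYIdeal W x (C y) :=
  Ideal.subset_span (by simp)

/-- The quadratic part of the Taylor expansion lies in `m ^ 2`. -/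
lemma taylor_quad_mem (x y : F) :
    -(CoordinateRing.YClass W (C y) ^ 2
          + algebraMap F W.CoordinateRing W.a₁ * CoordinateRing.XClass W x
              * CoordinateRing.YClass W (C y)
          - (CoordinateRing.XClass W x + algebraMap F W.CoordinateRing (3 * x + W.a₂))
              * CoordinateRing.XClass W x ^ 2) ∈ CoordinateRing.XYIdeal W x (C y) ^ 2 := by
  have hu := XClass_mem W (x := x) y
  have hv := YClass_mem W x (y := y)
  refine neg_mem (sub_mem (add_mem (Ideal.pow_mem_pow hv 2) ?_)
    (Ideal.mul_mem_left _ _ (Ideal.pow_mem_pow hu 2)))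
  rw [mul_assoc, pow_two]
  exact Ideal.mul_mem_left _ _ (Ideal.mul_mem_mul hu hv)

lemma le_span_Y_sup {x y : F} (h : W.Equation x y) (hX : W.polynomialX.evalEval x y ≠ 0) :
    CoordinateRing.XYIdeal W x (C y)
      ≤ Ideal.span {CoordinateRing.YClass W (C y)} ⊔ CoordinateRing.XYIdeal W x (C y) ^ 2 := by
  have hv : CoordinateRing.YClass W (C y)
      ∈ Ideal.span {CoordinateRing.YClass W (C y)} ⊔ CoordinateRing.XYIdeal W x (C y) ^ 2 :=
    Ideal.mem_sup_left (Ideal.mem_span_singleton_self _)
  have hq := Ideal.mem_sup_right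
    (S := Ideal.span {CoordinateRing.YClass W (C y)}) (taylor_quad_mem W x y)
  rw [← taylor_identity W h] at hq
  have hu : algebraMap F W.CoordinateRing (W.polynomialX.evalEval x y)
      * CoordinateRing.XClass W x
      ∈ Ideal.span {CoordinateRing.YClass W (C y)} ⊔ CoordinateRing.XYIdeal W x (C y) ^ 2 := by
    have := sub_mem hq (Ideal.mul_mem_left _
      (algebraMap F W.CoordinateRing (W.polynomialY.evalEval x y)) hv)
    simpa using this
  have hu' : CoordinateRing.XClass W x
      ∈ Ideal.span {CoordinateRing.YClass W (C y)} ⊔ CoordinateRing.XYIdeal W x (C y) ^ 2 := by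
    have := Ideal.mul_mem_left _
      (algebraMap F W.CoordinateRing (W.polynomialX.evalEval x y)⁻¹) hu
    rw [← mul_assoc, ← map_mul, inv_mul_cancel₀ hX, map_one, one_mul] at this
    exact this
  rw [CoordinateRing.XYIdeal, Ideal.span_le]
  rintro z (rfl | rfl)
  · exact hu'
  · exact hv

lemma le_span_X_sup {x y : F} (h : W.Equation x y) (hY : W.polynomialY.evalEval x y ≠ 0) :
    CoordinateRing.XYIdeal W x (C y)
      ≤ Ideal.span {CoordinateRing.XClass W x} ⊔ CoordinateRing.XYIdeal W x (C y) ^ 2 := by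
  have hu : CoordinateRing.XClass W x
      ∈ Ideal.span {CoordinateRing.XClass W x} ⊔ CoordinateRing.XYIdeal W x (C y) ^ 2 :=
    Ideal.mem_sup_left (Ideal.mem_span_singleton_self _)
  have hq := Ideal.mem_sup_right
    (S := Ideal.span {CoordinateRing.XClass W x}) (taylor_quad_mem W x y)
  rw [← taylor_identity W h] at hq
  have hv : algebraMap F W.CoordinateRing (W.polynomialY.evalEval x y)
      * CoordinateRing.YClass W (C y)
      ∈ Ideal.span {CoordinateRing.XClass W x} ⊔ CoordinateRing.XYIdeal W x (C y) ^ 2 := by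
    have := sub_mem hq (Ideal.mul_mem_left _
      (algebraMap F W.CoordinateRing (W.polynomialX.evalEval x y)) hu)
    simpa using this
  have hv' : CoordinateRing.YClass W (C y)
      ∈ Ideal.span {CoordinateRing.XClass W x} ⊔ CoordinateRing.XYIdeal W x (C y) ^ 2 := by
    have := Ideal.mul_mem_left _
      (algebraMap F W.CoordinateRing (W.polynomialY.evalEval x y)⁻¹) hv
    rw [← mul_assoc, ← map_mul, inv_mul_cancel₀ hY, map_one, one_mul] at this
    exact this
  rw [CoordinateRing.XYIdeal, Ideal.span_le]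
  rintro z (rfl | rfl)
  · exact hu
  · exact hv'

variable [CharZero F]

lemma natCast_not_mem {x y : F} (h : W.Equation x y) (n : ℕ) (hn : n ≠ 0) :
    (n : W.CoordinateRing) ∉ CoordinateRing.XYIdeal W x (C y) := by
  rw [mem_XYIdeal_iff W h, map_natCast]
  exact Nat.cast_ne_zero.2 hn

/-- **W1 (membership form).** For a derivation `D` of the coordinate ring with `D X = W_Y` and
`D Y = - W_X` and a nonsingular point `P = (x, y)` (characteristic zero):
`g ∈ m_P ^ k ↔ ∀ i < k, D^i g ∈ m_P`. -/
theorem mem_XYIdeal_pow_iff' (D : Derivation F W.CoordinateRing W.CoordinateRing)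
    (hDX : D (CoordinateRing.mk W (C X)) = CoordinateRing.mk W W.polynomialY)
    (hDY : D (CoordinateRing.mk W Y) = -CoordinateRing.mk W W.polynomialX)
    {x y : F} (h : W.Nonsingular x y) (k : ℕ) (g : W.CoordinateRing) :
    g ∈ CoordinateRing.XYIdeal W x (C y) ^ k
      ↔ ∀ i < k, D^[i] g ∈ CoordinateRing.XYIdeal W x (C y) := by
  have : (CoordinateRing.XYIdeal W x (C y)).IsPrime := (XYIdeal_isMaximal W h.1).isPrime
  rcases h.2 with hX | hY
  · refine mem_pow_iff_iterate_mem D _ (YClass_mem W x) (le_span_Y_sup W h.1 hX) ?_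
      (natCast_not_mem W h.1) k g
    rw [YClass_eq, map_sub, D.map_algebraMap, sub_zero, hDY, mem_XYIdeal_iff W h.1, map_neg,
      evalAt_mk, neg_eq_zero]
    exact hX
  · refine mem_pow_iff_iterate_mem D _ (XClass_mem W y) (le_span_X_sup W h.1 hY) ?_
      (natCast_not_mem W h.1) k g
    rw [XClass_eq, map_sub, D.map_algebraMap, sub_zero, hDX, mem_XYIdeal_iff W h.1, evalAt_mk]
    exact hY

/-- **W1 (evaluation form).** `g ∈ m_P ^ k ↔ ∀ i < k, (D^i g)(P) = 0`. -/
theorem mem_XYIdeal_pow_iff (D : Derivation F W.CoordinateRing W.CoordinateRing)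
    (hDX : D (CoordinateRing.mk W (C X)) = CoordinateRing.mk W W.polynomialY)
    (hDY : D (CoordinateRing.mk W Y) = -CoordinateRing.mk W W.polynomialX)
    {x y : F} (h : W.Nonsingular x y) (k : ℕ) (g : W.CoordinateRing) :
    g ∈ CoordinateRing.XYIdeal W x (C y) ^ k ↔ ∀ i < k, evalAt W h.1 (D^[i] g) = 0 := by
  rw [mem_XYIdeal_pow_iff' W D hDX hDY h]
  simp only [mem_XYIdeal_iff W h.1]

end curve

end Fermat.Agent.S13.W.H15
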