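import Fermat.Agent.S13.W.H1_Defs
import Fermat.Agent.S13.W.H15_Order

/-!
# S13, package W, leaf W1 (helper15): order of vanishing via the invariant derivation

`W1_mem_pow_iff` : for a nonsingular point `P = (x, y)` of a Weierstrass curve over a field of
characteristic zero, `g ∈ m_P ^ k ↔ ∀ i < k, (D^i g)(P) = 0`, for helper1's derivation `Wr.D W`
and evaluation `Wr.evalAt W`.
-/

set_option autoImplicit false

open Polynomial
open scoped Polynomial.Bivariate
open WeierstrassCurve.Affine

namespace Fermat.Agent.S13.Wr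

universe u

section

variable {K : Type u} [CommRing K] (W : WeierstrassCurve.Affine K)

lemma h15_mk_CX : CoordinateRing.mk W (C X) = pq W X 0 := by
  unfold pq
  rw [zero_smul, add_zero, Algebra.smul_def, mul_one]
  rfl

lemma h15_mk_Y : CoordinateRing.mk W Y = pq W 0 1 := by
  unfold pq
  rw [zero_smul, zero_add, one_smul]

lemma h15_mk_C_add_C_mul_Y (p q : K[X]) :
    CoordinateRing.mk W (C p + C q * Y) = pq W p q := by
  unfold pq
  rw [map_add, map_mul, Algebra.smul_def, Algebra.smul_def, mul_one]
  rfl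

/-- `D X = W_Y`. -/
lemma h15_D_X : D W (CoordinateRing.mk W (C X)) = CoordinateRing.mk W W.polynomialY := by
  rw [h15_mk_CX, D_pq]
  have e : W.polynomialY = C (polyA W) + C (2 : K[X]) * Y := by
    unfold WeierstrassCurve.Affine.polynomialY polyA
    simp only [map_ofNat]
    ring
  rw [e, h15_mk_C_add_C_mul_Y]
  congr 1
  · simp
  · simp

/-- `D Y = - W_X`. -/
lemma h15_D_Y : D W (CoordinateRing.mk W Y) = -CoordinateRing.mk W W.polynomialX := by
  rw [h15_mk_Y, D_pq]
  have e1 : derivative (polyB W) = C 3 * X ^ 2 + C (2 * W.a₂) * X + C W.a₄ := by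
    unfold polyB
    simp only [derivative_add, derivative_mul, derivative_X_pow, derivative_C, derivative_X,
      map_mul, map_ofNat]
    simp
    rw [show (C (3 : K) : K[X]) = 3 from map_ofNat C 3,
      show (C (2 : K) : K[X]) = 2 from map_ofNat C 2]
    ring
  have e2 : derivative (polyA W) = C W.a₁ := by
    unfold polyA
    simp
  have e : -W.polynomialX = C (derivative (polyB W)) + C (-derivative (polyA W)) * Y := by
    rw [e1, e2]
    unfold WeierstrassCurve.Affine.polynomialX
    simp only [map_neg]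
    ring
  rw [← map_neg, e, h15_mk_C_add_C_mul_Y]
  congr 1
  · simp
  · simp

end

lemma h15_evalAt_eq {K : Type u} [Field K] (W : WeierstrassCurve.Affine K) {x y : K}
    (h : W.Equation x y) (g : W.CoordinateRing) :
    evalAt W h g = Fermat.Agent.S13.W.H15.evalAt W h g := by
  have e1 : evalAt W h g = evalRH W h g := rfl
  rw [e1]
  unfold evalRH Fermat.Agent.S13.W.H15.evalAt AdjoinRoot.evalEval
  rfl

/-- **Leaf W1.** -/
theorem W1_mem_pow_iff {K : Type u} [Field K] [CharZero K] (W : WeierstrassCurve.Affine K)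
    {x y : K} (h : W.Nonsingular x y) (k : ℕ) (g : W.CoordinateRing) :
    g ∈ (CoordinateRing.XYIdeal W x (C y)) ^ k ↔
      ∀ i < k, evalAt W h.1 ((D W)^[i] g) = 0 := by
  rw [Fermat.Agent.S13.W.H15.mem_XYIdeal_pow_iff W (D W) (h15_D_X W) (h15_D_Y W) h]
  simp only [h15_evalAt_eq]

/-- The kernel of `evalAt` is the maximal ideal of the point. -/
theorem h15_evalAt_eq_zero_iff {K : Type u} [Field K] (W : WeierstrassCurve.Affine K) {x y : K}
    (h : W.Equation x y) (g : W.CoordinateRing) :
    evalAt W h g = 0 ↔ g ∈ CoordinateRing.XYIdeal W x (C y) := by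
  rw [h15_evalAt_eq, Fermat.Agent.S13.W.H15.mem_XYIdeal_iff W h]

end Fermat.Agent.S13.Wr
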