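import Fermat.Agent.S13.W.H1_Defs

/-!
# S13, package W, leaf W3 (helper17): span of the monomials and the determinant criterion

Everything is about helper1's canonical objects (namespace `Fermat.Agent.S13.Wr`):
`pq`, `cp`, `cq`, `Fil`, `lc`, `ordN`, `monoN`, `mono`, `D`, `evalAt`, `WrMat`, `Wr`.

* `lc_monoN` : `lc W m (monoN W k) = if m = k then 1 else 0` (`m, k ≠ 1`);
* `eq_sum_mono_of_Fil` : `Fil W n g → g = ∑ j : Fin n, lc W (ordN j) g • mono W j` (`n ≥ 1`);
* `sum_mono_eq_zero` : the monomials are linearly independent;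
* `evalAt_Wr_eq_zero_iff` : **W3**: `evalAt W h (Wr W n) = 0 ↔ ∃ g ≠ 0, Fil W n g ∧
  ∀ i < n, evalAt W h ((D W)^[i] g) = 0`.
-/

set_option autoImplicit false

open Polynomial
open scoped Polynomial.Bivariate

namespace Fermat.Agent.S13.W

open WeierstrassCurve.Affine Fermat.Agent.S13.Wr

section CommRing

variable {K : Type*} [CommRing K] (W : WeierstrassCurve.Affine K)

lemma h17_ordN_ne_one (j : ℕ) : ordN j ≠ 1 := by
  unfold ordN; split_ifs <;> omega

lemma h17_ordN_injective : Function.Injective ordN := by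
  intro a b h
  unfold ordN at h
  split_ifs at h <;> omega

lemma h17_ordN_le {n j : ℕ} (hj : j < n) : ordN j ≤ n := by
  unfold ordN; split_ifs <;> omega

/-- every pole order `m ≤ n`, `m ≠ 1` is `ordN j` for some `j < n` (`n ≥ 1`). -/
lemma h17_exists_ordN {n m : ℕ} (hn : 1 ≤ n) (hm : m ≤ n) (hm1 : m ≠ 1) :
    ∃ j, j < n ∧ ordN j = m := by
  rcases Nat.eq_zero_or_pos m with h | h
  · exact ⟨0, by omega, by simp [ordN, h]⟩
  · refine ⟨m - 1, by omega, ?_⟩
    unfold ordN
    rw [if_neg (by omega)]
    omega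

/-- the top coefficients of the monomials. -/
lemma lc_monoN {m k : ℕ} (hm : m ≠ 1) (hk : k ≠ 1) :
    lc W m (monoN W k) = if m = k then 1 else 0 := by
  unfold monoN
  by_cases hk2 : k % 2 = 0
  · rw [if_pos hk2, lc_pq]
    by_cases hm2 : m % 2 = 0
    · rw [if_pos hm2, coeff_X_pow]
      by_cases hmk : m = k
      · subst hmk; simp
      · rw [if_neg (by omega), if_neg hmk]
    · rw [if_neg hm2, coeff_zero, if_neg (by omega)]
  · rw [if_neg hk2, lc_pq]
    by_cases hm2 : m % 2 = 0
    · rw [if_pos hm2, coeff_zero, if_neg (by omega)]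
    · rw [if_neg hm2, coeff_X_pow]
      by_cases hmk : m = k
      · subst hmk; simp
      · rw [if_neg (by omega), if_neg hmk]

lemma Fil_monoN {k : ℕ} (hk : k ≠ 1) : Fil W k (monoN W k) := by
  unfold monoN
  by_cases hk2 : k % 2 = 0
  · rw [if_pos hk2, Fil_pq_iff]
    exact ⟨Z_of_natDegree (natDegree_X_pow_le _), Z_zero _⟩
  · rw [if_neg hk2, Fil_pq_iff]
    refine ⟨Z_zero _, ?_⟩
    have : (k - 1) / 2 = (k - 3) / 2 + 1 := by omega
    rw [this]
    exact Z_of_natDegree (natDegree_X_pow_le _)

lemma Fil_mono_lt {n j : ℕ} (hj : j < n) : Fil W n (mono W j) :=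
  Fil_mono W (Fil_monoN W (h17_ordN_ne_one j)) (h17_ordN_le hj)

lemma lc_mono {m j : ℕ} (hm : m ≠ 1) : lc W m (mono W j) = if m = ordN j then 1 else 0 :=
  lc_monoN W hm (h17_ordN_ne_one j)

/-- an element all of whose coefficients vanish is zero. -/
lemma eq_zero_of_lc {g : W.CoordinateRing} (h : ∀ m, m ≠ 1 → lc W m g = 0) : g = 0 := by
  have hp : cp W g = 0 := by
    ext a
    have := h (2 * a) (by omega)
    unfold lc at this
    rw [if_pos (by omega)] at this
    rw [show 2 * a / 2 = a by omega] at this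
    simpa using this
  have hq : cq W g = 0 := by
    ext b
    have := h (2 * b + 3) (by omega)
    unfold lc at this
    rw [if_neg (by omega)] at this
    rw [show (2 * b + 3 - 3) / 2 = b by omega] at this
    simpa using this
  rw [← pq_cp_cq W g, hp, hq, pq_zero]

lemma lc_sum {ι : Type*} (s : Finset ι) (m : ℕ) (f : ι → W.CoordinateRing) :
    lc W m (∑ i ∈ s, f i) = ∑ i ∈ s, lc W m (f i) := by
  classical
  induction s using Finset.induction_on with
  | empty => simp [lc_zero]
  | insert a s ha ih => rw [Finset.sum_insert ha, Finset.sum_insert ha, lc_add, ih]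

lemma Fil_sum {ι : Type*} (s : Finset ι) (n : ℕ) (f : ι → W.CoordinateRing)
    (hf : ∀ i ∈ s, Fil W n (f i)) : Fil W n (∑ i ∈ s, f i) := by
  classical
  induction s using Finset.induction_on with
  | empty => simpa using Fil_zero_elt W n
  | insert a s ha ih =>
    rw [Finset.sum_insert ha]
    exact Fil_add W (hf a (Finset.mem_insert_self a s))
      (ih fun i hi => hf i (Finset.mem_insert_of_mem hi))

/-- the coefficient of `mono j` in a linear combination of the monomials. -/
lemma lc_sum_mono {n : ℕ} (c : Fin n → K) (j : Fin n) :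
    lc W (ordN j) (∑ i : Fin n, c i • mono W i) = c j := by
  rw [lc_sum]
  simp only [lc_smul, lc_mono W (h17_ordN_ne_one j)]
  rw [Finset.sum_eq_single j]
  · simp
  · intro i _ hij
    rw [if_neg (fun h => hij (Fin.ext (h17_ordN_injective h)).symm), mul_zero]
  · intro h; exact absurd (Finset.mem_univ j) h

/-- linear independence of the monomials. -/
lemma sum_mono_eq_zero {n : ℕ} (c : Fin n → K) (h : ∑ i : Fin n, c i • mono W i = 0) : c = 0 := by
  funext j
  have := lc_sum_mono W c j
  rw [h, lc_zero] at this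
  exact this.symm

lemma Fil_sum_mono {n : ℕ} (c : Fin n → K) : Fil W n (∑ i : Fin n, c i • mono W i) :=
  Fil_sum W _ n _ fun i _ => Fil_smul W (c i) (Fil_mono_lt W i.2)

/-- the monomials of pole order `≤ n` span the `n`-th step of the filtration. -/
lemma eq_sum_mono_of_Fil {n : ℕ} (hn : 1 ≤ n) {g : W.CoordinateRing} (hg : Fil W n g) :
    g = ∑ j : Fin n, lc W (ordN j) g • mono W j := by
  rw [← sub_eq_zero]
  apply eq_zero_of_lc
  intro m hm
  rw [lc_sub]
  rcases Nat.lt_or_ge n m with hmn | hmn
  · rw [lc_eq_zero_of_Fil W hg hmn, lc_eq_zero_of_Fil W (Fil_sum_mono W _) hmn, sub_zero]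
  · obtain ⟨j, hj, rfl⟩ := h17_exists_ordN hn hmn hm
    have := lc_sum_mono W (fun j : Fin n => lc W (ordN j) g) ⟨j, hj⟩
    simp only at this
    rw [this, sub_self]

end CommRing

section Field

variable {K : Type*} [Field K] (W : WeierstrassCurve.Affine K)

lemma h17_evalAt_iterate_sum {x y : K} (h : W.Equation x y) {n : ℕ} (c : Fin n → K) (i : ℕ) :
    evalAt W h ((D W)^[i] (∑ j : Fin n, c j • mono W j)) =
      ∑ j : Fin n, evalAt W h ((D W)^[i] (mono W j)) * c j := by
  have hD : ∀ (i : ℕ) (g : W.CoordinateRing), (D W)^[i] g = ((D W : W.CoordinateRing →ₗ[K]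
      W.CoordinateRing) ^ i) g := by
    intro i g
    induction i generalizing g with
    | zero => simp
    | succ k ih => rw [Function.iterate_succ_apply', ih, pow_succ', Module.End.mul_apply]; rfl
  rw [hD, map_sum, map_sum]
  refine Finset.sum_congr rfl fun j _ => ?_
  rw [map_smul, map_smul, smul_eq_mul, mul_comm, hD]

/-- **W3**: the Wronskian vanishes at `P` iff some nonzero function of pole order `≤ n` has
vanishing `D`-jet of order `n` at `P`. -/
theorem evalAt_Wr_eq_zero_iff {x y : K} (h : W.Equation x y) {n : ℕ} (hn : 1 ≤ n) :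
    evalAt W h (Wr W n) = 0 ↔
      ∃ g : W.CoordinateRing, g ≠ 0 ∧ Fil W n g ∧
        ∀ i, i < n → evalAt W h ((D W)^[i] g) = 0 := by
  have hdet : evalAt W h (Wr W n) =
      (Matrix.of fun i j : Fin n => evalAt W h ((D W)^[(i : ℕ)] (mono W (j : ℕ)))).det := by
    unfold Wr WrMat
    rw [AlgHom.map_det]
    rfl
  rw [hdet, ← Matrix.exists_mulVec_eq_zero_iff]
  constructor
  · rintro ⟨c, hc, hMc⟩
    refine ⟨∑ j : Fin n, c j • mono W j, fun h0 => hc (sum_mono_eq_zero W c h0),
      Fil_sum_mono W c, fun i hi => ?_⟩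
    rw [h17_evalAt_iterate_sum]
    have := congrFun hMc ⟨i, hi⟩
    simpa [Matrix.mulVec, dotProduct] using this
  · rintro ⟨g, hg0, hgF, hjet⟩
    refine ⟨fun j : Fin n => lc W (ordN j) g, fun hc => hg0 ?_, ?_⟩
    · rw [eq_sum_mono_of_Fil W hn hgF]
      have : ∀ j : Fin n, lc W (ordN j) g = 0 := fun j => congrFun hc j
      simp [this]
    · funext i
      have := hjet i i.2
      rw [eq_sum_mono_of_Fil W hn hgF, h17_evalAt_iterate_sum] at this
      simpa [Matrix.mulVec, dotProduct] using this

/-! ### The filtration is the degree of the norm -/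

lemma h17_Z_iff (f : K[X]) (d : ℕ) : Z f d ↔ f = 0 ∨ f.natDegree < d := by
  constructor
  · intro hf
    by_cases h0 : f = 0
    · exact Or.inl h0
    · right
      by_contra hlt
      push Not at hlt
      have := hf f.natDegree hlt
      rw [coeff_natDegree, leadingCoeff_eq_zero] at this
      exact h0 this
  · rintro (rfl | hlt)
    · exact Z_zero _
    · intro k hk
      exact coeff_eq_zero_of_natDegree_lt (by omega)

lemma h17_two_smul_degree_le (f : K[X]) (n : ℕ) :
    (2 • f.degree ≤ (n : WithBot ℕ)) ↔ Z f (n / 2 + 1) := by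
  rw [h17_Z_iff]
  by_cases h0 : f = 0
  · simp [h0]
  · rw [degree_eq_natDegree h0]
    have : (2 • (f.natDegree : WithBot ℕ)) = ((2 * f.natDegree : ℕ) : WithBot ℕ) := by
      rw [two_smul, two_mul]; push_cast; rfl
    rw [this, Nat.cast_le]
    constructor
    · intro h; right; omega
    · rintro (h | h)
      · exact absurd h h0
      · omega

lemma h17_two_smul_degree_add_le (f : K[X]) (n : ℕ) :
    (2 • f.degree + 3 ≤ (n : WithBot ℕ)) ↔ Z f ((n - 1) / 2) := by
  rw [h17_Z_iff]
  by_cases h0 : f = 0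
  · simp [h0]
  · rw [degree_eq_natDegree h0]
    have : (2 • (f.natDegree : WithBot ℕ) + 3) = ((2 * f.natDegree + 3 : ℕ) : WithBot ℕ) := by
      rw [two_smul, two_mul]; push_cast; rfl
    rw [this, Nat.cast_le]
    constructor
    · intro h; right; omega
    · rintro (h | h)
      · exact absurd h h0
      · omega

/-- `Fil W n g` says that the norm of `g` has degree `≤ n`. -/
theorem fil_iff_natDegree_norm (n : ℕ) (g : W.CoordinateRing) :
    Fil W n g ↔ (Algebra.norm K[X] g).natDegree ≤ n := by
  rw [natDegree_le_iff_degree_le]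
  conv_rhs => rw [← pq_cp_cq W g]
  unfold pq
  rw [CoordinateRing.degree_norm_smul_basis, max_le_iff, h17_two_smul_degree_le,
    h17_two_smul_degree_add_le]
  rfl

end Field

end Fermat.Agent.S13.W
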