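import Fermat.Agent.S13.W.H1_Iter

/-!
# S13, package W (helper1): parity of the Wronskian on a short model

If `a₁ = a₃ = 0` then the Wronskian `Wr W n` (for odd `n`) is a polynomial in `X` alone:
`cq W (Wr W n) = 0`.
-/

set_option autoImplicit false

open Polynomial
open scoped Polynomial.Bivariate

namespace Fermat.Agent.S13.Wr

variable {K : Type*} [CommRing K] (W : WeierstrassCurve.Affine K)

open WeierstrassCurve.Affine

/-- parity `k`: even elements are polynomials in `X`, odd elements are multiples of `Y`. -/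
def Par (k : ℕ) (g : W.CoordinateRing) : Prop :=
  (k % 2 = 0 → cq W g = 0) ∧ (k % 2 = 1 → cp W g = 0)

lemma Par_pq_iff (k : ℕ) (p q : K[X]) :
    Par W k (pq W p q) ↔ (k % 2 = 0 → q = 0) ∧ (k % 2 = 1 → p = 0) := by
  unfold Par; rw [cp_pq, cq_pq]

lemma h1_neg_pq (p q : K[X]) : - pq W p q = pq W (-p) (-q) := by
  have h := pq_add W p q (-p) (-q)
  rw [add_neg_cancel, add_neg_cancel, pq_zero] at h
  exact (eq_neg_of_add_eq_zero_right h).symm

lemma Par_zero_elt (k : ℕ) : Par W k 0 := by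
  rw [← pq_zero, Par_pq_iff]; exact ⟨fun _ => rfl, fun _ => rfl⟩

lemma Par_add {k : ℕ} {g h : W.CoordinateRing} (hg : Par W k g) (hh : Par W k h) :
    Par W k (g + h) := by
  unfold Par at *
  rw [cp_add, cq_add]
  exact ⟨fun hk => by rw [hg.1 hk, hh.1 hk, add_zero], fun hk => by rw [hg.2 hk, hh.2 hk, add_zero]⟩

lemma Par_neg {k : ℕ} {g : W.CoordinateRing} (hg : Par W k g) : Par W k (-g) := by
  obtain ⟨p, q, rfl⟩ : ∃ p q, g = pq W p q := ⟨_, _, (pq_cp_cq W g).symm⟩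
  rw [Par_pq_iff] at hg
  rw [h1_neg_pq, Par_pq_iff]
  exact ⟨fun hk => by rw [hg.1 hk, neg_zero], fun hk => by rw [hg.2 hk, neg_zero]⟩

lemma Par_one : Par W 0 (1 : W.CoordinateRing) := by
  rw [← pq_one, Par_pq_iff]; exact ⟨fun _ => rfl, fun h => by omega⟩

lemma Par_mul (hA : polyA W = 0) {m n : ℕ} {g h : W.CoordinateRing} (hg : Par W m g)
    (hh : Par W n h) : Par W (m + n) (g * h) := by
  obtain ⟨p, q, rfl⟩ : ∃ p q, g = pq W p q := ⟨_, _, (pq_cp_cq W g).symm⟩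
  obtain ⟨p', q', rfl⟩ : ∃ p q, h = pq W p q := ⟨_, _, (pq_cp_cq W h).symm⟩
  rw [Par_pq_iff] at hg hh
  rw [pq_mul, Par_pq_iff, hA]
  rcases Nat.mod_two_eq_zero_or_one m with hm | hm <;>
  rcases Nat.mod_two_eq_zero_or_one n with hn | hn
  · refine ⟨fun _ => ?_, fun hk => by omega⟩
    rw [hg.1 hm, hh.1 hn]; ring
  · refine ⟨fun hk => by omega, fun _ => ?_⟩
    rw [hg.1 hm, hh.2 hn]; ring
  · refine ⟨fun hk => by omega, fun _ => ?_⟩
    rw [hg.2 hm, hh.1 hn]; ring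
  · refine ⟨fun _ => ?_, fun hk => by omega⟩
    rw [hg.2 hm, hh.2 hn]; ring

lemma Par_D (hA : polyA W = 0) {k : ℕ} {g : W.CoordinateRing} (hg : Par W k g) :
    Par W (k + 1) (D W g) := by
  obtain ⟨p, q, rfl⟩ : ∃ p q, g = pq W p q := ⟨_, _, (pq_cp_cq W g).symm⟩
  rw [Par_pq_iff] at hg
  rw [D_pq, Par_pq_iff, hA]
  rcases Nat.mod_two_eq_zero_or_one k with hk | hk
  · refine ⟨fun h => by omega, fun _ => ?_⟩
    rw [hg.1 hk]; simp
  · refine ⟨fun _ => ?_, fun h => by omega⟩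
    rw [hg.2 hk]; simp

lemma Par_iter (hA : polyA W = 0) {k : ℕ} {g : W.CoordinateRing} (hg : Par W k g) (i : ℕ) :
    Par W (i + k) ((D W)^[i] g) := by
  induction i with
  | zero => simpa using hg
  | succ i ih =>
    rw [Function.iterate_succ_apply']
    have e : i + 1 + k = (i + k) + 1 := by omega
    rw [e]
    exact Par_D W hA ih

lemma Par_mono' (j : ℕ) : Par W (ordN j) (mono W j) := by
  unfold mono monoN
  split_ifs with h
  · rw [Par_pq_iff]; exact ⟨fun _ => rfl, fun h' => by omega⟩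
  · rw [Par_pq_iff]; exact ⟨fun h' => by omega, fun _ => rfl⟩

lemma polyA_eq_zero (h1 : W.a₁ = 0) (h3 : W.a₃ = 0) : polyA W = 0 := by
  unfold polyA; rw [h1, h3]; simp

theorem Par_Wr (h1 : W.a₁ = 0) (h3 : W.a₃ = 0) (n : ℕ) :
    Par W (∑ i : Fin n, (i : ℕ) + ∑ j : Fin n, ordN (j : ℕ)) (Wr W n) := by
  have hA := polyA_eq_zero W h1 h3
  have h := h1_det_fil (Par W) (fun _ _ => (0 : PUnit.{1})) (Par_zero_elt W)
    (fun _ _ _ => Par_add W) (fun _ _ => Par_neg W) (Par_one W)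
    (fun _ _ _ _ => Par_mul W hA) (fun _ => rfl) (fun _ _ _ => rfl)
    (fun _ _ => rfl) rfl (fun _ _ _ _ _ _ => rfl) (WrMat W n) (fun i => (i : ℕ))
    (fun j => ordN (j : ℕ)) (fun i j => Par_iter W hA (Par_mono' W j) i)
  exact h.1

/-- **[P]** on a short model the Wronskian of odd order is a polynomial in `X` alone. -/
theorem cq_Wr_eq_zero (h1 : W.a₁ = 0) (h3 : W.a₃ = 0) (n : ℕ) (hn : Odd n) :
    cq W (Wr W n) = 0 := by
  have h := Par_Wr W h1 h3 n
  rw [sum_ord n hn.pos] at h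
  apply h.1
  obtain ⟨k, rfl⟩ := hn
  have : (2 * k + 1) ^ 2 - 1 = 2 * (2 * k ^ 2 + 2 * k) := by
    have h5 : 1 ≤ (2 * k + 1) ^ 2 := Nat.one_le_pow _ _ (by omega)
    zify [h5]; ring
  rw [this]; omega

end Fermat.Agent.S13.Wr
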