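import Fermat.Agent.S13.W.H1_Defs

/-!
# S13, package W, leaf D (helper29): base change

The ring homomorphism `CoordinateRing.map W f : R[W] →+* S[W.map f]` commutes with
`pq`, the invariant derivation `D`, the monomials, the Wronskian `Wr` and the norm `nrm`.
-/

set_option autoImplicit false

open Polynomial
open scoped Polynomial.Bivariate
open WeierstrassCurve.Affine

universe u v

namespace Fermat.Agent.S13.Wr

variable {R : Type u} {S : Type v} [CommRing R] [CommRing S] (f : R →+* S)
  (W : WeierstrassCurve.Affine R)

theorem D_map_pq (p q : R[X]) :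
    CoordinateRing.map W f (pq W p q) = pq (W.map f).toAffine (p.map f) (q.map f) := by
  unfold pq
  rw [map_add, CoordinateRing.map_smul, CoordinateRing.map_smul, map_one,
    CoordinateRing.map_mk, Polynomial.map_X]

lemma h29_polyA_map : polyA (W.map f).toAffine = (polyA W).map f := by
  simp [polyA, WeierstrassCurve.map]

lemma h29_polyB_map : polyB (W.map f).toAffine = (polyB W).map f := by
  simp [polyB, WeierstrassCurve.map]

theorem D_map_D (g : W.CoordinateRing) :
    CoordinateRing.map W f (D W g) = D (W.map f).toAffine (CoordinateRing.map W f g) := by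
  rw [← pq_cp_cq W g, D_pq, D_map_pq, D_map_pq, D_pq, h29_polyA_map, h29_polyB_map]
  congr 1 <;>
    simp only [Polynomial.map_add, Polynomial.map_sub, Polynomial.map_mul, derivative_map,
      Polynomial.map_ofNat]

lemma h29_map_iterate_D (g : W.CoordinateRing) (i : ℕ) :
    CoordinateRing.map W f ((D W)^[i] g)
      = (D (W.map f).toAffine)^[i] (CoordinateRing.map W f g) := by
  induction i with
  | zero => rfl
  | succ i ih =>
    rw [Function.iterate_succ_apply', Function.iterate_succ_apply', D_map_D, ih]

lemma h29_map_monoN (n : ℕ) :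
    CoordinateRing.map W f (monoN W n) = monoN (W.map f).toAffine n := by
  unfold monoN
  split_ifs
  · rw [D_map_pq, Polynomial.map_pow, Polynomial.map_X, Polynomial.map_zero]
  · rw [D_map_pq, Polynomial.map_pow, Polynomial.map_X, Polynomial.map_zero]

lemma h29_map_mono (j : ℕ) :
    CoordinateRing.map W f (mono W j) = mono (W.map f).toAffine j :=
  h29_map_monoN f W (ordN j)

theorem h29_map_WrMat (n : ℕ) :
    (CoordinateRing.map W f).mapMatrix (WrMat W n) = WrMat (W.map f).toAffine n := by
  ext i j
  simp only [RingHom.mapMatrix_apply, Matrix.map_apply, WrMat, Matrix.of_apply]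
  rw [h29_map_iterate_D, h29_map_mono]

theorem D_map_Wr (n : ℕ) :
    CoordinateRing.map W f (Wr W n) = Wr (W.map f).toAffine n := by
  unfold Wr
  rw [RingHom.map_det, h29_map_WrMat]

lemma h29_map_cp (g : W.CoordinateRing) :
    cp (W.map f).toAffine (CoordinateRing.map W f g) = (cp W g).map f := by
  conv_lhs => rw [← pq_cp_cq W g, D_map_pq, cp_pq]

lemma h29_map_cq (g : W.CoordinateRing) :
    cq (W.map f).toAffine (CoordinateRing.map W f g) = (cq W g).map f := by
  conv_lhs => rw [← pq_cp_cq W g, D_map_pq, cq_pq]

theorem D_map_nrm (g : W.CoordinateRing) :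
    (nrm W g).map f = nrm (W.map f).toAffine (CoordinateRing.map W f g) := by
  unfold nrm
  rw [h29_map_cp, h29_map_cq, h29_polyA_map, h29_polyB_map]
  simp only [Polynomial.map_sub, Polynomial.map_mul, Polynomial.map_pow]

/-- Evaluation at a point commutes with base change. -/
theorem h29_map_evalAt {x y : R} (h : W.Equation x y)
    (h' : (W.map f).toAffine.Equation (f x) (f y)) (g : W.CoordinateRing) :
    evalAt (W.map f).toAffine h' (CoordinateRing.map W f g) = f (evalAt W h g) := by
  rw [← pq_cp_cq W g, D_map_pq, evalAt_pq, evalAt_pq, map_add, map_mul,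
    Polynomial.eval_map, Polynomial.eval_map, Polynomial.eval₂_at_apply,
    Polynomial.eval₂_at_apply]

end Fermat.Agent.S13.Wr
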