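import Mathlib

/-!
# S13, package W, leaf W2: the principal-ideal criterion for torsion points

For a Weierstrass curve `W` over a field `F`, a nonsingular affine point `P = (x, y)` and `n : ℕ`:

`n • P = 0  ↔  ∃ g ≠ 0 in the coordinate ring, g ∈ m_P ^ n ∧ natDegree (norm g) ≤ n`

where `m_P = XYIdeal W x (C y)`.  No hypothesis on the characteristic, no derivation, no
dimension count: the proof uses the conjugation `Y ↦ -Y - a₁X - a₃` of the coordinate ring,
`g * conj g = norm g`, and Mathlib's `XYIdeal_neg_mul` (`m_{-P} * m_P = (X - x)`).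
-/

set_option autoImplicit false

open Polynomial
open scoped Polynomial.Bivariate

namespace Fermat.Agent.S13.W

open WeierstrassCurve WeierstrassCurve.Affine WeierstrassCurve.Affine.CoordinateRing

universe u

variable {F : Type u} [Field F] (W : WeierstrassCurve.Affine F)

/-- The Weierstrass polynomial is invariant under `Y ↦ -Y - a₁X - a₃`. -/
lemma h4_polynomial_comp_negPolynomial :
    W.polynomial.comp W.negPolynomial = W.polynomial := by
  simp only [WeierstrassCurve.Affine.polynomial, WeierstrassCurve.Affine.negPolynomial,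
    Polynomial.add_comp, Polynomial.sub_comp, Polynomial.mul_comp, Polynomial.pow_comp,
    Polynomial.X_comp, Polynomial.C_comp]
  ring

/-- The conjugation `Y ↦ -Y - a₁X - a₃` of the coordinate ring, as a ring homomorphism. -/
noncomputable def h4_conj : W.CoordinateRing →+* W.CoordinateRing :=
  AdjoinRoot.lift (AdjoinRoot.of W.polynomial) (CoordinateRing.mk W W.negPolynomial) (by
    have h := congrArg (CoordinateRing.mk W) (h4_polynomial_comp_negPolynomial W)
    rw [AdjoinRoot.mk_self] at h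
    rw [← h, Polynomial.comp, Polynomial.hom_eval₂]
    rfl)

lemma h4_conj_mk (p : F[X][Y]) :
    h4_conj W (CoordinateRing.mk W p) = CoordinateRing.mk W (p.comp W.negPolynomial) := by
  rw [h4_conj, AdjoinRoot.lift_mk, Polynomial.comp, Polynomial.hom_eval₂]
  rfl

lemma h4_conj_C (p : F[X]) :
    h4_conj W (CoordinateRing.mk W (C p)) = CoordinateRing.mk W (C p) := by
  rw [h4_conj_mk, Polynomial.C_comp]

lemma h4_conj_Y :
    h4_conj W (CoordinateRing.mk W Y) = CoordinateRing.mk W W.negPolynomial := by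
  rw [h4_conj_mk, Polynomial.X_comp]

lemma h4_conj_smul (p : F[X]) (g : W.CoordinateRing) :
    h4_conj W (p • g) = p • h4_conj W g := by
  rw [CoordinateRing.smul, map_mul, h4_conj_C, ← CoordinateRing.smul]

/-- `g * conj g = norm g`. -/
lemma h4_mul_conj (g : W.CoordinateRing) :
    g * h4_conj W g = algebraMap F[X] W.CoordinateRing (Algebra.norm F[X] g) := by
  obtain ⟨p, q, rfl⟩ := CoordinateRing.exists_smul_basis_eq g
  rw [AdjoinRoot.algebraMap_eq, CoordinateRing.coe_norm_smul_basis, map_add, h4_conj_smul,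
    h4_conj_smul, map_one, h4_conj_Y]
  simp only [CoordinateRing.smul, map_mul, map_add, WeierstrassCurve.Affine.negPolynomial,
    map_sub, map_neg]
  ring

/-- Divisibility in `F[X]` can be tested in the coordinate ring. -/
lemma h4_dvd_of_algebraMap_dvd {a b : F[X]}
    (h : algebraMap F[X] W.CoordinateRing a ∣ algebraMap F[X] W.CoordinateRing b) : a ∣ b := by
  obtain ⟨c, hc⟩ := h
  obtain ⟨p, q, rfl⟩ := CoordinateRing.exists_smul_basis_eq c
  have h1 : (b - a * p) • (1 : W.CoordinateRing) + (-(a * q)) • CoordinateRing.mk W Y = 0 := by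
    simp only [AdjoinRoot.algebraMap_eq] at hc
    simp only [CoordinateRing.smul, map_sub, map_mul, map_neg] at hc ⊢
    have e : CoordinateRing.mk W (C b) = AdjoinRoot.of W.polynomial b := rfl
    have e' : CoordinateRing.mk W (C a) = AdjoinRoot.of W.polynomial a := rfl
    rw [e, e', hc]
    ring
  obtain ⟨h2, -⟩ := CoordinateRing.smul_basis_eq_zero h1
  exact ⟨p, (sub_eq_zero.mp h2)⟩

lemma h4_conj_XClass (x : F) : h4_conj W (XClass W x) = XClass W x := by
  rw [XClass, h4_conj_C]

lemma h4_conj_YClass (x y : F) :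
    h4_conj W (YClass W (C y)) =
      -YClass W (C (W.negY x y)) - CoordinateRing.mk W (C (C W.a₁)) * XClass W x := by
  have e : (Y - C (C y) : F[X][Y]).comp W.negPolynomial =
      -(Y - C (C (W.negY x y))) - C (C W.a₁) * C (X - C x) := by
    simp only [WeierstrassCurve.Affine.negPolynomial, WeierstrassCurve.Affine.negY,
      Polynomial.sub_comp, Polynomial.X_comp, Polynomial.C_comp, C_sub, C_mul, C_add, C_neg]
    ring
  rw [YClass, h4_conj_mk, e, YClass, XClass, map_sub, map_neg, map_mul]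

/-- Conjugation maps `m_P` into `m_{-P}`. -/
lemma h4_map_conj_XYIdeal_le (x y : F) :
    Ideal.map (h4_conj W) (XYIdeal W x (C y)) ≤ XYIdeal W x (C (W.negY x y)) := by
  rw [XYIdeal, Ideal.map_span, Ideal.span_le]
  rintro _ ⟨g, hg, rfl⟩
  rcases hg with rfl | hg
  · rw [h4_conj_XClass]
    exact Ideal.subset_span (Set.mem_insert _ _)
  · rw [Set.mem_singleton_iff] at hg
    subst hg
    rw [h4_conj_YClass W x y]
    exact Ideal.sub_mem _ (neg_mem (Ideal.subset_span (Set.mem_insert_of_mem _ rfl)))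
      (Ideal.mul_mem_left _ _ (Ideal.subset_span (Set.mem_insert _ _)))

lemma h4_conj_mem_pow {x y : F} {n : ℕ} {g : W.CoordinateRing}
    (hg : g ∈ XYIdeal W x (C y) ^ n) :
    h4_conj W g ∈ XYIdeal W x (C (W.negY x y)) ^ n := by
  have h1 : h4_conj W g ∈ Ideal.map (h4_conj W) (XYIdeal W x (C y) ^ n) :=
    Ideal.mem_map_of_mem _ hg
  rw [Ideal.map_pow] at h1
  exact Ideal.pow_right_mono (h4_map_conj_XYIdeal_le W x y) n h1

/-- `m_P ^ n * m_{-P} ^ n = ((X - x) ^ n)`. -/
lemma h4_pow_mul_pow {x y : F} (h : W.Nonsingular x y) (n : ℕ) :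
    XYIdeal W x (C y) ^ n * XYIdeal W x (C (W.negY x y)) ^ n =
      Ideal.span {algebraMap F[X] W.CoordinateRing ((X - C x) ^ n)} := by
  rw [← mul_pow, mul_comm, XYIdeal_neg_mul h, XIdeal, Ideal.span_singleton_pow, XClass, map_pow]
  rfl

/-- For `t ∈ m_P ^ n`, `(X - x) ^ n` divides the norm of `t`. -/
lemma h4_pow_dvd_norm {x y : F} (h : W.Nonsingular x y) {n : ℕ} {t : W.CoordinateRing}
    (ht : t ∈ XYIdeal W x (C y) ^ n) : (X - C x) ^ n ∣ Algebra.norm F[X] t := by
  apply h4_dvd_of_algebraMap_dvd W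
  rw [← h4_mul_conj, ← Ideal.mem_span_singleton, ← h4_pow_mul_pow W h n]
  exact Ideal.mul_mem_mul ht (h4_conj_mem_pow W ht)

lemma h4_norm_ne_zero {g : W.CoordinateRing} (hg : g ≠ 0) : Algebra.norm F[X] g ≠ 0 := by
  have : Module.Finite F[X] W.CoordinateRing := Module.Finite.of_basis (CoordinateRing.basis W)
  exact Algebra.norm_ne_zero_iff.mpr hg

/-- If `g ≠ 0`, `g ∈ m_P ^ n` and `natDegree (norm g) ≤ n`, then `m_P ^ n = (g)`. -/
lemma h4_pow_eq_span {x y : F} (h : W.Nonsingular x y) {n : ℕ} {g : W.CoordinateRing}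
    (hg0 : g ≠ 0) (hg : g ∈ XYIdeal W x (C y) ^ n)
    (hdeg : (Algebra.norm F[X] g).natDegree ≤ n) :
    XYIdeal W x (C y) ^ n = Ideal.span {g} := by
  obtain ⟨r, hr⟩ := h4_pow_dvd_norm W h hg
  have hN0 := h4_norm_ne_zero W hg0
  have hr0 : r ≠ 0 := by
    rintro rfl
    exact hN0 (by rw [hr, mul_zero])
  have hrdeg : r.natDegree = 0 := by
    have h1 := congrArg natDegree hr
    rw [natDegree_mul (pow_ne_zero _ (X_sub_C_ne_zero x)) hr0, natDegree_pow,
      natDegree_X_sub_C, mul_one] at h1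
    omega
  obtain ⟨c, rfl⟩ := natDegree_eq_zero.mp hrdeg
  have hc : c ≠ 0 := by
    rintro rfl
    exact hr0 (map_zero _)
  have h2 : g * h4_conj W g = algebraMap F[X] W.CoordinateRing ((X - C x) ^ n) *
      algebraMap F[X] W.CoordinateRing (C c) := by
    rw [h4_mul_conj, hr, map_mul]
  have hcg0 : h4_conj W g ≠ 0 := by
    intro h0
    rw [h0, mul_zero, ← map_mul, ← hr] at h2
    exact hN0 ((FaithfulSMul.algebraMap_injective F[X] W.CoordinateRing)
      (h2.symm.trans (map_zero _).symm))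
  have hcc : algebraMap F[X] W.CoordinateRing (C c) * algebraMap F[X] W.CoordinateRing (C c⁻¹)
      = 1 := by
    rw [← map_mul, ← C_mul, mul_inv_cancel₀ hc, C_1, map_one]
  apply le_antisymm
  · intro t ht
    have h1 : t * h4_conj W g ∈
        Ideal.span {algebraMap F[X] W.CoordinateRing ((X - C x) ^ n)} := by
      rw [← h4_pow_mul_pow W h n]
      exact Ideal.mul_mem_mul ht (h4_conj_mem_pow W hg)
    obtain ⟨s, hs⟩ := Ideal.mem_span_singleton'.mp h1
    rw [Ideal.mem_span_singleton']
    refine ⟨s * algebraMap F[X] W.CoordinateRing (C c⁻¹), ?_⟩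
    apply mul_right_cancel₀ hcg0
    calc s * algebraMap F[X] W.CoordinateRing (C c⁻¹) * g * h4_conj W g
        = s * algebraMap F[X] W.CoordinateRing (C c⁻¹) * (g * h4_conj W g) := by ring
      _ = s * algebraMap F[X] W.CoordinateRing ((X - C x) ^ n) *
          (algebraMap F[X] W.CoordinateRing (C c) *
            algebraMap F[X] W.CoordinateRing (C c⁻¹)) := by rw [h2]; ring
      _ = t * h4_conj W g := by rw [hcc, mul_one, hs]
  · rw [Ideal.span_singleton_le_iff_mem]
    exact hg

/-- If `m_P ^ n = (g)` with `g ≠ 0` then `natDegree (norm g) ≤ n`. -/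
lemma h4_natDegree_norm_le_of_span {x y : F} (h : W.Nonsingular x y) {n : ℕ}
    {g : W.CoordinateRing} (hg0 : g ≠ 0) (hg : XYIdeal W x (C y) ^ n = Ideal.span {g}) :
    (Algebra.norm F[X] g).natDegree ≤ n := by
  have h1 : algebraMap F[X] W.CoordinateRing ((X - C x) ^ n) ∈
      Ideal.span {g} * XYIdeal W x (C (W.negY x y)) ^ n := by
    rw [← hg, h4_pow_mul_pow W h n]
    exact Ideal.mem_span_singleton_self _
  obtain ⟨t, ht, hgt⟩ := Ideal.mem_span_singleton_mul.mp h1
  have hne : (X - C x : F[X]) ^ n ≠ 0 := pow_ne_zero _ (X_sub_C_ne_zero x)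
  have ht0 : t ≠ 0 := by
    rintro rfl
    rw [mul_zero] at hgt
    exact hne ((FaithfulSMul.algebraMap_injective F[X] W.CoordinateRing)
      (hgt.symm.trans (map_zero _).symm))
  have hnn : W.Nonsingular x (W.negY x y) := (nonsingular_neg ..).mpr h
  obtain ⟨r, hr⟩ := h4_pow_dvd_norm W hnn ht
  have hNt0 := h4_norm_ne_zero W ht0
  have hNg0 := h4_norm_ne_zero W hg0
  have hr0 : r ≠ 0 := by
    rintro rfl
    exact hNt0 (by rw [hr, mul_zero])
  have h3 : Algebra.norm F[X] g * Algebra.norm F[X] t = ((X - C x) ^ n) ^ 2 := by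
    rw [← map_mul, hgt, Algebra.norm_algebraMap]
    have : Module.finrank F[X] W.CoordinateRing = 2 := by
      rw [Module.finrank_eq_card_basis (CoordinateRing.basis W), Fintype.card_fin]
    rw [this]
  have e1 : ((X - C x : F[X]) ^ n).natDegree = n := by
    rw [natDegree_pow, natDegree_X_sub_C, mul_one]
  have h4 := congrArg natDegree h3
  rw [natDegree_mul hNg0 hNt0, hr, natDegree_mul hne hr0, natDegree_pow _ 2, e1] at h4
  omega

/-- `n • P = 0` iff `m_P ^ n` is principal. -/
lemma h4_nsmul_eq_zero_iff_principal [DecidableEq F] {x y : F} (h : W.Nonsingular x y) (n : ℕ) :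
    n • (Point.some x y h) = 0 ↔
      ∃ g : W.CoordinateRing, g ≠ 0 ∧ XYIdeal W x (C y) ^ n = Ideal.span {g} := by
  have hI : (((XYIdeal' h) ^ n : (FractionalIdeal (nonZeroDivisors W.CoordinateRing)
      W.FunctionField)ˣ) : FractionalIdeal (nonZeroDivisors W.CoordinateRing) W.FunctionField) =
      ((XYIdeal W x (C y) ^ n : Ideal W.CoordinateRing) :
        FractionalIdeal (nonZeroDivisors W.CoordinateRing) W.FunctionField) := by
    rw [Units.val_pow_eq_pow_val, XYIdeal'_eq, FractionalIdeal.coeIdeal_pow]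
  rw [← Point.toClass_eq_zero, map_nsmul, Point.toClass_some,
    ← ClassGroup.mk_eq_one_of_coe_ideal hI, map_pow]
  rfl

/-- **W2, the principal-ideal criterion.** For a nonsingular affine point `P = (x, y)` of a
Weierstrass curve over a field and `n : ℕ`: `n • P = 0` iff some nonzero `g` of degree `≤ n`
(i.e. `natDegree (norm g) ≤ n`) lies in `m_P ^ n`. -/
theorem h4_nsmul_eq_zero_iff [DecidableEq F] {x y : F} (h : W.Nonsingular x y) (n : ℕ) :
    n • (Point.some x y h) = 0 ↔
      ∃ g : W.CoordinateRing, g ≠ 0 ∧ g ∈ XYIdeal W x (C y) ^ n ∧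
        (Algebra.norm F[X] g).natDegree ≤ n := by
  rw [h4_nsmul_eq_zero_iff_principal]
  constructor
  · rintro ⟨g, hg0, hg⟩
    exact ⟨g, hg0, hg ▸ Ideal.mem_span_singleton_self g, h4_natDegree_norm_le_of_span W h hg0 hg⟩
  · rintro ⟨g, hg0, hg, hdeg⟩
    exact ⟨g, hg0, h4_pow_eq_span W h hg0 hg hdeg⟩

end Fermat.Agent.S13.W
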