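import Fermat.Agent.S13.W.H1_Defs

/-!
# S13, package W, leaf B (helper5, hedge): the leading constant of the Wronskian

For the pole orders `0, 2, 3, …, p` (`= ordN j`, `j < p`) the matrix of rising factorials
`(ordN j) (ordN j + 1) ⋯ (ordN j + i - 1)` has determinant
`Vandermonde (0, 2, 3, …, p) = p! * ∏_{d ≤ p - 2} d!`; for `p` prime it is divisible by `p`
and not by `p ^ 2`.
-/

set_option autoImplicit false

namespace Fermat.Agent.S13.Wr.H5

open Matrix Polynomial Finset

/-- The weighted degrees `0, 2, 3, …, m + 2` of the monomials of weighted degree `≤ m + 2`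
(there is no monomial of weighted degree `1`). -/
def node (m : ℕ) : Fin (m + 2) → ℕ := Fin.cons 0 (fun k : Fin (m + 1) => (k : ℕ) + 2)

@[simp] lemma node_zero (m : ℕ) : node m 0 = 0 := rfl

@[simp] lemma node_succ (m : ℕ) (k : Fin (m + 1)) : node m k.succ = (k : ℕ) + 2 := by
  simp [node]

lemma node_ne_one (m : ℕ) (j : Fin (m + 2)) : node m j ≠ 1 := by
  refine Fin.cases ?_ (fun k => ?_) j
  · simp
  · rw [node_succ]; omega

lemma node_le (m : ℕ) (j : Fin (m + 2)) : node m j ≤ m + 2 := by
  refine Fin.cases ?_ (fun k => ?_) j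
  · simp
  · rw [node_succ]; have := k.2; omega

lemma node_injective (m : ℕ) : Function.Injective (node m) := by
  intro a b
  refine Fin.cases ?_ (fun k => ?_) a <;> refine Fin.cases ?_ (fun l => ?_) b
  · simp
  · rw [node_zero, node_succ]; intro h; omega
  · rw [node_zero, node_succ]; intro h; omega
  · rw [node_succ, node_succ]; intro h
    congr 1
    exact Fin.ext (by omega)

lemma sum_node (m : ℕ) : ∑ j, node m j = (m + 2) * (m + 3) / 2 - 1 := by
  rw [Fin.sum_univ_succ]
  simp only [node_zero, node_succ, zero_add]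
  rw [Fin.sum_univ_eq_sum_range (fun k => k + 2) (m + 1)]
  have h : ∀ n : ℕ, 2 * ∑ k ∈ range (n + 1), (k + 2) = (n + 2) * (n + 3) - 2 := by
    intro n
    induction n with
    | zero => simp
    | succ n ih =>
      rw [Finset.sum_range_succ, mul_add, ih]
      have : 2 ≤ (n + 2) * (n + 3) := by nlinarith
      zify [this]
      have h2 : 2 ≤ (n + 1 + 2) * (n + 1 + 3) := by nlinarith
      zify [h2]
      ring
  have h' := h m
  have h2 : 2 ≤ (m + 2) * (m + 3) := by nlinarith
  have hev : 2 ∣ (m + 2) * (m + 3) := by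
    rcases Nat.even_or_odd m with ⟨k, hk⟩ | ⟨k, hk⟩
    · exact Dvd.dvd.mul_right ⟨k + 1, by omega⟩ _
    · exact Dvd.dvd.mul_left ⟨k + 2, by omega⟩ _
  obtain ⟨t, ht⟩ := hev
  rw [ht] at h' ⊢
  rw [Nat.mul_div_cancel_left _ (by norm_num : 0 < 2)]
  omega

/-- The leading constant of the Wronskian: `(m + 2)! * ∏_{d ≤ m} d!`. -/
def wrConst (m : ℕ) : ℕ := (m + 2).factorial * m.superFactorial

theorem det_vandermonde_node (m : ℕ) :
    (vandermonde (fun j => (node m j : ℤ))).det = (wrConst m : ℤ) := by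
  rw [det_vandermonde, Fin.prod_univ_succ]
  have h1 : ∏ j ∈ Ioi (0 : Fin (m + 2)), ((node m j : ℤ) - (node m 0 : ℤ)) =
      ((m + 2).factorial : ℤ) := by
    rw [Fin.Ioi_zero_eq_map, Finset.prod_map]
    simp only [Fin.coe_succEmb, node_succ, node_zero, Nat.cast_zero, sub_zero]
    rw [Fin.prod_univ_eq_prod_range (fun k => ((k + 2 : ℕ) : ℤ)) (m + 1)]
    rw [← Nat.cast_prod]
    congr 1
    induction m with
    | zero => simp
    | succ m ih =>
      rw [Finset.prod_range_succ, ih, Nat.factorial_succ (m + 2)]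
      ring
  have h2 : ∏ i : Fin (m + 1), ∏ j ∈ Ioi i.succ, ((node m j : ℤ) - (node m i.succ : ℤ)) =
      (m.superFactorial : ℤ) := by
    rw [← det_vandermonde_id_eq_superFactorial (R := ℤ) m, det_vandermonde]
    refine Finset.prod_congr rfl fun i _ => ?_
    rw [Fin.Ioi_succ, Finset.prod_map]
    refine Finset.prod_congr rfl fun j _ => ?_
    simp only [Fin.coe_succEmb, node_succ]
    push_cast
    ring
  rw [h1, h2, wrConst]
  push_cast
  ring

/-- The rising factorial `n (n + 1) ⋯ (n + i - 1)`. -/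
def rising (n : ℕ) : ℕ → ℕ
  | 0 => 1
  | i + 1 => rising n i * (n + i)

@[simp] lemma rising_zero (n : ℕ) : rising n 0 = 1 := rfl

lemma rising_succ (n i : ℕ) : rising n (i + 1) = rising n i * (n + i) := rfl

lemma rising_eq_eval (n i : ℕ) : rising n i = (ascPochhammer ℕ i).eval n := by
  induction i with
  | zero => simp
  | succ i ih => rw [rising_succ, ih, ascPochhammer_succ_eval]; simp

/-- The determinant of the matrix of rising factorials at the nodes `0, 2, 3, …, m + 2`. -/
theorem det_rising_int (m : ℕ) :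
    (Matrix.of fun i j : Fin (m + 2) => (rising (node m j) i : ℤ)).det = (wrConst m : ℤ) := by
  rw [← det_vandermonde_node,
    det_eval_matrixOfPolynomials_eq_det_vandermonde (fun j => (node m j : ℤ))
      (fun i : Fin (m + 2) => ascPochhammer ℤ i)
      (fun i => ascPochhammer_natDegree ℤ i) (fun i => monic_ascPochhammer ℤ i),
    ← det_transpose]
  congr 1
  ext i j
  simp only [transpose_apply, of_apply]
  rw [rising_eq_eval, ← ascPochhammer_eval_cast]

/-- The same determinant over an arbitrary commutative ring. -/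
theorem det_rising {R : Type*} [CommRing R] (m : ℕ) :
    (Matrix.of fun i j : Fin (m + 2) => (rising (node m j) i : R)).det = (wrConst m : R) := by
  have h := congrArg (Int.castRingHom R) (det_rising_int m)
  rw [RingHom.map_det] at h
  simp only [eq_intCast, Int.cast_natCast] at h
  rw [← h]
  congr 1
  ext i j
  simp

theorem wrConst_eq (m : ℕ) :
    wrConst m = (m + 2) * ((m + 1).factorial * m.superFactorial) := by
  rw [wrConst, Nat.factorial_succ]
  ring

theorem not_dvd_superFactorial {p : ℕ} (hp : p.Prime) {m : ℕ} (hm : m < p) :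
    ¬ p ∣ m.superFactorial := by
  rw [← Nat.prod_range_succ_factorial, Prime.dvd_finsetProd_iff hp.prime]
  rintro ⟨x, hx, hdvd⟩
  rw [Finset.mem_range] at hx
  have := (hp.dvd_factorial).mp hdvd
  omega

/-- For `p = m + 2` prime, `p` divides the Wronskian constant exactly once. -/
theorem dvd_wrConst {p m : ℕ} (hpm : p = m + 2) : p ∣ wrConst m := by
  rw [wrConst_eq, ← hpm]
  exact dvd_mul_right _ _

theorem not_sq_dvd_wrConst {p m : ℕ} (hp : p.Prime) (hpm : p = m + 2) :
    ¬ p ^ 2 ∣ wrConst m := by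
  rw [wrConst_eq, ← hpm, pow_two]
  intro h
  have h1 : p ∣ (m + 1).factorial * m.superFactorial :=
    (Nat.mul_dvd_mul_iff_left hp.pos).mp h
  rcases (hp.dvd_mul).mp h1 with h2 | h2
  · have := (hp.dvd_factorial).mp h2
    omega
  · exact not_dvd_superFactorial hp (by omega) h2

theorem wrConst_ne_zero (m : ℕ) : wrConst m ≠ 0 := by
  rw [wrConst]
  refine Nat.mul_ne_zero (Nat.factorial_ne_zero _) ?_
  rw [← Nat.prod_range_succ_factorial]
  exact Finset.prod_ne_zero_iff.mpr fun x _ => Nat.factorial_ne_zero x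

lemma node_eq_ordN (m : ℕ) (j : Fin (m + 2)) : node m j = ordN (j : ℕ) := by
  refine Fin.cases ?_ (fun k => ?_) j
  · simp [ordN]
  · rw [node_succ]
    simp [ordN]

/-- The matrix of leaf B is the matrix of rising factorials at the nodes. -/
theorem det_ascPochhammer_ordN (m : ℕ) :
    (Matrix.of fun (i j : Fin (m + 2)) =>
      (ascPochhammer ℤ (i : ℕ)).eval ((ordN (j : ℕ) : ℕ) : ℤ)).det = (wrConst m : ℤ) := by
  rw [← det_rising_int]
  congr 1
  ext i j
  simp only [of_apply]
  rw [rising_eq_eval, ← ascPochhammer_eval_cast, node_eq_ordN]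

/-- **Leaf B** (statement of findings #130). -/
theorem B_vdm (p : ℕ) (hp : p.Prime) (hp2 : 2 < p) :
    (p : ℤ) ∣ (Matrix.of fun (i j : Fin p) =>
        (ascPochhammer ℤ (i : ℕ)).eval ((ordN (j : ℕ) : ℕ) : ℤ)).det ∧
    ¬ ((p : ℤ) ^ 2 ∣ (Matrix.of fun (i j : Fin p) =>
        (ascPochhammer ℤ (i : ℕ)).eval ((ordN (j : ℕ) : ℕ) : ℤ)).det) := by
  obtain ⟨m, rfl⟩ : ∃ m, p = m + 2 := ⟨p - 2, by omega⟩
  rw [det_ascPochhammer_ordN]
  refine ⟨?_, ?_⟩
  · exact Int.natCast_dvd_natCast.mpr (dvd_wrConst rfl)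
  · intro h
    have h' : ((m + 2) ^ 2 : ℕ) ∣ wrConst m := by
      apply Int.natCast_dvd_natCast.mp
      push_cast
      exact_mod_cast h
    exact not_sq_dvd_wrConst hp rfl h'

/-- The exact value: the determinant of leaf B is `p! * ∏_{d ≤ p - 2} d!`. -/
theorem B_vdm_value (p : ℕ) (hp2 : 2 ≤ p) :
    (Matrix.of fun (i j : Fin p) =>
        (ascPochhammer ℤ (i : ℕ)).eval ((ordN (j : ℕ) : ℕ) : ℤ)).det =
      ((p.factorial * (p - 2).superFactorial : ℕ) : ℤ) := by
  obtain ⟨m, rfl⟩ : ∃ m, p = m + 2 := ⟨p - 2, by omega⟩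
  rw [det_ascPochhammer_ordN, wrConst]
  simp

end Fermat.Agent.S13.Wr.H5
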