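import Fermat.Agent.S13.W.H1_Iter
import Fermat.Agent.S13.W.H1_Parity
import Fermat.Agent.S13.W.H17_LinAlg
import Fermat.Agent.S13.W.H15_W1
import Fermat.Agent.S13.W.H4_Principal
import Fermat.Agent.S13.W.H5_Vdm
import Fermat.Agent.S13.W.H29_BaseChange

/-!
# S13, package W (helper1): the final deliverable `psi_data`

For an integral short Weierstrass curve `W0` (`a₁ = a₃ = 0`) and an odd prime `p`, the polynomial
`Ψ := cp (Wr W0 p) ∈ ℤ[X]` has degree `(p² - 1)/2`, leading coefficient divisible by `p` exactly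
once, and over every field `K` of characteristic `0` its roots are the `x`-coordinates of the
nonzero `p`-torsion points.
-/

set_option autoImplicit false

open Polynomial
open scoped Polynomial.Bivariate

namespace Fermat.Agent.S13.Wr

open WeierstrassCurve.Affine

universe u

/-- the root criterion in terms of the Wronskian (general model, field of characteristic 0). -/
theorem nsmul_eq_zero_iff_evalAt_Wr {K : Type u} [Field K] [CharZero K] [DecidableEq K]
    (W : WeierstrassCurve.Affine K) {x y : K} (h : W.Nonsingular x y) (n : ℕ) (hn : 0 < n) :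
    n • (Point.some x y h : W.Point) = 0 ↔ evalAt W h.1 (Wr W n) = 0 := by
  rw [Fermat.Agent.S13.W.h4_nsmul_eq_zero_iff W h n,
    Fermat.Agent.S13.W.evalAt_Wr_eq_zero_iff W h.1 hn]
  constructor
  · rintro ⟨g, hg0, hgm, hgF⟩
    exact ⟨g, hg0, (Fermat.Agent.S13.W.fil_iff_natDegree_norm W n g).mpr hgF,
      (W1_mem_pow_iff W h n g).mp hgm⟩
  · rintro ⟨g, hg0, hgF, hjet⟩
    exact ⟨g, hg0, (W1_mem_pow_iff W h n g).mpr hjet,
      (Fermat.Agent.S13.W.fil_iff_natDegree_norm W n g).mp hgF⟩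

/-- the polynomial `Ψ`. -/
noncomputable def psiPoly (W0 : WeierstrassCurve ℤ) (p : ℕ) : Polynomial ℤ :=
  cp W0.toAffine (Wr W0.toAffine p)

lemma Wr_eq_pq_psiPoly (W0 : WeierstrassCurve ℤ) (h1 : W0.a₁ = 0) (h3 : W0.a₃ = 0)
    (p : ℕ) (hp : Odd p) : Wr W0.toAffine p = pq W0.toAffine (psiPoly W0 p) 0 := by
  have h := pq_cp_cq W0.toAffine (Wr W0.toAffine p)
  rw [cq_Wr_eq_zero W0.toAffine h1 h3 p hp] at h
  exact h.symm

lemma sq_sub_one_even (p : ℕ) (hp : Odd p) : (p ^ 2 - 1) % 2 = 0 := by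
  obtain ⟨k, rfl⟩ := hp
  have : (2 * k + 1) ^ 2 - 1 = 2 * (2 * k ^ 2 + 2 * k) := by
    have h5 : 1 ≤ (2 * k + 1) ^ 2 := Nat.one_le_pow _ _ (by omega)
    zify [h5]; ring
  rw [this]; omega

lemma Z_psiPoly (W0 : WeierstrassCurve ℤ) (p : ℕ) (hp0 : 0 < p) :
    Z (psiPoly W0 p) ((p ^ 2 - 1) / 2 + 1) := by
  have h := (Fil_lc_Wr W0.toAffine p).1
  rw [sum_ord p hp0] at h
  exact h.1

lemma coeff_psiPoly (W0 : WeierstrassCurve ℤ) (p : ℕ) (hp : Odd p) :
    (psiPoly W0 p).coeff ((p ^ 2 - 1) / 2) = (risMat p).det := by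
  have h := (Fil_lc_Wr W0.toAffine p).2
  rw [sum_ord p hp.pos] at h
  unfold lc at h
  rw [if_pos (sq_sub_one_even p hp)] at h
  unfold psiPoly
  simpa using h

theorem psi_data (W0 : WeierstrassCurve ℤ) (h1 : W0.a₁ = 0) (h3 : W0.a₃ = 0)
    (p : ℕ) (hp : p.Prime) (hp2 : 2 < p) :
    ∃ Ψ : Polynomial ℤ, Ψ.natDegree = (p ^ 2 - 1) / 2 ∧ (p : ℤ) ∣ Ψ.leadingCoeff ∧
      ¬ ((p : ℤ) ^ 2 ∣ Ψ.leadingCoeff) ∧
      ∀ (K : Type u) [Field K] [CharZero K] [DecidableEq K] (x y : K)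
        (h : (W0.map (Int.castRingHom K)).toAffine.Nonsingular x y),
        (p • (Point.some x y h : (W0.map (Int.castRingHom K)).toAffine.Point) = 0 ↔
          (Ψ.map (Int.castRingHom K)).eval x = 0) := by
  have hodd : Odd p := hp.odd_of_ne_two (by omega)
  obtain ⟨hB1, hB2⟩ := H5.B_vdm p hp hp2
  have hdet : (risMat p).det ≠ 0 := by
    intro h0
    apply hB2
    have : (Matrix.of fun (i j : Fin p) =>
        (ascPochhammer ℤ (i : ℕ)).eval ((ordN (j : ℕ) : ℕ) : ℤ)).det = 0 := h0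
    rw [this]; exact dvd_zero _
  have hcoeff := coeff_psiPoly W0 p hodd
  have hZ := Z_psiPoly W0 p hp.pos
  have hdeg : (psiPoly W0 p).natDegree = (p ^ 2 - 1) / 2 := by
    apply le_antisymm (Z_natDegree hZ)
    apply le_natDegree_of_ne_zero
    rw [hcoeff]; exact hdet
  have hlc : (psiPoly W0 p).leadingCoeff = (risMat p).det := by
    rw [leadingCoeff, hdeg, hcoeff]
  refine ⟨psiPoly W0 p, hdeg, ?_, ?_, ?_⟩
  · rw [hlc]; exact hB1
  · rw [hlc]; exact hB2
  · intro K _ _ _ x y h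
    rw [nsmul_eq_zero_iff_evalAt_Wr _ h p hp.pos]
    have e1 : Wr (W0.map (Int.castRingHom K)).toAffine p =
        pq (W0.map (Int.castRingHom K)).toAffine ((psiPoly W0 p).map (Int.castRingHom K)) 0 := by
      rw [← D_map_Wr (Int.castRingHom K) W0.toAffine p, Wr_eq_pq_psiPoly W0 h1 h3 p hodd,
        D_map_pq]
      simp
    rw [e1, evalAt_pq]
    simp

end Fermat.Agent.S13.Wr
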