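import Mathlib

/-!
# S13, package W, leaf W1 (helper12 hedge): order of vanishing via a derivation, abstract layer

`R` a `K`-algebra (`K` a field of characteristic `0`), `ev : R →ₐ[K] K` a `K`-point with kernel
`m`, `D` a `K`-derivation of `R`, `t ∈ m` with `ev (D t) ≠ 0` and `m ≤ (t) + m²`.  Then
`g ∈ m ^ k ↔ ∀ i < k, ev (D^[i] g) = 0`.
-/

set_option autoImplicit false

namespace Fermat.Agent.S13.W.H12

variable {K R : Type*} [Field K] [CommRing R] [Algebra K R]

section general

variable (D : Derivation K R R)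

/-- A derivation lowers the `m`-adic order by at most one. -/
theorem deriv_mem_pow (m : Ideal R) (n : ℕ) {g : R} (hg : g ∈ m ^ (n + 1)) : D g ∈ m ^ n := by
  induction n generalizing g with
  | zero => simp
  | succ n ih =>
    rw [pow_succ] at hg
    refine Submodule.mul_induction_on hg ?_ ?_
    · intro a ha b hb
      rw [Derivation.leibniz]
      refine Ideal.add_mem _ ?_ ?_
      · rw [smul_eq_mul]
        exact Ideal.mul_mem_right _ _ ha
      · have h1 := Ideal.mul_mem_mul (ih ha) hb
        rw [← pow_succ] at h1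
        rwa [smul_eq_mul, mul_comm]
    · intro a b ha hb
      rw [map_add]
      exact Ideal.add_mem _ ha hb

theorem iterate_mem_pow (m : Ideal R) (i n : ℕ) {g : R} (hg : g ∈ m ^ (n + i)) :
    (⇑D)^[i] g ∈ m ^ n := by
  induction i generalizing g n with
  | zero => simpa using hg
  | succ i ih =>
    rw [Function.iterate_succ_apply]
    apply ih
    apply deriv_mem_pow D m
    have : n + i + 1 = n + (i + 1) := by ring
    rw [this]
    exact hg

theorem iterate_add (i : ℕ) (a b : R) : (⇑D)^[i] (a + b) = (⇑D)^[i] a + (⇑D)^[i] b := by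
  induction i generalizing a b with
  | zero => rfl
  | succ i ih => rw [Function.iterate_succ_apply, Function.iterate_succ_apply,
      Function.iterate_succ_apply, map_add, ih]

theorem iterate_smul (i : ℕ) (c : K) (a : R) : (⇑D)^[i] (c • a) = c • (⇑D)^[i] a := by
  induction i generalizing a with
  | zero => rfl
  | succ i ih => rw [Function.iterate_succ_apply, Function.iterate_succ_apply,
      Derivation.map_smul, ih]

theorem iterate_sub (i : ℕ) (a b : R) : (⇑D)^[i] (a - b) = (⇑D)^[i] a - (⇑D)^[i] b := by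
  induction i generalizing a b with
  | zero => rfl
  | succ i ih => rw [Function.iterate_succ_apply, Function.iterate_succ_apply,
      Function.iterate_succ_apply, map_sub, ih]

end general

section point

variable (ev : R →ₐ[K] K) (D : Derivation K R R)

theorem sub_algebraMap_mem_ker (g : R) : g - algebraMap K R (ev g) ∈ RingHom.ker ev := by
  rw [RingHom.mem_ker, map_sub]
  simp

/-- `(⇒)`: elements of `m ^ k` have vanishing jets of order `< k`. -/
theorem ev_iterate_eq_zero_of_mem {k : ℕ} {g : R} (hg : g ∈ (RingHom.ker ev) ^ k) {i : ℕ}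
    (hi : i < k) : ev ((⇑D)^[i] g) = 0 := by
  obtain ⟨n, rfl⟩ : ∃ n, k = (n + 1) + i := ⟨k - i - 1, by omega⟩
  have h1 := iterate_mem_pow D (RingHom.ker ev) i (n + 1) hg
  have h2 : (RingHom.ker ev) ^ (n + 1) ≤ RingHom.ker ev := Ideal.pow_le_self (by omega)
  exact (RingHom.mem_ker).mp (h2 h1)

/-- The top jet of `t ^ k`. -/
theorem ev_iterate_pow {t : R} (ht : ev t = 0) (k : ℕ) :
    ev ((⇑D)^[k] (t ^ k)) = (k.factorial : K) * ev (D t) ^ k := by
  induction k with
  | zero => simp
  | succ k ih =>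
    rw [Function.iterate_succ_apply, Derivation.leibniz_pow]
    have htk : t ^ k ∈ (RingHom.ker ev) ^ k := Ideal.pow_mem_pow ((RingHom.mem_ker).mpr ht) k
    have e : (k + 1) • t ^ (k + 1 - 1) • D t =
        ((k + 1 : ℕ) : K) • (ev (D t) • t ^ k) +
          ((k + 1 : ℕ) : K) • (t ^ k * (D t - algebraMap K R (ev (D t)))) := by
      rw [Nat.add_sub_cancel, smul_eq_mul, ← smul_add, mul_sub, Algebra.smul_def (ev (D t)),
        mul_comm (t ^ k) (algebraMap K R (ev (D t))), add_sub_cancel,
        Nat.cast_smul_eq_nsmul]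
    rw [e, iterate_add, iterate_smul, iterate_smul, iterate_smul, map_add, map_smul, map_smul,
      map_smul, ih]
    have hmem : t ^ k * (D t - algebraMap K R (ev (D t))) ∈ (RingHom.ker ev) ^ (k + 1) := by
      rw [pow_succ]
      exact Ideal.mul_mem_mul htk (sub_algebraMap_mem_ker ev (D t))
    rw [ev_iterate_eq_zero_of_mem ev D hmem (Nat.lt_succ_self k)]
    simp only [smul_eq_mul, mul_zero, add_zero, Nat.factorial_succ, Nat.cast_mul, pow_succ]
    ring

/-- Every element of `m ^ k` is a multiple of `t ^ k` modulo `m ^ (k + 1)`. -/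
theorem exists_sub_smul_pow_mem {t : R} (ht : ev t = 0)
    (hm : RingHom.ker ev ≤ Ideal.span {t} ⊔ (RingHom.ker ev) ^ 2) (k : ℕ) {g : R}
    (hg : g ∈ (RingHom.ker ev) ^ k) :
    ∃ c : K, g - c • t ^ k ∈ (RingHom.ker ev) ^ (k + 1) := by
  induction k generalizing g with
  | zero =>
    refine ⟨ev g, ?_⟩
    rw [pow_zero, zero_add, pow_one, Algebra.smul_def, mul_one]
    exact sub_algebraMap_mem_ker ev g
  | succ k ih =>
    rw [pow_succ] at hg
    refine Submodule.mul_induction_on hg ?_ ?_
    · intro b hb a ha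
      obtain ⟨c, hc⟩ := ih hb
      obtain ⟨u, hu, w, hw, rfl⟩ := Submodule.mem_sup.mp (hm ha)
      obtain ⟨r, rfl⟩ := Ideal.mem_span_singleton'.mp hu
      refine ⟨c * ev r, ?_⟩
      have e : b * (r * t + w) - (c * ev r) • t ^ (k + 1) =
          (b - c • t ^ k) * (r * t) + b * w +
            (c • t ^ k * t) * (r - algebraMap K R (ev r)) := by
        rw [Algebra.smul_def, Algebra.smul_def, map_mul]
        ring
      rw [e]
      have hmk : (RingHom.ker ev) ^ (k + 1 + 1) = (RingHom.ker ev) ^ (k + 1) * RingHom.ker ev :=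
        pow_succ _ _
      have htm : t ∈ RingHom.ker ev := (RingHom.mem_ker).mpr ht
      have h1 : (b - c • t ^ k) * (r * t) ∈ (RingHom.ker ev) ^ (k + 1 + 1) := by
        rw [hmk]
        exact Ideal.mul_mem_mul hc (Ideal.mul_mem_left _ _ htm)
      have h2 : b * w ∈ (RingHom.ker ev) ^ (k + 1 + 1) := by
        have : (RingHom.ker ev) ^ (k + 1 + 1) = (RingHom.ker ev) ^ k * (RingHom.ker ev) ^ 2 := by
          rw [← pow_add]
        rw [this]
        exact Ideal.mul_mem_mul hb hw
      have h3 : (c • t ^ k * t) * (r - algebraMap K R (ev r)) ∈ (RingHom.ker ev) ^ (k + 1 + 1) := by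
        rw [hmk]
        refine Ideal.mul_mem_mul ?_ (sub_algebraMap_mem_ker ev r)
        rw [pow_succ]
        refine Ideal.mul_mem_mul ?_ htm
        rw [Algebra.smul_def]
        exact Ideal.mul_mem_left _ _ (Ideal.pow_mem_pow htm k)
      exact Ideal.add_mem _ (Ideal.add_mem _ h1 h2) h3
    · intro a b ⟨c, hc⟩ ⟨c', hc'⟩
      refine ⟨c + c', ?_⟩
      have : a + b - (c + c') • t ^ (k + 1) = (a - c • t ^ (k + 1)) + (b - c' • t ^ (k + 1)) := by
        rw [add_smul]; ring
      rw [this]
      exact Ideal.add_mem _ hc hc'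

/-- **W1, abstract form.** -/
theorem mem_pow_iff [CharZero K] {t : R} (ht : ev t = 0) (hDt : ev (D t) ≠ 0)
    (hm : RingHom.ker ev ≤ Ideal.span {t} ⊔ (RingHom.ker ev) ^ 2) (k : ℕ) (g : R) :
    g ∈ (RingHom.ker ev) ^ k ↔ ∀ i < k, ev ((⇑D)^[i] g) = 0 := by
  refine ⟨fun hg i hi => ev_iterate_eq_zero_of_mem ev D hg hi, ?_⟩
  induction k generalizing g with
  | zero => intro _; simp
  | succ k ih =>
    intro h
    have hgk : g ∈ (RingHom.ker ev) ^ k := ih g fun i hi => h i (Nat.lt_succ_of_lt hi)
    obtain ⟨c, hc⟩ := exists_sub_smul_pow_mem ev ht hm k hgk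
    have h1 : ev ((⇑D)^[k] (g - c • t ^ k)) = 0 :=
      ev_iterate_eq_zero_of_mem ev D hc (Nat.lt_succ_self k)
    rw [iterate_sub, iterate_smul, map_sub, map_smul, h k (Nat.lt_succ_self k),
      ev_iterate_pow ev D ht, zero_sub, neg_eq_zero, smul_eq_mul] at h1
    have hne : (k.factorial : K) * ev (D t) ^ k ≠ 0 :=
      mul_ne_zero (Nat.cast_ne_zero.mpr (Nat.factorial_ne_zero k)) (pow_ne_zero k hDt)
    have hc0 : c = 0 := (mul_eq_zero.mp h1).resolve_right hne
    rw [hc0, zero_smul, sub_zero] at hc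
    exact hc

end point

end Fermat.Agent.S13.W.H12
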