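import Fermat.Agent.S13.W.H1_Defs
import Fermat.Agent.S13.W.H6_Zeros
import Fermat.Agent.S13.W.H12_OrderAbs

/-!
# S13, package W, leaf W1 (helper12 hedge): order of vanishing via `D`, curve layer

`g ∈ (XYIdeal W x (C y)) ^ k ↔ ∀ i < k, evalAt W h ((D W)^[i] g) = 0` at a nonsingular point of
a Weierstrass curve over a field of characteristic `0`.
-/

set_option autoImplicit false

open Polynomial
open scoped Polynomial.Bivariate
open WeierstrassCurve.Affine
open Fermat.Agent.S13.Wr

universe u

namespace Fermat.Agent.S13.W.H12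

variable {K : Type u} [Field K] (W : WeierstrassCurve.Affine K)

theorem h12_XClass_eq (x : K) : CoordinateRing.XClass W x = pq W (X - C x) 0 := by
  unfold pq CoordinateRing.XClass
  rw [zero_smul, add_zero, CoordinateRing.smul, mul_one]

theorem h12_YClass_eq (y : K) : CoordinateRing.YClass W (C y) = pq W (-C y) 1 := by
  unfold pq CoordinateRing.YClass
  rw [one_smul, CoordinateRing.smul, mul_one, ← map_add]
  congr 1
  rw [map_neg]
  ring

theorem h12_ker_evalAt {x y : K} (h : W.Equation x y) :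
    RingHom.ker (evalAt W h) = CoordinateRing.XYIdeal W x (C y) := by
  ext g
  rw [RingHom.mem_ker]
  exact h6_evalAt_eq_zero_iff W h g

theorem h12_evalAt_XClass {x y : K} (h : W.Equation x y) :
    evalAt W h (CoordinateRing.XClass W x) = 0 := by
  rw [h12_XClass_eq, evalAt_pq]
  simp

theorem h12_evalAt_YClass {x y : K} (h : W.Equation x y) :
    evalAt W h (CoordinateRing.YClass W (C y)) = 0 := by
  rw [h12_YClass_eq, evalAt_pq]
  simp

theorem h12_evalAt_D_XClass {x y : K} (h : W.Equation x y) :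
    evalAt W h (D W (CoordinateRing.XClass W x)) = 2 * y + W.a₁ * x + W.a₃ := by
  rw [h12_XClass_eq, D_pq, evalAt_pq]
  simp [polyA, polyB]
  ring

theorem h12_evalAt_D_YClass {x y : K} (h : W.Equation x y) :
    evalAt W h (D W (CoordinateRing.YClass W (C y))) =
      -(W.a₁ * y - (3 * x ^ 2 + 2 * W.a₂ * x + W.a₄)) := by
  rw [h12_YClass_eq, D_pq, evalAt_pq]
  simp [polyA, polyB]
  ring

/-- Taylor expansion of the Weierstrass polynomial at `(x, y)`. -/
theorem h12_taylor (x y : K) :
    W.polynomial =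
      C (C (W.a₁ * y - (3 * x ^ 2 + 2 * W.a₂ * x + W.a₄))) * C (X - C x) +
      C (C (2 * y + W.a₁ * x + W.a₃)) * (Y - C (C y)) +
      ((Y - C (C y)) ^ 2 + C (C W.a₁) * C (X - C x) * (Y - C (C y))
        - C (C (3 * x + W.a₂)) * C (X - C x) ^ 2 - C (X - C x) ^ 3) +
      C (C (y ^ 2 + W.a₁ * x * y + W.a₃ * y - (x ^ 3 + W.a₂ * x ^ 2 + W.a₄ * x + W.a₆))) := by
  rw [WeierstrassCurve.Affine.polynomial]
  simp only [map_ofNat, C_add, C_sub, C_mul, C_pow]
  ring

/-- The Taylor expansion in the coordinate ring: `w_X ξ + w_Y η + Q = 0` with `Q ∈ m²`. -/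
theorem h12_taylor_mk {x y : K} (h : W.Equation x y) :
    CoordinateRing.mk W (C (C (W.a₁ * y - (3 * x ^ 2 + 2 * W.a₂ * x + W.a₄)))) *
        CoordinateRing.XClass W x +
      CoordinateRing.mk W (C (C (2 * y + W.a₁ * x + W.a₃))) * CoordinateRing.YClass W (C y) +
      (CoordinateRing.YClass W (C y) ^ 2 +
        CoordinateRing.mk W (C (C W.a₁)) * CoordinateRing.XClass W x *
          CoordinateRing.YClass W (C y)
        - CoordinateRing.mk W (C (C (3 * x + W.a₂))) * CoordinateRing.XClass W x ^ 2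
        - CoordinateRing.XClass W x ^ 3) = 0 := by
  have h0 := congrArg (CoordinateRing.mk W) (h12_taylor W x y)
  have hz : CoordinateRing.mk W W.polynomial = 0 := AdjoinRoot.mk_self
  rw [hz] at h0
  have he : y ^ 2 + W.a₁ * x * y + W.a₃ * y - (x ^ 3 + W.a₂ * x ^ 2 + W.a₄ * x + W.a₆) = 0 := by
    rw [WeierstrassCurve.Affine.equation_iff] at h
    rw [h]
    ring
  rw [he] at h0
  simp only [CoordinateRing.XClass, CoordinateRing.YClass]
  rw [h0]
  simp only [map_add, map_sub, map_mul, map_pow, map_zero, add_zero]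

theorem h12_Q_mem (x y : K) :
    CoordinateRing.YClass W (C y) ^ 2 +
        CoordinateRing.mk W (C (C W.a₁)) * CoordinateRing.XClass W x *
          CoordinateRing.YClass W (C y)
        - CoordinateRing.mk W (C (C (3 * x + W.a₂))) * CoordinateRing.XClass W x ^ 2
        - CoordinateRing.XClass W x ^ 3 ∈ (CoordinateRing.XYIdeal W x (C y)) ^ 2 := by
  have hX : CoordinateRing.XClass W x ∈ CoordinateRing.XYIdeal W x (C y) :=
    Ideal.subset_span (by simp)
  have hY : CoordinateRing.YClass W (C y) ∈ CoordinateRing.XYIdeal W x (C y) :=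
    Ideal.subset_span (by simp)
  have hXX : CoordinateRing.XClass W x ^ 2 ∈ (CoordinateRing.XYIdeal W x (C y)) ^ 2 :=
    Ideal.pow_mem_pow hX 2
  have hYY : CoordinateRing.YClass W (C y) ^ 2 ∈ (CoordinateRing.XYIdeal W x (C y)) ^ 2 :=
    Ideal.pow_mem_pow hY 2
  have hXY : CoordinateRing.XClass W x * CoordinateRing.YClass W (C y) ∈
      (CoordinateRing.XYIdeal W x (C y)) ^ 2 := by
    rw [pow_two]
    exact Ideal.mul_mem_mul hX hY
  refine Ideal.sub_mem _ (Ideal.sub_mem _ (Ideal.add_mem _ hYY ?_) ?_) ?_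
  · rw [mul_assoc]
    exact Ideal.mul_mem_left _ _ hXY
  · exact Ideal.mul_mem_left _ _ hXX
  · have e3 : CoordinateRing.XClass W x ^ 3 =
        CoordinateRing.XClass W x ^ 2 * CoordinateRing.XClass W x := by ring
    rw [e3]
    exact Ideal.mul_mem_right _ _ hXX

theorem h12_exists_uniformizer {x y : K} (h : W.Nonsingular x y) :
    ∃ t : W.CoordinateRing, evalAt W h.1 t = 0 ∧ evalAt W h.1 (D W t) ≠ 0 ∧
      RingHom.ker (evalAt W h.1) ≤ Ideal.span {t} ⊔ (RingHom.ker (evalAt W h.1)) ^ 2 := by
  have hns := (WeierstrassCurve.Affine.nonsingular_iff' x y).mp h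
  have hT := h12_taylor_mk W h.1
  have hQ := h12_Q_mem W x y
  set ξ := CoordinateRing.XClass W x with hξ
  set η := CoordinateRing.YClass W (C y) with hη
  set Q := η ^ 2 + CoordinateRing.mk W (C (C W.a₁)) * ξ * η
        - CoordinateRing.mk W (C (C (3 * x + W.a₂))) * ξ ^ 2 - ξ ^ 3 with hQdef
  set wx := W.a₁ * y - (3 * x ^ 2 + 2 * W.a₂ * x + W.a₄) with hwx
  set wy := 2 * y + W.a₁ * x + W.a₃ with hwy
  rw [h12_ker_evalAt W h.1]
  have hmul : ∀ c d : K, CoordinateRing.mk W (C (C c)) * CoordinateRing.mk W (C (C d)) =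
      CoordinateRing.mk W (C (C (c * d))) := fun c d => by
    rw [← map_mul, ← C_mul, ← C_mul]
  have hone : CoordinateRing.mk W (C (C (1 : K))) = 1 := by simp
  rcases hns.2 with hx0 | hy0
  · -- `w_X ≠ 0`: uniformizer `η`
    refine ⟨η, h12_evalAt_YClass W h.1, ?_, ?_⟩
    · rw [h12_evalAt_D_YClass]
      exact neg_ne_zero.mpr hx0
    · have hle : CoordinateRing.XYIdeal W x (C y) = Ideal.span {ξ, η} := rfl
      conv_lhs => rw [hle]
      rw [Ideal.span_le]
      intro z hz
      rcases hz with rfl | rfl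
      · -- `ξ = -(w_X)⁻¹ (w_Y η + Q)`
        have e : ξ = (-(CoordinateRing.mk W (C (C wx⁻¹)) * CoordinateRing.mk W (C (C wy)))) * η +
            (-(CoordinateRing.mk W (C (C wx⁻¹)))) * Q := by
          have h1 : CoordinateRing.mk W (C (C wx⁻¹)) * (CoordinateRing.mk W (C (C wx)) * ξ) = ξ := by
            rw [← mul_assoc, hmul, inv_mul_cancel₀ hx0, hone, one_mul]
          have h2 : CoordinateRing.mk W (C (C wx)) * ξ =
              -(CoordinateRing.mk W (C (C wy)) * η + Q) := by
            linear_combination hT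
          rw [← h1, h2]
          ring
        have key : ∀ z : W.CoordinateRing,
            z = (-(CoordinateRing.mk W (C (C wx⁻¹)) * CoordinateRing.mk W (C (C wy)))) * η +
              (-(CoordinateRing.mk W (C (C wx⁻¹)))) * Q →
            z ∈ Ideal.span {η} ⊔ (CoordinateRing.XYIdeal W x (C y)) ^ 2 := by
          intro z hz
          rw [hz]
          refine Submodule.add_mem_sup
            (Ideal.mul_mem_left _ _ (Ideal.mem_span_singleton_self η)) ?_
          exact Ideal.mul_mem_left _ _ hQ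
        exact key _ e
      · exact Ideal.mem_sup_left (Ideal.mem_span_singleton_self η)
  · -- `w_Y ≠ 0`: uniformizer `ξ`
    refine ⟨ξ, h12_evalAt_XClass W h.1, ?_, ?_⟩
    · rw [h12_evalAt_D_XClass]
      exact hy0
    · have hle : CoordinateRing.XYIdeal W x (C y) = Ideal.span {ξ, η} := rfl
      conv_lhs => rw [hle]
      rw [Ideal.span_le]
      intro z hz
      rcases hz with rfl | rfl
      · exact Ideal.mem_sup_left (Ideal.mem_span_singleton_self ξ)
      · have e : η = (-(CoordinateRing.mk W (C (C wy⁻¹)) * CoordinateRing.mk W (C (C wx)))) * ξ +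
            (-(CoordinateRing.mk W (C (C wy⁻¹)))) * Q := by
          have h1 : CoordinateRing.mk W (C (C wy⁻¹)) * (CoordinateRing.mk W (C (C wy)) * η) = η := by
            rw [← mul_assoc, hmul, inv_mul_cancel₀ hy0, hone, one_mul]
          have h2 : CoordinateRing.mk W (C (C wy)) * η =
              -(CoordinateRing.mk W (C (C wx)) * ξ + Q) := by
            linear_combination hT
          rw [← h1, h2]
          ring
        have key : ∀ z : W.CoordinateRing,
            z = (-(CoordinateRing.mk W (C (C wy⁻¹)) * CoordinateRing.mk W (C (C wx)))) * ξ +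
              (-(CoordinateRing.mk W (C (C wy⁻¹)))) * Q →
            z ∈ Ideal.span {ξ} ⊔ (CoordinateRing.XYIdeal W x (C y)) ^ 2 := by
          intro z hz
          rw [hz]
          refine Submodule.add_mem_sup
            (Ideal.mul_mem_left _ _ (Ideal.mem_span_singleton_self ξ)) ?_
          exact Ideal.mul_mem_left _ _ hQ
        exact key _ e

/-- **Leaf W1** (statement of findings #130 verbatim). -/
theorem W1_mem_pow_iff {K : Type u} [Field K] [CharZero K] (W : WeierstrassCurve.Affine K)
    {x y : K} (h : W.Nonsingular x y) (k : ℕ) (g : W.CoordinateRing) :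
    g ∈ (CoordinateRing.XYIdeal W x (C y)) ^ k ↔
      ∀ i < k, evalAt W h.1 ((D W)^[i] g) = 0 := by
  obtain ⟨t, ht, hDt, hm⟩ := h12_exists_uniformizer W h
  rw [← h12_ker_evalAt W h.1]
  exact mem_pow_iff (evalAt W h.1) (D W) ht hDt hm k g

end Fermat.Agent.S13.W.H12
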