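import Fermat.Agent.S13.W.H1_Defs

/-!
# S13, package W, leaf D (helper14): base change of the Wronskian calculus

For a ring homomorphism `f : R →+* S` and `W : WeierstrassCurve.Affine R`, the map
`CoordinateRing.map W f : R[W] →+* S[W.map f]` commutes with `pq`, `cp`, `cq`, `D`, the iterates
of `D`, `mono`, `Wr` and `nrm`.
-/

set_option autoImplicit false

open Polynomial
open scoped Polynomial.Bivariate

universe u v

namespace Fermat.Agent.S13.W.H14

open WeierstrassCurve.Affine Fermat.Agent.S13.Wr

variable {R : Type u} {S : Type v} [CommRing R] [CommRing S] (f : R →+* S)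
  (W : WeierstrassCurve.Affine R)

theorem D_map_pq (p q : R[X]) :
    CoordinateRing.map W f (pq W p q) = pq (W.map f).toAffine (p.map f) (q.map f) := by
  unfold pq
  rw [map_add, CoordinateRing.map_smul, CoordinateRing.map_smul, map_one, CoordinateRing.map_mk,
    Polynomial.map_X]

theorem map_cp (g : W.CoordinateRing) :
    cp (W.map f).toAffine (CoordinateRing.map W f g) = (cp W g).map f := by
  conv_lhs => rw [← pq_cp_cq W g, D_map_pq, cp_pq]

theorem map_cq (g : W.CoordinateRing) :
    cq (W.map f).toAffine (CoordinateRing.map W f g) = (cq W g).map f := by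
  conv_lhs => rw [← pq_cp_cq W g, D_map_pq, cq_pq]

lemma map_polyA : (polyA W).map f = polyA (W.map f).toAffine := by
  unfold polyA
  simp [WeierstrassCurve.map]

lemma map_polyB : (polyB W).map f = polyB (W.map f).toAffine := by
  unfold polyB
  simp [WeierstrassCurve.map]

theorem D_map_D (g : W.CoordinateRing) :
    CoordinateRing.map W f (D W g) = D (W.map f).toAffine (CoordinateRing.map W f g) := by
  obtain ⟨p, q, rfl⟩ : ∃ p q, g = pq W p q := ⟨_, _, (pq_cp_cq W g).symm⟩
  rw [D_pq, D_map_pq, D_map_pq, D_pq, ← map_polyA, ← map_polyB]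
  congr 1 <;>
    simp only [Polynomial.map_add, Polynomial.map_sub, Polynomial.map_mul,
      Polynomial.derivative_map, Polynomial.map_ofNat]

theorem D_map_iterate (i : ℕ) (g : W.CoordinateRing) :
    CoordinateRing.map W f ((D W)^[i] g) =
      (D (W.map f).toAffine)^[i] (CoordinateRing.map W f g) := by
  induction i generalizing g with
  | zero => rfl
  | succ i ih =>
    rw [Function.iterate_succ_apply, Function.iterate_succ_apply, ih, D_map_D]

theorem map_monoN (n : ℕ) :
    CoordinateRing.map W f (monoN W n) = monoN (W.map f).toAffine n := by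
  unfold monoN
  split_ifs <;> rw [D_map_pq] <;> simp

theorem map_mono (j : ℕ) :
    CoordinateRing.map W f (mono W j) = mono (W.map f).toAffine j :=
  map_monoN f W _

theorem D_map_Wr (n : ℕ) :
    CoordinateRing.map W f (Wr W n) = Wr (W.map f).toAffine n := by
  unfold Wr
  rw [RingHom.map_det]
  congr 1
  ext i j
  simp only [RingHom.mapMatrix_apply, Matrix.map_apply, WrMat, Matrix.of_apply]
  rw [D_map_iterate, map_mono]

theorem D_map_nrm (g : W.CoordinateRing) :
    (nrm W g).map f = nrm (W.map f).toAffine (CoordinateRing.map W f g) := by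
  unfold nrm
  rw [map_cp, map_cq, ← map_polyA, ← map_polyB]
  simp only [Polynomial.map_sub, Polynomial.map_mul, Polynomial.map_pow]

/-- evenness descends along base change. -/
theorem cq_Wr_map_eq_zero {n : ℕ} (h : cq W (Wr W n) = 0) :
    cq (W.map f).toAffine (Wr (W.map f).toAffine n) = 0 := by
  rw [← D_map_Wr, map_cq, h, Polynomial.map_zero]

/-- the "polynomial part" of the Wronskian commutes with base change. -/
theorem cp_Wr_map (n : ℕ) :
    cp (W.map f).toAffine (Wr (W.map f).toAffine n) = (cp W (Wr W n)).map f := by
  rw [← D_map_Wr, map_cp]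

end Fermat.Agent.S13.W.H14
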