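import Fermat.Agent.S13.W.H1_Defs

/-!
# S13, package W, glue (helper14): the kernel of the evaluation at a point

`evalAt W h g = 0 ↔ g ∈ XYIdeal W x (C y)` for a point `(x, y)` of the curve (any commutative
ring of coefficients).
-/

set_option autoImplicit false

open Polynomial
open scoped Polynomial.Bivariate

namespace Fermat.Agent.S13.W.H14

open WeierstrassCurve.Affine Fermat.Agent.S13.Wr

variable {K : Type*} [CommRing K] (W : WeierstrassCurve.Affine K)

lemma evalAt_apply {x y : K} (h : W.Equation x y) (g : W.CoordinateRing) :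
    evalAt W h g = evalRH W h g := rfl

lemma evalAt_XClass {x y : K} (h : W.Equation x y) : evalAt W h (CoordinateRing.XClass W x) = 0 := by
  rw [evalAt_apply, CoordinateRing.XClass, evalRH_mk]
  simp [Polynomial.evalEval]

lemma evalAt_YClass {x y : K} (h : W.Equation x y) :
    evalAt W h (CoordinateRing.YClass W (C y)) = 0 := by
  rw [evalAt_apply, CoordinateRing.YClass, evalRH_mk]
  simp [Polynomial.evalEval]

lemma XYIdeal_le_ker {x y : K} (h : W.Equation x y) :
    CoordinateRing.XYIdeal W x (C y) ≤ RingHom.ker (evalRH W h) := by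
  unfold CoordinateRing.XYIdeal
  rw [Ideal.span_le]
  intro g hg
  rcases hg with rfl | rfl
  · exact evalAt_XClass W h
  · exact evalAt_YClass W h

lemma pq_C_sub_mem (x : K) (y : K[X]) (p : K[X]) :
    pq W (p - C (p.eval x)) 0 ∈ CoordinateRing.XYIdeal W x y := by
  obtain ⟨r, hr⟩ : (X - C x) ∣ p - C (p.eval x) := by
    rw [Polynomial.dvd_iff_isRoot]; simp
  have h1 : pq W (p - C (p.eval x)) 0 = CoordinateRing.mk W (C r) * CoordinateRing.XClass W x := by
    unfold pq CoordinateRing.XClass
    rw [zero_smul, add_zero, CoordinateRing.smul, mul_one, hr, ← map_mul, ← C_mul, mul_comm]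
  rw [h1]
  exact Ideal.mul_mem_left _ _ (Ideal.subset_span (by simp))

lemma pq_zero_one_sub_mem (x y : K) :
    pq W (- C y) 1 ∈ CoordinateRing.XYIdeal W x (C y) := by
  have h1 : pq W (- C y) 1 = CoordinateRing.YClass W (C y) := by
    unfold pq CoordinateRing.YClass
    rw [one_smul, CoordinateRing.smul, mul_one, map_sub, map_neg, map_neg]
    ring
  rw [h1]
  exact Ideal.subset_span (by simp)

/-- every element is congruent to its value modulo the ideal of the point. -/
lemma sub_evalAt_mem {x y : K} (h : W.Equation x y) (g : W.CoordinateRing) :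
    g - algebraMap K W.CoordinateRing (evalAt W h g) ∈ CoordinateRing.XYIdeal W x (C y) := by
  obtain ⟨p, q, rfl⟩ : ∃ p q, g = pq W p q := ⟨_, _, (pq_cp_cq W g).symm⟩
  rw [evalAt_pq, algebraMap_eq_pq]
  have e : pq W p q - pq W (C (p.eval x + q.eval x * y)) 0 =
      pq W (p - C (p.eval x)) 0 + pq W (q - C (q.eval x)) 0 * pq W 0 1
        + pq W (C (q.eval x)) 0 * pq W (- C y) 1 := by
    rw [pq_mul, pq_mul, pq_add, pq_add, sub_eq_iff_eq_add, pq_add]
    congr 1
    · simp only [map_add, map_mul]; ring
    · ring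
  rw [e]
  refine Ideal.add_mem _ (Ideal.add_mem _ (pq_C_sub_mem W x _ p) ?_) ?_
  · exact Ideal.mul_mem_right _ _ (pq_C_sub_mem W x _ q)
  · exact Ideal.mul_mem_left _ _ (pq_zero_one_sub_mem W x y)

/-- **kernel of the evaluation**: `g (x, y) = 0 ↔ g ∈ 𝔪_{(x, y)}`. -/
theorem evalAt_eq_zero_iff {x y : K} (h : W.Equation x y) (g : W.CoordinateRing) :
    evalAt W h g = 0 ↔ g ∈ CoordinateRing.XYIdeal W x (C y) := by
  constructor
  · intro hg
    have := sub_evalAt_mem W h g
    rwa [hg, map_zero, sub_zero] at this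
  · intro hg
    exact XYIdeal_le_ker W h hg

/-- membership in the ideal of the point only depends on the value. -/
theorem mem_XYIdeal_iff_of_evalAt_eq {x y : K} (h : W.Equation x y) {g g' : W.CoordinateRing}
    (hgg : evalAt W h g = evalAt W h g') :
    g ∈ CoordinateRing.XYIdeal W x (C y) ↔ g' ∈ CoordinateRing.XYIdeal W x (C y) := by
  rw [← evalAt_eq_zero_iff W h, ← evalAt_eq_zero_iff W h, hgg]

end Fermat.Agent.S13.W.H14
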