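import Mathlib

/-!
# S13, package W, leaf W3 (helper14): the linear algebra of the Wronskian criterion

Abstract setting: `K` a field, `R` a commutative `K`-algebra, `ev : R →ₐ[K] K` ("evaluation at a
point"), `T : R →ₗ[K] R` ("the derivation"), `f : Fin n → R` ("the monomials").  Then

`ev (det (T^i (f j))) = 0  ↔  ∃ c ≠ 0, ∀ i < n, ev (T^i (∑ j, c j • f j)) = 0`.
-/

set_option autoImplicit false

namespace Fermat.Agent.S13.W.H14

variable {K : Type*} [Field K] {R : Type*} [CommRing R] [Algebra K R]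

lemma iterate_sum_smul (T : R →ₗ[K] R) {n : ℕ} (f : Fin n → R) (c : Fin n → K) (i : ℕ) :
    (⇑T)^[i] (∑ j, c j • f j) = ∑ j, c j • (⇑T)^[i] (f j) := by
  have h : ∀ x : R, (⇑T)^[i] x = (T ^ i) x := fun x => (Module.End.pow_apply T i x).symm
  rw [h, map_sum]
  refine Finset.sum_congr rfl fun j _ => ?_
  rw [map_smul, h]

lemma ev_iterate_sum_smul (ev : R →ₐ[K] K) (T : R →ₗ[K] R) {n : ℕ} (f : Fin n → R)
    (c : Fin n → K) (i : ℕ) :
    ev ((⇑T)^[i] (∑ j, c j • f j)) = ∑ j, ev ((⇑T)^[i] (f j)) * c j := by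
  rw [iterate_sum_smul, map_sum]
  refine Finset.sum_congr rfl fun j _ => ?_
  rw [map_smul, smul_eq_mul, mul_comm]

/-- **W3, abstract form.** The evaluation of the Wronskian determinant vanishes iff some
nontrivial linear combination of the `f j` has vanishing `ev ∘ T^i` for all `i < n`. -/
theorem ev_det_eq_zero_iff (ev : R →ₐ[K] K) (T : R →ₗ[K] R) {n : ℕ} (f : Fin n → R) :
    ev (Matrix.det (Matrix.of fun i j : Fin n => (⇑T)^[(i : ℕ)] (f j))) = 0 ↔
      ∃ c : Fin n → K, c ≠ 0 ∧ ∀ i : Fin n, ev ((⇑T)^[(i : ℕ)] (∑ j, c j • f j)) = 0 := by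
  have hdet : ev (Matrix.det (Matrix.of fun i j : Fin n => (⇑T)^[(i : ℕ)] (f j))) =
      Matrix.det (Matrix.of fun i j : Fin n => ev ((⇑T)^[(i : ℕ)] (f j))) := by
    rw [AlgHom.map_det]
    rfl
  rw [hdet, ← Matrix.exists_mulVec_eq_zero_iff]
  constructor
  · rintro ⟨c, hc, h⟩
    refine ⟨c, hc, fun i => ?_⟩
    rw [ev_iterate_sum_smul]
    have := congrFun h i
    simpa [Matrix.mulVec, dotProduct] using this
  · rintro ⟨c, hc, h⟩
    refine ⟨c, hc, ?_⟩
    funext i
    have := h i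
    rw [ev_iterate_sum_smul] at this
    simpa [Matrix.mulVec, dotProduct] using this

end Fermat.Agent.S13.W.H14
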