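import Fermat.Agent.S13.W.H14_Root
import Fermat.Agent.S13.W.H14_BaseChange

/-!
# S13, package W (helper14): the root criterion for `Ψ := cp W₀ (Wr W₀ n)` after base change

`W₀` a Weierstrass curve over a commutative ring `R` (e.g. `ℤ`) with even Wronskian
(`cq W₀ (Wr W₀ n) = 0`), `f : R →+* K` a homomorphism to a field: for a nonsingular point
`(x, y)` of `W₀.map f`, `n • P = 0 ↔ (Ψ.map f).eval x = 0` — W1 and W2 (over `K`) as hypotheses.
-/

set_option autoImplicit false

open Polynomial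
open scoped Polynomial.Bivariate

universe u v

namespace Fermat.Agent.S13.W.H14

open WeierstrassCurve.Affine Fermat.Agent.S13.Wr

variable {R : Type u} {K : Type v} [CommRing R] [Field K] [DecidableEq K] (f : R →+* K)
  (W₀ : WeierstrassCurve.Affine R)

omit [DecidableEq K] in
/-- value of the base-changed Wronskian in terms of the polynomial over `R`, without any
evenness hypothesis: `Wr(P) = (cp Wr)(x) + (cq Wr)(x) y`. -/
theorem evalAt_Wr_map (n : ℕ) {x y : K} (h : (W₀.map f).toAffine.Equation x y) :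
    evalAt (W₀.map f).toAffine h (Wr (W₀.map f).toAffine n) =
      ((cp W₀ (Wr W₀ n)).map f).eval x + ((cq W₀ (Wr W₀ n)).map f).eval x * y := by
  conv_lhs => rw [← pq_cp_cq (W₀.map f).toAffine (Wr (W₀.map f).toAffine n), evalAt_pq]
  rw [← D_map_Wr, map_cp, map_cq]

/-- **root criterion after base change**, `Ψ := cp W₀ (Wr W₀ n)`. -/
theorem F_W3_psi (n : ℕ) (hn : 0 < n) (hev : cq W₀ (Wr W₀ n) = 0) {x y : K}
    (h : (W₀.map f).toAffine.Nonsingular x y)
    (hW1 : ∀ g : (W₀.map f).toAffine.CoordinateRing,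
      g ∈ (CoordinateRing.XYIdeal (W₀.map f).toAffine x (C y)) ^ n ↔
        ∀ i < n, evalAt (W₀.map f).toAffine h.1 ((D (W₀.map f).toAffine)^[i] g) = 0)
    (hW2 : n • (Point.some x y h : (W₀.map f).toAffine.Point) = 0 ↔
      ∃ g : (W₀.map f).toAffine.CoordinateRing, g ≠ 0 ∧
        g ∈ (CoordinateRing.XYIdeal (W₀.map f).toAffine x (C y)) ^ n ∧
        Fil (W₀.map f).toAffine n g) :
    n • (Point.some x y h : (W₀.map f).toAffine.Point) = 0 ↔
      ((cp W₀ (Wr W₀ n)).map f).eval x = 0 := by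
  rw [F_W3_of_even (W₀.map f).toAffine h n hn hW1 hW2 (cq_Wr_map_eq_zero f W₀ hev), cp_Wr_map]

end Fermat.Agent.S13.W.H14
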