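import Fermat.Agent.S13.W.H1_Defs

/-!
# S13, package W, leaf W3 (helper14): the filtration `Fil n` is the span of the `n` monomials

* `Fil_mono'` : `mono W j ∈ Fil (ordN j)`; `lc_mono` : `lc (ordN i) (mono j) = δ_{ij}`;
* `Fil_iff_exists_sum` : for `1 ≤ n`, `Fil W n g ↔ ∃ c : Fin n → K, g = ∑ j, c j • mono W j`;
* `sum_smul_mono_eq_zero` : the monomials are linearly independent;
* `natDegree_norm_le_iff` : over a domain, `natDegree (Algebra.norm K[X] g) ≤ n ↔ Fil W n g`.
-/

set_option autoImplicit false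

open Polynomial
open scoped Polynomial.Bivariate

namespace Fermat.Agent.S13.W.H14

open WeierstrassCurve.Affine Fermat.Agent.S13.Wr

variable {K : Type*} [CommRing K] (W : WeierstrassCurve.Affine K)

lemma Z_iff_degree_lt (f : K[X]) (d : ℕ) : Z f d ↔ f.degree < d :=
  (Polynomial.degree_lt_iff_coeff_zero f d).symm

lemma Z_X_pow (a d : ℕ) (h : a < d) : Z (X ^ a : K[X]) d := by
  intro k hk
  rw [coeff_X_pow, if_neg (by omega)]

lemma ordN_ne_one (j : ℕ) : ordN j ≠ 1 := by
  unfold ordN; split_ifs <;> omega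

lemma ordN_injective : Function.Injective ordN := by
  intro i j h
  unfold ordN at h
  split_ifs at h <;> omega

lemma ordN_le {j n : ℕ} (h : j < n) : ordN j ≤ n := by
  unfold ordN; split_ifs <;> omega

lemma ordN_succ (n : ℕ) : ordN (n + 1) = n + 2 := by
  unfold ordN; simp

lemma ordN_zero : ordN 0 = 0 := by
  unfold ordN; simp

lemma Fil_monoN {m : ℕ} (hm : m ≠ 1) : Fil W m (monoN W m) := by
  unfold monoN
  split_ifs with h
  · rw [Fil_pq_iff]
    exact ⟨Z_X_pow _ _ (by omega), Z_zero _⟩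
  · rw [Fil_pq_iff]
    exact ⟨Z_zero _, Z_X_pow _ _ (by omega)⟩

lemma lc_monoN {m m' : ℕ} (hm : m ≠ 1) (hm' : m' ≠ 1) :
    lc W m (monoN W m') = if m = m' then 1 else 0 := by
  unfold monoN
  by_cases h' : m' % 2 = 0
  · rw [if_pos h', lc_pq]
    by_cases h : m % 2 = 0
    · rw [if_pos h, coeff_X_pow]
      by_cases e : m = m'
      · rw [if_pos e, if_pos (by rw [e])]
      · rw [if_neg e, if_neg (by omega)]
    · rw [if_neg h, coeff_zero, if_neg (by rintro rfl; exact h h')]
  · rw [if_neg h', lc_pq]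
    by_cases h : m % 2 = 0
    · rw [if_pos h, coeff_zero, if_neg (by rintro rfl; exact h' h)]
    · rw [if_neg h, coeff_X_pow]
      by_cases e : m = m'
      · rw [if_pos e, if_pos (by rw [e])]
      · rw [if_neg e, if_neg (by omega)]

lemma Fil_mono' (j : ℕ) : Fil W (ordN j) (mono W j) := Fil_monoN W (ordN_ne_one j)

lemma Fil_mono_of_lt {j n : ℕ} (h : j < n) : Fil W n (mono W j) :=
  Fil_mono W (Fil_mono' W j) (ordN_le h)

lemma lc_mono (i j : ℕ) : lc W (ordN i) (mono W j) = if i = j then 1 else 0 := by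
  unfold mono
  rw [lc_monoN W (ordN_ne_one i) (ordN_ne_one j)]
  by_cases e : i = j
  · rw [if_pos e, if_pos (by rw [e])]
  · rw [if_neg e, if_neg (fun h => e (ordN_injective h))]

lemma mono_zero : mono W 0 = 1 := by
  unfold mono monoN
  rw [ordN_zero]
  simp [pq_one]

/-- `lc m` as a `K`-linear form. -/
noncomputable def lcLin (m : ℕ) : W.CoordinateRing →ₗ[K] K where
  toFun := lc W m
  map_add' := lc_add W m
  map_smul' c g := by simp [lc_smul]

lemma lcLin_apply (m : ℕ) (g : W.CoordinateRing) : lcLin W m g = lc W m g := rfl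

lemma lc_sum_smul_mono {n : ℕ} (c : Fin n → K) (i : Fin n) :
    lc W (ordN i) (∑ j : Fin n, c j • mono W (j : ℕ)) = c i := by
  rw [← lcLin_apply, map_sum]
  simp only [map_smul, lcLin_apply, lc_mono, smul_eq_mul, mul_ite, mul_one, mul_zero]
  rw [Finset.sum_eq_single i]
  · simp
  · intro j _ hj
    rw [if_neg]
    intro h
    exact hj (Fin.ext h.symm)
  · simp

/-- the monomials are linearly independent over `K`. -/
theorem sum_smul_mono_eq_zero {n : ℕ} (c : Fin n → K)
    (h : ∑ j : Fin n, c j • mono W (j : ℕ) = 0) : c = 0 := by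
  funext i
  have := lc_sum_smul_mono W c i
  rw [h, lc_zero] at this
  exact this.symm

lemma Fil_sum_smul_mono {n : ℕ} (c : Fin n → K) :
    Fil W n (∑ j : Fin n, c j • mono W (j : ℕ)) := by
  have : ∀ s : Finset (Fin n), Fil W n (∑ j ∈ s, c j • mono W (j : ℕ)) := by
    intro s
    classical
    induction s using Finset.induction_on with
    | empty => simpa using Fil_zero_elt W n
    | insert a s ha ih =>
      rw [Finset.sum_insert ha]
      exact Fil_add W (Fil_smul W _ (Fil_mono_of_lt W a.2)) ih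
  exact this _

/-- removing the leading monomial lowers the pole order. -/
lemma Fil_sub_lc_smul_monoN {m : ℕ} (hm : 2 ≤ m) {g : W.CoordinateRing} (hg : Fil W m g) :
    Fil W (m - 1) (g - lc W m g • monoN W m) := by
  obtain ⟨p, q, rfl⟩ : ∃ p q, g = pq W p q := ⟨_, _, (pq_cp_cq W g).symm⟩
  rw [Fil_pq_iff] at hg
  obtain ⟨hp, hq⟩ := hg
  rw [lc_pq]
  unfold monoN
  by_cases h : m % 2 = 0
  · rw [if_pos h, if_pos h, smul_pq, mul_zero]
    have e : pq W p q - pq W (C (p.coeff (m / 2)) * X ^ (m / 2)) 0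
        = pq W (p - C (p.coeff (m / 2)) * X ^ (m / 2)) q := by
      rw [sub_eq_iff_eq_add, pq_add]; simp
    rw [e, Fil_pq_iff]
    refine ⟨?_, Z_mono hq (by omega)⟩
    intro k hk
    rw [coeff_sub, coeff_C_mul, coeff_X_pow]
    by_cases hk' : k = m / 2
    · rw [if_pos hk', hk']; simp
    · rw [if_neg hk', mul_zero, sub_zero]
      exact hp k (by omega)
  · rw [if_neg h, if_neg h, smul_pq, mul_zero]
    have e : pq W p q - pq W 0 (C (q.coeff ((m - 3) / 2)) * X ^ ((m - 3) / 2))
        = pq W p (q - C (q.coeff ((m - 3) / 2)) * X ^ ((m - 3) / 2)) := by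
      rw [sub_eq_iff_eq_add, pq_add]; simp
    rw [e, Fil_pq_iff]
    refine ⟨Z_mono hp (by omega), ?_⟩
    intro k hk
    rw [coeff_sub, coeff_C_mul, coeff_X_pow]
    by_cases hk' : k = (m - 3) / 2
    · rw [if_pos hk', hk']; simp
    · rw [if_neg hk', mul_zero, sub_zero]
      exact hq k (by omega)

lemma exists_sum_of_Fil_one {g : W.CoordinateRing} (hg : Fil W 1 g) :
    ∃ c : Fin 1 → K, g = ∑ j : Fin 1, c j • mono W (j : ℕ) := by
  obtain ⟨p, q, rfl⟩ : ∃ p q, g = pq W p q := ⟨_, _, (pq_cp_cq W g).symm⟩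
  rw [Fil_pq_iff] at hg
  obtain ⟨hp, hq⟩ := hg
  have hq0 : q = 0 := Z_eq_zero (by simpa using hq)
  have hp0 : p = C (p.coeff 0) := by
    apply Polynomial.eq_C_of_natDegree_le_zero
    exact Z_natDegree (by simpa using hp)
  refine ⟨fun _ => p.coeff 0, ?_⟩
  rw [Fin.sum_univ_one, Fin.val_zero, mono_zero, hq0, Algebra.smul_def, mul_one, algebraMap_eq_pq,
    ← hp0]

theorem exists_sum_of_Fil {n : ℕ} (hn : 1 ≤ n) {g : W.CoordinateRing} (hg : Fil W n g) :
    ∃ c : Fin n → K, g = ∑ j : Fin n, c j • mono W (j : ℕ) := by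
  induction n, hn using Nat.le_induction generalizing g with
  | base => exact exists_sum_of_Fil_one W hg
  | succ n hn ih =>
    have h1 := Fil_sub_lc_smul_monoN W (m := n + 1) (by omega) hg
    obtain ⟨c, hc⟩ := ih h1
    refine ⟨Fin.snoc c (lc W (n + 1) g), ?_⟩
    rw [Fin.sum_univ_castSucc]
    simp only [Fin.snoc_castSucc, Fin.snoc_last, Fin.val_castSucc, Fin.val_last]
    rw [← hc]
    have : mono W n = monoN W (n + 1) := by
      unfold mono ordN
      rw [if_neg (by omega)]
    rw [this]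
    abel

/-- **`Fil n` is the span of the `n` monomials of pole order `≤ n`.** -/
theorem Fil_iff_exists_sum {n : ℕ} (hn : 1 ≤ n) (g : W.CoordinateRing) :
    Fil W n g ↔ ∃ c : Fin n → K, g = ∑ j : Fin n, c j • mono W (j : ℕ) := by
  constructor
  · exact exists_sum_of_Fil W hn
  · rintro ⟨c, rfl⟩
    exact Fil_sum_smul_mono W c

lemma two_smul_degree_le_iff (p : K[X]) (n : ℕ) :
    2 • p.degree ≤ (n : WithBot ℕ) ↔ Z p (n / 2 + 1) := by
  rw [Z_iff_degree_lt]
  by_cases hp : p = 0
  · subst hp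
    simp
  · rw [Polynomial.degree_eq_natDegree hp]
    have h2 : (2 • (p.natDegree : WithBot ℕ)) = ((2 * p.natDegree : ℕ) : WithBot ℕ) := by
      rw [two_nsmul]; push_cast; ring
    rw [h2, Nat.cast_le, Nat.cast_lt]
    omega

lemma two_smul_degree_add_three_le_iff (q : K[X]) (n : ℕ) :
    2 • q.degree + 3 ≤ (n : WithBot ℕ) ↔ Z q ((n - 1) / 2) := by
  rw [Z_iff_degree_lt]
  by_cases hq : q = 0
  · subst hq
    simp
  · rw [Polynomial.degree_eq_natDegree hq]
    have h2 : (2 • (q.natDegree : WithBot ℕ)) + 3 = ((2 * q.natDegree + 3 : ℕ) : WithBot ℕ) := by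
      rw [two_nsmul]; push_cast; ring
    rw [h2, Nat.cast_le, Nat.cast_lt]
    omega

/-- **pole order = degree of the norm.** -/
theorem natDegree_norm_le_iff [IsDomain K] (g : W.CoordinateRing) (n : ℕ) :
    (Algebra.norm K[X] g).natDegree ≤ n ↔ Fil W n g := by
  obtain ⟨p, q, rfl⟩ : ∃ p q, g = pq W p q := ⟨_, _, (pq_cp_cq W g).symm⟩
  rw [Fil_pq_iff, Polynomial.natDegree_le_iff_degree_le]
  unfold pq
  rw [CoordinateRing.degree_norm_smul_basis, max_le_iff, two_smul_degree_le_iff,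
    two_smul_degree_add_three_le_iff]

end Fermat.Agent.S13.W.H14
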