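import Fermat.Agent.S13.W.H14_LinAlg
import Fermat.Agent.S13.W.H14_Eval
import Fermat.Agent.S13.W.H14_Span

/-!
# S13, package W, leaf F (helper14): the root criterion W3, from W1 and W2

* `evalAt_Wr_eq_zero_iff'` : `evalAt (Wr W n) = 0 ↔ ∃ g ≠ 0, Fil W n g ∧ ∀ i < n, evalAt (D^i g) = 0`
  (any field, any point of the curve, `1 ≤ n`);
* `F_W3_of` : with W1 and W2 as hypotheses (in the verbatim shapes of findings
  'S13 W interfaces (helper1)'), `n • P = 0 ↔ evalAt (Wr W n) = 0`;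
* `F_W3_of_even` : if moreover `Wr W n = pq W Ψ 0`, then `n • P = 0 ↔ Ψ.eval x = 0`.
-/

set_option autoImplicit false

open Polynomial
open scoped Polynomial.Bivariate

namespace Fermat.Agent.S13.W.H14

open WeierstrassCurve.Affine Fermat.Agent.S13.Wr

variable {K : Type*} [Field K] (W : WeierstrassCurve.Affine K)

lemma Wr_eq_det (n : ℕ) :
    Wr W n = Matrix.det (Matrix.of fun i j : Fin n =>
      (⇑((D W : Derivation K W.CoordinateRing W.CoordinateRing) :
        W.CoordinateRing →ₗ[K] W.CoordinateRing))^[(i : ℕ)] (mono W (j : ℕ))) := rfl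

/-- **W3 proper**: the Wronskian vanishes at a point iff some nonzero function of pole order
`≤ n` has all its first `n` derivatives vanishing there. -/
theorem evalAt_Wr_eq_zero_iff' {x y : K} (h : W.Equation x y) {n : ℕ} (hn : 1 ≤ n) :
    evalAt W h (Wr W n) = 0 ↔
      ∃ g : W.CoordinateRing, g ≠ 0 ∧ Fil W n g ∧
        ∀ i < n, evalAt W h ((D W)^[i] g) = 0 := by
  rw [Wr_eq_det, ev_det_eq_zero_iff (evalAt W h)
    ((D W : Derivation K W.CoordinateRing W.CoordinateRing) :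
      W.CoordinateRing →ₗ[K] W.CoordinateRing) (fun j : Fin n => mono W (j : ℕ))]
  constructor
  · rintro ⟨c, hc, hi⟩
    refine ⟨∑ j : Fin n, c j • mono W (j : ℕ), ?_, Fil_sum_smul_mono W c, fun i hin => ?_⟩
    · intro h0
      exact hc (sum_smul_mono_eq_zero W c h0)
    · exact hi ⟨i, hin⟩
  · rintro ⟨g, hg0, hgF, hi⟩
    obtain ⟨c, rfl⟩ := exists_sum_of_Fil W hn hgF
    refine ⟨c, ?_, fun i => hi i i.2⟩
    rintro rfl
    exact hg0 (by simp)

/-- **Leaf F, W3 from W1 and W2** (hypotheses in helper1's verbatim shapes, at the given point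
and the given `n`). -/
theorem F_W3_of [DecidableEq K] {x y : K} (h : W.Nonsingular x y) (n : ℕ) (hn : 0 < n)
    (hW1 : ∀ g : W.CoordinateRing, g ∈ (CoordinateRing.XYIdeal W x (C y)) ^ n ↔
      ∀ i < n, evalAt W h.1 ((D W)^[i] g) = 0)
    (hW2 : n • (Point.some x y h : W.Point) = 0 ↔
      ∃ g : W.CoordinateRing, g ≠ 0 ∧ g ∈ (CoordinateRing.XYIdeal W x (C y)) ^ n ∧ Fil W n g) :
    n • (Point.some x y h : W.Point) = 0 ↔ evalAt W h.1 (Wr W n) = 0 := by
  rw [hW2, evalAt_Wr_eq_zero_iff' W h.1 hn]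
  constructor
  · rintro ⟨g, hg0, hgm, hgF⟩
    exact ⟨g, hg0, hgF, (hW1 g).mp hgm⟩
  · rintro ⟨g, hg0, hgF, hi⟩
    exact ⟨g, hg0, (hW1 g).mpr hi, hgF⟩

/-- the same with W2 in the `natDegree (Algebra.norm _) ≤ n` form. -/
theorem F_W3_of' [DecidableEq K] {x y : K} (h : W.Nonsingular x y) (n : ℕ) (hn : 0 < n)
    (hW1 : ∀ g : W.CoordinateRing, g ∈ (CoordinateRing.XYIdeal W x (C y)) ^ n ↔
      ∀ i < n, evalAt W h.1 ((D W)^[i] g) = 0)
    (hW2 : n • (Point.some x y h : W.Point) = 0 ↔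
      ∃ g : W.CoordinateRing, g ≠ 0 ∧ g ∈ (CoordinateRing.XYIdeal W x (C y)) ^ n ∧
        (Algebra.norm K[X] g).natDegree ≤ n) :
    n • (Point.some x y h : W.Point) = 0 ↔ evalAt W h.1 (Wr W n) = 0 := by
  refine F_W3_of W h n hn hW1 (hW2.trans ?_)
  constructor
  · rintro ⟨g, hg0, hgm, hgN⟩
    exact ⟨g, hg0, hgm, (natDegree_norm_le_iff W g n).mp hgN⟩
  · rintro ⟨g, hg0, hgm, hgF⟩
    exact ⟨g, hg0, hgm, (natDegree_norm_le_iff W g n).mpr hgF⟩

/-- value of an "even" function `pq W Ψ 0` at a point. -/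
lemma evalAt_pq_zero {x y : K} (h : W.Equation x y) (Ψ : K[X]) :
    evalAt W h (pq W Ψ 0) = Ψ.eval x := by
  rw [evalAt_pq]; simp

/-- value of a function with vanishing `cq`. -/
lemma evalAt_of_cq_eq_zero {x y : K} (h : W.Equation x y) {g : W.CoordinateRing}
    (hg : cq W g = 0) : evalAt W h g = (cp W g).eval x := by
  conv_lhs => rw [← pq_cp_cq W g, hg]
  exact evalAt_pq_zero W h _

/-- **root criterion in `x` alone**, for an even Wronskian. -/
theorem F_W3_of_even [DecidableEq K] {x y : K} (h : W.Nonsingular x y) (n : ℕ) (hn : 0 < n)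
    (hW1 : ∀ g : W.CoordinateRing, g ∈ (CoordinateRing.XYIdeal W x (C y)) ^ n ↔
      ∀ i < n, evalAt W h.1 ((D W)^[i] g) = 0)
    (hW2 : n • (Point.some x y h : W.Point) = 0 ↔
      ∃ g : W.CoordinateRing, g ≠ 0 ∧ g ∈ (CoordinateRing.XYIdeal W x (C y)) ^ n ∧ Fil W n g)
    (hev : cq W (Wr W n) = 0) :
    n • (Point.some x y h : W.Point) = 0 ↔ (cp W (Wr W n)).eval x = 0 := by
  rw [F_W3_of W h n hn hW1 hW2, evalAt_of_cq_eq_zero W h.1 hev]

end Fermat.Agent.S13.W.H14
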