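import Fermat.Agent.S13.W.H14_Psi
import Fermat.Agent.S13.W.H15_W1
import Fermat.Agent.S13.W.H4_Principal

/-!
# S13, package W, leaf F (helper14): W3, unconditional

* `F_W3` (findings 'S13 W interfaces (helper1)', verbatim): for a nonsingular point `P = (x, y)`
  of a Weierstrass curve over a field of characteristic `0` and `0 < n`:
  `n • P = 0 ↔ evalAt W h.1 (Wr W n) = 0`;
* `F_W3_even` : if `cq W (Wr W n) = 0` then `n • P = 0 ↔ (cp W (Wr W n)).eval x = 0`;
* `F_W3_map` : for `W₀` over a commutative ring `R` with even Wronskian and `f : R →+* K`: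
  `n • P = 0 ↔ ((cp W₀ (Wr W₀ n)).map f).eval x = 0` on `W₀.map f`;
* `F_W3_norm` : without evenness, `n • P = 0 → (nrm W (Wr W n)).eval x = 0`, and base change.
-/

set_option autoImplicit false

open Polynomial
open scoped Polynomial.Bivariate

universe u v

namespace Fermat.Agent.S13.W.H14

open WeierstrassCurve.Affine Fermat.Agent.S13.Wr

/-- **Leaf F, W3.** -/
theorem F_W3 {K : Type u} [Field K] [CharZero K] [DecidableEq K] (W : WeierstrassCurve.Affine K)
    {x y : K} (h : W.Nonsingular x y) (n : ℕ) (hn : 0 < n) :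
    n • (Point.some x y h : W.Point) = 0 ↔ evalAt W h.1 (Wr W n) = 0 :=
  F_W3_of' W h n hn (W1_mem_pow_iff W h n) (Fermat.Agent.S13.W.h4_nsmul_eq_zero_iff W h n)

/-- W2 in the `Fil` form (helper1's shape), from helper4's theorem. -/
theorem W2_Fil {K : Type u} [Field K] [DecidableEq K] (W : WeierstrassCurve.Affine K)
    {x y : K} (h : W.Nonsingular x y) (n : ℕ) :
    n • (Point.some x y h : W.Point) = 0 ↔
      ∃ g : W.CoordinateRing, g ≠ 0 ∧ g ∈ (CoordinateRing.XYIdeal W x (C y)) ^ n ∧ Fil W n g := by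
  rw [Fermat.Agent.S13.W.h4_nsmul_eq_zero_iff W h n]
  constructor
  · rintro ⟨g, hg0, hgm, hgN⟩
    exact ⟨g, hg0, hgm, (natDegree_norm_le_iff W g n).mp hgN⟩
  · rintro ⟨g, hg0, hgm, hgF⟩
    exact ⟨g, hg0, hgm, (natDegree_norm_le_iff W g n).mpr hgF⟩

/-- root criterion in `x` alone for an even Wronskian. -/
theorem F_W3_even {K : Type u} [Field K] [CharZero K] [DecidableEq K]
    (W : WeierstrassCurve.Affine K) {x y : K} (h : W.Nonsingular x y) (n : ℕ) (hn : 0 < n)
    (hev : cq W (Wr W n) = 0) :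
    n • (Point.some x y h : W.Point) = 0 ↔ (cp W (Wr W n)).eval x = 0 := by
  rw [F_W3 W h n hn, evalAt_of_cq_eq_zero W h.1 hev]

/-- **root criterion after base change**: `Ψ := cp W₀ (Wr W₀ n)` over `R`, points over `K`. -/
theorem F_W3_map {R : Type u} {K : Type v} [CommRing R] [Field K] [CharZero K] [DecidableEq K]
    (f : R →+* K) (W₀ : WeierstrassCurve.Affine R) (n : ℕ) (hn : 0 < n)
    (hev : cq W₀ (Wr W₀ n) = 0) {x y : K} (h : (W₀.map f).toAffine.Nonsingular x y) :
    n • (Point.some x y h : (W₀.map f).toAffine.Point) = 0 ↔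
      ((cp W₀ (Wr W₀ n)).map f).eval x = 0 := by
  rw [F_W3_even (W₀.map f).toAffine h n hn (cq_Wr_map_eq_zero f W₀ hev), cp_Wr_map]

/-- without evenness: `n • P = 0 ↔ (cp Wr)(x) + (cq Wr)(x) y = 0`, polynomials over `R`. -/
theorem F_W3_map' {R : Type u} {K : Type v} [CommRing R] [Field K] [CharZero K] [DecidableEq K]
    (f : R →+* K) (W₀ : WeierstrassCurve.Affine R) (n : ℕ) (hn : 0 < n)
    {x y : K} (h : (W₀.map f).toAffine.Nonsingular x y) :
    n • (Point.some x y h : (W₀.map f).toAffine.Point) = 0 ↔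
      ((cp W₀ (Wr W₀ n)).map f).eval x + ((cq W₀ (Wr W₀ n)).map f).eval x * y = 0 := by
  rw [F_W3 (W₀.map f).toAffine h n hn, evalAt_Wr_map]

end Fermat.Agent.S13.W.H14
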