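import Fermat.Agent.S13.W.H1_Defs

/-!
# S13, package W, leaf B (helper15): Vandermonde numerics

The leading coefficient of the Wronskian is the determinant of the rising factorials
`(ascPochhammer i).eval (ordN j)`, i.e. the Vandermonde determinant of the nodes
`0, 2, 3, …, p`.  All differences of nodes lie in `[1, p]` and exactly one equals `p`, so the
determinant is divisible by `p` and not by `p ^ 2`.
-/

set_option autoImplicit false

open Polynomial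

namespace Fermat.Agent.S13.Wr

/-- The matrix of rising factorials at the nodes `ordN j`. -/
noncomputable def h15_vdmMat (n : ℕ) : Matrix (Fin n) (Fin n) ℤ :=
  Matrix.of fun (i j : Fin n) => (ascPochhammer ℤ (i : ℕ)).eval ((ordN (j : ℕ) : ℕ) : ℤ)

/-- The determinant of rising factorials is the product of the differences of the nodes. -/
theorem h15_vdm_det (n : ℕ) :
    (h15_vdmMat n).det
      = ∏ i : Fin n, ∏ j ∈ Finset.Ioi i, (((ordN (j : ℕ) : ℕ) : ℤ) - ((ordN (i : ℕ) : ℕ) : ℤ)) := by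
  have h := Matrix.det_eval_matrixOfPolynomials_eq_det_vandermonde
    (fun i : Fin n => ((ordN (i : ℕ) : ℕ) : ℤ)) (fun i => ascPochhammer ℤ (i : ℕ))
    (fun i => ascPochhammer_natDegree ℤ (i : ℕ)) (fun i => monic_ascPochhammer ℤ (i : ℕ))
  rw [Matrix.det_vandermonde] at h
  rw [h, ← Matrix.det_transpose]
  rfl

lemma h15_ordN_lt {i j : ℕ} (h : i < j) : ordN i < ordN j := by
  unfold ordN
  split_ifs <;> omega

lemma h15_ordN_le {p j : ℕ} (h : j < p) : ordN j ≤ p := by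
  unfold ordN
  split_ifs <;> omega

lemma h15_ordN_sub_eq {p i j : ℕ} (hij : i < j) (hj : j < p) (h : ordN j - ordN i = p) :
    i = 0 ∧ j = p - 1 := by
  unfold ordN at h
  split_ifs at h <;> omega

/-- **Leaf B.** -/
theorem B_vdm (p : ℕ) (hp : p.Prime) (hp2 : 2 < p) :
    (p : ℤ) ∣ (Matrix.of fun (i j : Fin p) =>
        (ascPochhammer ℤ (i : ℕ)).eval ((ordN (j : ℕ) : ℕ) : ℤ)).det ∧
    ¬ ((p : ℤ) ^ 2 ∣ (Matrix.of fun (i j : Fin p) =>
        (ascPochhammer ℤ (i : ℕ)).eval ((ordN (j : ℕ) : ℕ) : ℤ)).det) := by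
  have hdet := h15_vdm_det p
  unfold h15_vdmMat at hdet
  rw [hdet]
  have hpZ : Prime (p : ℤ) := Nat.prime_iff_prime_int.mp hp
  -- the product over pairs
  rw [Finset.prod_sigma' (Finset.univ : Finset (Fin p)) (fun i => Finset.Ioi i)
    (fun i j => (((ordN (j : ℕ) : ℕ) : ℤ) - ((ordN (i : ℕ) : ℕ) : ℤ)))]
  set S : Finset (Σ _ : Fin p, Fin p) :=
    (Finset.univ : Finset (Fin p)).sigma (fun i => Finset.Ioi i) with hS
  let x₀ : Σ _ : Fin p, Fin p := ⟨⟨0, by omega⟩, ⟨p - 1, by omega⟩⟩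
  have hx₀ : x₀ ∈ S := by
    rw [hS, Finset.mem_sigma]
    refine ⟨Finset.mem_univ _, ?_⟩
    rw [Finset.mem_Ioi, Fin.lt_def]
    change 0 < p - 1
    omega
  have hf₀ : (((ordN ((x₀.2 : Fin p) : ℕ) : ℕ) : ℤ) - ((ordN ((x₀.1 : Fin p) : ℕ) : ℕ) : ℤ))
      = (p : ℤ) := by
    change (((ordN (p - 1) : ℕ) : ℤ) - ((ordN 0 : ℕ) : ℤ)) = (p : ℤ)
    unfold ordN
    rw [if_neg (by omega), if_pos rfl]
    push_cast
    rw [Nat.cast_sub (by omega)]
    push_cast
    ring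
  rw [← Finset.mul_prod_erase S _ hx₀, hf₀]
  have hrest : ¬ (p : ℤ) ∣ ∏ x ∈ S.erase x₀,
      (((ordN ((x.2 : Fin p) : ℕ) : ℕ) : ℤ) - ((ordN ((x.1 : Fin p) : ℕ) : ℕ) : ℤ)) := by
    rw [Prime.dvd_finsetProd_iff hpZ]
    rintro ⟨x, hx, hdvd⟩
    rw [Finset.mem_erase] at hx
    obtain ⟨hne, hxS⟩ := hx
    rw [hS, Finset.mem_sigma, Finset.mem_Ioi, Fin.lt_def] at hxS
    have hij : (x.1 : ℕ) < (x.2 : ℕ) := hxS.2
    have hj : (x.2 : ℕ) < p := x.2.isLt
    have h1 := h15_ordN_lt hij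
    have h2 := h15_ordN_le hj
    have e : (((ordN ((x.2 : Fin p) : ℕ) : ℕ) : ℤ) - ((ordN ((x.1 : Fin p) : ℕ) : ℕ) : ℤ))
        = ((ordN (x.2 : ℕ) - ordN (x.1 : ℕ) : ℕ) : ℤ) := by
      rw [Nat.cast_sub h1.le]
    rw [e, Int.natCast_dvd_natCast] at hdvd
    have h3 : 0 < ordN (x.2 : ℕ) - ordN (x.1 : ℕ) := by omega
    have h4 : p ≤ ordN (x.2 : ℕ) - ordN (x.1 : ℕ) := Nat.le_of_dvd h3 hdvd
    have h5 : ordN (x.2 : ℕ) - ordN (x.1 : ℕ) = p := by omega
    obtain ⟨hi0, hjp⟩ := h15_ordN_sub_eq hij hj h5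
    apply hne
    rcases x with ⟨⟨i, hi⟩, ⟨j, hj'⟩⟩
    simp only at hi0 hjp
    subst hi0
    subst hjp
    rfl
  refine ⟨dvd_mul_right _ _, ?_⟩
  intro h
  rw [pow_two] at h
  exact hrest ((mul_dvd_mul_iff_left hpZ.ne_zero).mp h)

/-- Leaf B in terms of `h15_vdmMat`. -/
theorem h15_vdm (p : ℕ) (hp : p.Prime) (hp2 : 2 < p) :
    (p : ℤ) ∣ (h15_vdmMat p).det ∧ ¬ ((p : ℤ) ^ 2 ∣ (h15_vdmMat p).det) :=
  B_vdm p hp hp2

/-- The same determinant over an arbitrary commutative ring is the image of the integral one. -/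
theorem h15_vdm_det_cast {K : Type*} [CommRing K] (n : ℕ) :
    (Matrix.of fun (i j : Fin n) => (ascPochhammer K (i : ℕ)).eval ((ordN (j : ℕ) : ℕ) : K)).det
      = (((h15_vdmMat n).det : ℤ) : K) := by
  have h := (RingHom.map_det (Int.castRingHom K) (h15_vdmMat n)).symm
  rw [eq_intCast] at h
  rw [← h]
  congr 1
  ext i j
  simp only [RingHom.mapMatrix_apply, Matrix.map_apply, Matrix.of_apply, h15_vdmMat,
    eq_intCast]
  rw [← ascPochhammer_map (Int.castRingHom K), Polynomial.eval_map]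
  have e := Polynomial.hom_eval₂ (ascPochhammer ℤ (i : ℕ)) (RingHom.id ℤ) (Int.castRingHom K)
    (((ordN (j : ℕ) : ℕ) : ℤ))
  rw [RingHom.comp_id, eq_intCast, eq_intCast, Int.cast_natCast] at e
  rw [← e]
  rfl

end Fermat.Agent.S13.Wr
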