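import Mathlib

/-!
# S13, package W (Wronskian): core definitions (helper17)
-/

set_option autoImplicit false

open Polynomial WeierstrassCurve WeierstrassCurve.Affine
open scoped Polynomial.Bivariate

namespace Fermat.Agent.S13.W

noncomputable section

variable {R : Type*} [CommRing R] (W : Affine R)

/-- `f = X³ + a₂ X² + a₄ X + a₆`. -/
def cubic : R[X] := X ^ 3 + C W.a₂ * X ^ 2 + C W.a₄ * X + C W.a₆

/-- `u = a₁ X + a₃`. -/
def lin : R[X] := C W.a₁ * X + C W.a₃

/-- The `1`-coordinate of `g = A + B Y`. -/
def coordA (g : W.CoordinateRing) : R[X] := (CoordinateRing.basis W).repr g 0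

/-- The `Y`-coordinate of `g = A + B Y`. -/
def coordB (g : W.CoordinateRing) : R[X] := (CoordinateRing.basis W).repr g 1

lemma coord_spec (g : W.CoordinateRing) :
    coordA W g • (1 : W.CoordinateRing) + coordB W g • CoordinateRing.mk W Y = g := by
  have h := (CoordinateRing.basis W).sum_repr g
  rw [Fin.sum_univ_succ, Fin.sum_univ_one, CoordinateRing.basis_zero, Fin.succ_zero_eq_one,
    CoordinateRing.basis_one] at h
  exact h

lemma coordA_smul_add (p q : R[X]) :
    coordA W (p • (1 : W.CoordinateRing) + q • CoordinateRing.mk W Y) = p := by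
  have h := coord_spec W (p • (1 : W.CoordinateRing) + q • CoordinateRing.mk W Y)
  have h2 : (coordA W (p • (1 : W.CoordinateRing) + q • CoordinateRing.mk W Y) - p) •
      (1 : W.CoordinateRing) +
      (coordB W (p • (1 : W.CoordinateRing) + q • CoordinateRing.mk W Y) - q) •
        CoordinateRing.mk W Y = 0 := by
    rw [sub_smul, sub_smul]
    linear_combination h
  exact sub_eq_zero.mp (CoordinateRing.smul_basis_eq_zero h2).1

lemma coordB_smul_add (p q : R[X]) :
    coordB W (p • (1 : W.CoordinateRing) + q • CoordinateRing.mk W Y) = q := by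
  have h := coord_spec W (p • (1 : W.CoordinateRing) + q • CoordinateRing.mk W Y)
  have h2 : (coordA W (p • (1 : W.CoordinateRing) + q • CoordinateRing.mk W Y) - p) •
      (1 : W.CoordinateRing) +
      (coordB W (p • (1 : W.CoordinateRing) + q • CoordinateRing.mk W Y) - q) •
        CoordinateRing.mk W Y = 0 := by
    rw [sub_smul, sub_smul]
    linear_combination h
  exact sub_eq_zero.mp (CoordinateRing.smul_basis_eq_zero h2).2

lemma ext_coord {g h : W.CoordinateRing} (hA : coordA W g = coordA W h)
    (hB : coordB W g = coordB W h) : g = h := by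
  rw [← coord_spec W g, ← coord_spec W h, hA, hB]

lemma Y_mul_Y : CoordinateRing.mk W Y * CoordinateRing.mk W Y =
    (cubic W) • (1 : W.CoordinateRing) + (- lin W) • CoordinateRing.mk W Y := by
  have := CoordinateRing.smul_basis_mul_Y (W' := W) 0 1
  simp only [zero_smul, one_smul, zero_add, one_mul, zero_sub] at this
  rw [this, cubic, lin]

/-- Multiplication in coordinates: `(p + qY)(r + sY) = (pr + qs f) + (ps + qr - qs u) Y`. -/
lemma mul_coords (p q r s : R[X]) :
    (p • (1 : W.CoordinateRing) + q • CoordinateRing.mk W Y) *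
      (r • (1 : W.CoordinateRing) + s • CoordinateRing.mk W Y) =
      (p * r + q * s * cubic W) • (1 : W.CoordinateRing) +
        (p * s + q * r - q * s * lin W) • CoordinateRing.mk W Y := by
  have hY := Y_mul_Y W
  simp only [CoordinateRing.smul, neg_smul] at hY ⊢
  simp only [map_add, map_mul, map_sub]
  linear_combination (CoordinateRing.mk W (C q) * CoordinateRing.mk W (C s)) * hY

lemma coordA_add (g h : W.CoordinateRing) : coordA W (g + h) = coordA W g + coordA W h := by
  simp [coordA]

lemma coordB_add (g h : W.CoordinateRing) : coordB W (g + h) = coordB W g + coordB W h := by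
  simp [coordB]

lemma coordA_smul (c : R) (g : W.CoordinateRing) : coordA W (c • g) = C c * coordA W g := by
  have : c • g = (C c : R[X]) • g := by rw [Polynomial.C_eq_algebraMap, algebraMap_smul]
  rw [coordA, this, map_smul]
  simp [coordA]

lemma coordB_smul (c : R) (g : W.CoordinateRing) : coordB W (c • g) = C c * coordB W g := by
  have : c • g = (C c : R[X]) • g := by rw [Polynomial.C_eq_algebraMap, algebraMap_smul]
  rw [coordB, this, map_smul]
  simp [coordB]

/-- The `1`-coordinate of `D (A + B Y)`. -/
def dA (A B : R[X]) : R[X] :=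
  derivative A * lin W + 2 * derivative B * cubic W + B * derivative (cubic W)

/-- The `Y`-coordinate of `D (A + B Y)`. -/
def dB (A B : R[X]) : R[X] :=
  2 * derivative A - derivative B * lin W - B * derivative (lin W)

lemma dA_add (A B A' B' : R[X]) : dA W (A + A') (B + B') = dA W A B + dA W A' B' := by
  simp only [dA, derivative_add]; ring

lemma dB_add (A B A' B' : R[X]) : dB W (A + A') (B + B') = dB W A B + dB W A' B' := by
  simp only [dB, derivative_add]; ring

lemma dA_C_mul (c : R) (A B : R[X]) : dA W (C c * A) (C c * B) = C c * dA W A B := by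
  simp only [dA, derivative_mul, derivative_C, zero_mul, zero_add]; ring

lemma dB_C_mul (c : R) (A B : R[X]) : dB W (C c * A) (C c * B) = C c * dB W A B := by
  simp only [dB, derivative_mul, derivative_C, zero_mul, zero_add]; ring

lemma C_smul_eq (c : R) (x : W.CoordinateRing) : (C c : R[X]) • x = c • x := by
  rw [Polynomial.C_eq_algebraMap, algebraMap_smul]

/-- The underlying linear map of the invariant derivation. -/
def DLin : W.CoordinateRing →ₗ[R] W.CoordinateRing where
  toFun g := dA W (coordA W g) (coordB W g) • (1 : W.CoordinateRing) +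
    dB W (coordA W g) (coordB W g) • CoordinateRing.mk W Y
  map_add' g h := by
    rw [coordA_add, coordB_add, dA_add, dB_add, add_smul, add_smul]
    abel
  map_smul' c g := by
    rw [coordA_smul, coordB_smul, dA_C_mul, dB_C_mul, mul_smul, mul_smul, C_smul_eq, C_smul_eq,
      RingHom.id_apply, smul_add]

lemma DLin_apply (p q : R[X]) :
    DLin W (p • (1 : W.CoordinateRing) + q • CoordinateRing.mk W Y) =
      dA W p q • (1 : W.CoordinateRing) + dB W p q • CoordinateRing.mk W Y := by
  have h : ∀ g : W.CoordinateRing, DLin W g =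
      dA W (coordA W g) (coordB W g) • (1 : W.CoordinateRing) +
        dB W (coordA W g) (coordB W g) • CoordinateRing.mk W Y := fun _ => rfl
  rw [h, coordA_smul_add, coordB_smul_add]

lemma dA_mul (p q r s : R[X]) :
    dA W (p * r + q * s * cubic W) (p * s + q * r - q * s * lin W) =
      (p * dA W r s + q * dB W r s * cubic W) + (r * dA W p q + s * dB W p q * cubic W) := by
  simp only [dA, dB, derivative_mul, derivative_add, derivative_sub]; ring

lemma dB_mul (p q r s : R[X]) :
    dB W (p * r + q * s * cubic W) (p * s + q * r - q * s * lin W) =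
      (p * dB W r s + q * dA W r s - q * dB W r s * lin W) +
        (r * dB W p q + s * dA W p q - s * dB W p q * lin W) := by
  simp only [dA, dB, derivative_mul, derivative_add, derivative_sub]; ring

lemma DLin_mul (g h : W.CoordinateRing) :
    DLin W (g * h) = g * DLin W h + h * DLin W g := by
  obtain ⟨p, q, rfl⟩ := CoordinateRing.exists_smul_basis_eq g
  obtain ⟨r, s, rfl⟩ := CoordinateRing.exists_smul_basis_eq h
  have e1 := mul_coords W p q r s
  have e2 := mul_coords W p q (dA W r s) (dB W r s)
  have e3 := mul_coords W r s (dA W p q) (dB W p q)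
  have e4 := DLin_apply W (p * r + q * s * cubic W) (p * s + q * r - q * s * lin W)
  rw [e1, e4, DLin_apply W r s, DLin_apply W p q, e2, e3, dA_mul, dB_mul]
  simp only [add_smul]
  abel

/-- **The invariant derivation** `D = W_Y ∂_X - W_X ∂_Y` of the coordinate ring:
`D (A + B Y) = dA A B + dB A B * Y`. -/
def D : Derivation R W.CoordinateRing W.CoordinateRing :=
  Derivation.mk' (DLin W) (fun g h => DLin_mul W g h)

lemma D_apply (p q : R[X]) :
    D W (p • (1 : W.CoordinateRing) + q • CoordinateRing.mk W Y) =
      dA W p q • (1 : W.CoordinateRing) + dB W p q • CoordinateRing.mk W Y :=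
  DLin_apply W p q

lemma coordA_D (g : W.CoordinateRing) : coordA W (D W g) = dA W (coordA W g) (coordB W g) := by
  conv_lhs => rw [← coord_spec W g, D_apply, coordA_smul_add]

lemma coordB_D (g : W.CoordinateRing) : coordB W (D W g) = dB W (coordA W g) (coordB W g) := by
  conv_lhs => rw [← coord_spec W g, D_apply, coordB_smul_add]

/-- `D X = W_Y`. -/
lemma D_X : D W (CoordinateRing.mk W (C X)) = CoordinateRing.mk W W.polynomialY := by
  have h : CoordinateRing.mk W (C X) = (X : R[X]) • (1 : W.CoordinateRing) +
      (0 : R[X]) • CoordinateRing.mk W Y := by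
    simp [CoordinateRing.smul]
  rw [h, D_apply]
  simp only [dA, dB, derivative_X, derivative_zero, one_mul, mul_zero, zero_mul, add_zero,
    sub_zero, mul_one, lin, polynomialY, CoordinateRing.smul, map_add, map_mul]
  simp only [map_ofNat]
  ring

/-- `D Y = - W_X`. -/
lemma D_Y : D W (CoordinateRing.mk W Y) = - CoordinateRing.mk W W.polynomialX := by
  have h : CoordinateRing.mk W Y = (0 : R[X]) • (1 : W.CoordinateRing) +
      (1 : R[X]) • CoordinateRing.mk W Y := by
    simp
  conv_lhs => rw [h, D_apply]
  simp only [dA, dB, derivative_zero, derivative_one, zero_mul, mul_zero, zero_add, one_mul,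
    sub_zero, lin, cubic, polynomialX, CoordinateRing.smul, map_add, map_mul, map_sub]
  simp [map_ofNat]
  ring

/-! ### Evaluation at a point -/

/-- Evaluation of an element of the coordinate ring at a point `(x, y)` of the curve. -/
def evalAt {x y : R} (h : W.Equation x y) : W.CoordinateRing →+* R :=
  AdjoinRoot.lift (evalRingHom x) y (by
    have := h
    rw [Affine.Equation, evalEval] at this
    rwa [eval₂_evalRingHom])

lemma evalAt_mk {x y : R} (h : W.Equation x y) (p : R[X][Y]) :
    evalAt W h (CoordinateRing.mk W p) = p.evalEval x y := by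
  rw [evalAt, AdjoinRoot.lift_mk, eval₂_evalRingHom]

lemma evalAt_smul_basis {x y : R} (h : W.Equation x y) (p q : R[X]) :
    evalAt W h (p • (1 : W.CoordinateRing) + q • CoordinateRing.mk W Y) =
      p.eval x + q.eval x * y := by
  simp only [CoordinateRing.smul, map_add, map_mul, mul_one, evalAt_mk]
  simp [evalEval]

/-! ### Monomials and the Wronskian -/

/-- The monomial of weighted degree `n` (`deg X = 2`, `deg Y = 3`): `X^(n/2)` for even `n`,
`X^((n-3)/2) Y` for odd `n` (junk value `Y` for `n = 1`, never used). -/
def mono (n : ℕ) : W.CoordinateRing :=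
  if Even n then (X ^ (n / 2) : R[X]) • (1 : W.CoordinateRing)
  else (X ^ ((n - 3) / 2) : R[X]) • CoordinateRing.mk W Y

/-- The `j`-th element of `{0, 2, 3, 4, …}` (the weighted degrees that occur). -/
def idx (j : ℕ) : ℕ := if j = 0 then 0 else j + 1

/-- The Wronskian matrix `(D^i f_j)`, `f_j = mono (idx j)`, `i, j < n`. -/
def wronskMatrix (n : ℕ) : Matrix (Fin n) (Fin n) W.CoordinateRing :=
  fun i j => (D W)^[i] (mono W (idx j))

/-- The Wronskian. -/
def Wr (n : ℕ) : W.CoordinateRing := (wronskMatrix W n).det

/-- The `x`-polynomial of the Wronskian (for odd `n` and `a₁ = a₃ = 0`: `Wr = Psi(X)`). -/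
def Psi (n : ℕ) : R[X] := coordA W (Wr W n)

/-- The weighted degree of `g = A + B Y`: `max (2 deg A) (2 deg B + 3)`
(`= degree (Algebra.norm R[X] g)` over a domain, Mathlib `degree_norm_smul_basis`). -/
def wdeg (g : W.CoordinateRing) : WithBot ℕ :=
  max (2 • (coordA W g).degree) (2 • (coordB W g).degree + 3)

/-- The coefficient of `mono n` in `g`. -/
def lcoef (n : ℕ) (g : W.CoordinateRing) : R :=
  if Even n then (coordA W g).coeff (n / 2)
  else if n = 1 then 0 else (coordB W g).coeff ((n - 3) / 2)

end

end Fermat.Agent.S13.W
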