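import Fermat.Agent.S13.W.H1_Defs

/-!
# S13, package W, leaf W1 (helper17): order of vanishing via the invariant derivation

Abstract layer: `R` a `K`-algebra, `ev : R →ₐ[K] K`, `D : Derivation K R R`, `m = ker ev`,
`t ∈ m` with `ev (D t) ≠ 0` and `m ≤ span {t} ⊔ m ^ 2`, `K` of characteristic `0`:
`g ∈ m ^ k ↔ ∀ i < k, ev (D^[i] g) = 0`.
-/

set_option autoImplicit false

open Polynomial
open scoped Polynomial.Bivariate

namespace Fermat.Agent.S13.W.Order

section Abstract

variable {K : Type*} [Field K] {R : Type*} [CommRing R] [Algebra K R]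
  (ev : R →ₐ[K] K) (D : Derivation K R R)

/-- the `D`-jet of order `k` of `g` vanishes at the point `ev`. -/
def Jet (k : ℕ) (g : R) : Prop := ∀ i, i < k → ev (D^[i] g) = 0

lemma jet_zero (g : R) : Jet ev D 0 g := fun _ hi => absurd hi (Nat.not_lt_zero _)

lemma jet_succ_iff (k : ℕ) (g : R) : Jet ev D (k + 1) g ↔ ev g = 0 ∧ Jet ev D k (D g) := by
  constructor
  · intro h
    refine ⟨by simpa using h 0 (Nat.succ_pos k), fun i hi => ?_⟩
    have := h (i + 1) (by omega)
    rwa [Function.iterate_succ_apply] at this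
  · rintro ⟨h0, h1⟩ i hi
    rcases Nat.eq_zero_or_pos i with rfl | hpos
    · simpa using h0
    · obtain ⟨j, rfl⟩ : ∃ j, i = j + 1 := ⟨i - 1, by omega⟩
      rw [Function.iterate_succ_apply]
      exact h1 j (by omega)

lemma jet_of_le {k l : ℕ} (hkl : k ≤ l) {g : R} (h : Jet ev D l g) : Jet ev D k g :=
  fun i hi => h i (lt_of_lt_of_le hi hkl)

lemma iterate_add (i : ℕ) (g h : R) : D^[i] (g + h) = D^[i] g + D^[i] h := by
  induction i generalizing g h with
  | zero => rfl
  | succ k ih => rw [Function.iterate_succ_apply, Function.iterate_succ_apply,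
      Function.iterate_succ_apply, map_add, ih]

lemma iterate_zero' (i : ℕ) : D^[i] (0 : R) = 0 := by
  induction i with
  | zero => rfl
  | succ k ih => rw [Function.iterate_succ_apply, map_zero, ih]

lemma jet_add {k : ℕ} {g h : R} (hg : Jet ev D k g) (hh : Jet ev D k h) :
    Jet ev D k (g + h) := fun i hi => by
  rw [iterate_add, map_add, hg i hi, hh i hi, add_zero]

lemma jet_zero_elt (k : ℕ) : Jet ev D k (0 : R) := fun i _ => by
  rw [iterate_zero', map_zero]

/-- the jet conditions define ideals. -/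
lemma jet_mul_left : ∀ (k : ℕ) (r b : R), Jet ev D k b → Jet ev D k (r * b)
  | 0, _, _, _ => jet_zero ev D _
  | k + 1, r, b, hb => by
    rw [jet_succ_iff] at hb ⊢
    refine ⟨by rw [map_mul, hb.1, mul_zero], ?_⟩
    have hb' : Jet ev D k b := jet_of_le ev D (Nat.le_succ k) ((jet_succ_iff ev D k b).mpr hb)
    rw [Derivation.leibniz, smul_eq_mul, smul_eq_mul, mul_comm b (D r)]
    exact jet_add ev D (jet_mul_left k r (D b) hb.2) (jet_mul_left k (D r) b hb')

/-- `a ∈ m`, `b ∈ J_k` implies `a b ∈ J_(k+1)`. -/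
lemma jet_mul : ∀ (k : ℕ) (a b : R), ev a = 0 → Jet ev D k b → Jet ev D (k + 1) (a * b)
  | 0, a, b, ha, _ => by
    rw [jet_succ_iff]
    exact ⟨by rw [map_mul, ha, zero_mul], jet_zero ev D _⟩
  | k + 1, a, b, ha, hb => by
    rw [jet_succ_iff]
    refine ⟨by rw [map_mul, ha, zero_mul], ?_⟩
    rw [Derivation.leibniz, smul_eq_mul, smul_eq_mul, mul_comm b (D a)]
    exact jet_add ev D (jet_mul k a (D b) ha ((jet_succ_iff ev D k b).mp hb).2)
      (jet_mul_left ev D (k + 1) (D a) b hb)

/-- the jet ideal `J_k`. -/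
def jetIdeal (k : ℕ) : Ideal R where
  carrier := {g | Jet ev D k g}
  add_mem' := fun hg hh => jet_add ev D hg hh
  zero_mem' := jet_zero_elt ev D k
  smul_mem' := fun r _ hb => jet_mul_left ev D k r _ hb

lemma mem_jetIdeal (k : ℕ) (g : R) : g ∈ jetIdeal ev D k ↔ Jet ev D k g := Iff.rfl

/-- `m ^ k ⊆ J_k`. -/
lemma pow_ker_le_jetIdeal (k : ℕ) : (RingHom.ker ev) ^ k ≤ jetIdeal ev D k := by
  induction k with
  | zero => intro g _; exact jet_zero ev D g
  | succ k ih =>
    rw [pow_succ, Ideal.mul_le]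
    intro b hb a ha
    rw [mul_comm]
    exact jet_mul ev D k a b ((RingHom.mem_ker).mp ha) (ih hb)

/-- for `a ∈ J_j`: `D^j (a b) ≡ (D^j a) b` at the point. -/
lemma ev_iterate_mul : ∀ (j : ℕ) (a b : R), Jet ev D j a →
    ev (D^[j] (a * b)) = ev (D^[j] a) * ev b
  | 0, a, b, _ => by simp
  | j + 1, a, b, ha => by
    rw [Function.iterate_succ_apply, Function.iterate_succ_apply, Derivation.leibniz, smul_eq_mul,
      smul_eq_mul, iterate_add, map_add]
    have h1 : ev (D^[j] (a * D b)) = 0 := by
      have := jet_mul_left ev D (j + 1) (D b) a ha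
      rw [mul_comm] at this
      exact this j (Nat.lt_succ_self j)
    rw [h1, zero_add, mul_comm b (D a)]
    exact ev_iterate_mul j (D a) b ((jet_succ_iff ev D j a).mp ha).2

lemma iterate_smul (i : ℕ) (c : K) (g : R) : D^[i] (c • g) = c • D^[i] g := by
  induction i generalizing g with
  | zero => rfl
  | succ k ih => rw [Function.iterate_succ_apply, Function.iterate_succ_apply,
      Derivation.map_smul, ih]

/-- `ev (D^k (t^k)) = k! (ev (D t))^k` for `t ∈ m`. -/
lemma ev_iterate_pow (t : R) (ht : ev t = 0) (k : ℕ) :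
    ev (D^[k] (t ^ k)) = (k.factorial : K) * ev (D t) ^ k := by
  induction k with
  | zero => simp
  | succ k ih =>
    have hmem : Jet ev D k (t ^ k) := by
      apply pow_ker_le_jetIdeal ev D k
      exact Ideal.pow_mem_pow ((RingHom.mem_ker).mpr ht) k
    rw [Function.iterate_succ_apply, Derivation.leibniz_pow, Nat.add_sub_cancel,
      ← Nat.cast_smul_eq_nsmul K, smul_eq_mul, iterate_smul, map_smul,
      ev_iterate_mul ev D k _ _ hmem, ih, smul_eq_mul, Nat.factorial_succ]
    push_cast
    ring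

variable [CharZero K]

/-- `m ^ k ≤ (t ^ k) + m ^ (k + 1)` when `m ≤ (t) + m ^ 2`. -/
lemma pow_le_span_sup (m : Ideal R) (t : R) (ht : t ∈ m) (hm : m ≤ Ideal.span {t} ⊔ m ^ 2)
    (k : ℕ) : m ^ k ≤ Ideal.span {t ^ k} ⊔ m ^ (k + 1) := by
  induction k with
  | zero =>
    intro g _
    rw [pow_zero, Ideal.span_singleton_one]
    exact Submodule.mem_sup_left Submodule.mem_top
  | succ k ih =>
    calc m ^ (k + 1) = m ^ k * m := pow_succ m k
      _ ≤ (Ideal.span {t ^ k} ⊔ m ^ (k + 1)) * (Ideal.span {t} ⊔ m ^ 2) := Ideal.mul_mono ih hm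
      _ ≤ Ideal.span {t ^ (k + 1)} ⊔ m ^ (k + 1 + 1) := by
        rw [Ideal.sup_mul, Ideal.mul_sup, Ideal.mul_sup, Ideal.span_singleton_mul_span_singleton,
          ← pow_succ]
        have hspan : Ideal.span {t} ≤ m := (Ideal.span_singleton_le_iff_mem _).mpr ht
        have hspank : Ideal.span {t ^ k} ≤ m ^ k :=
          (Ideal.span_singleton_le_iff_mem _).mpr (Ideal.pow_mem_pow ht k)
        have e1 : Ideal.span {t ^ k} * m ^ 2 ≤ m ^ (k + 1 + 1) := by
          calc Ideal.span {t ^ k} * m ^ 2 ≤ m ^ k * m ^ 2 := Ideal.mul_mono hspank le_rfl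
            _ = m ^ (k + 1 + 1) := by rw [← pow_add]
        have e2 : m ^ (k + 1) * Ideal.span {t} ≤ m ^ (k + 1 + 1) := by
          calc m ^ (k + 1) * Ideal.span {t} ≤ m ^ (k + 1) * m := Ideal.mul_mono le_rfl hspan
            _ = m ^ (k + 1 + 1) := (pow_succ m (k + 1)).symm
        have e3 : m ^ (k + 1) * m ^ 2 ≤ m ^ (k + 1 + 1) := by
          calc m ^ (k + 1) * m ^ 2 = m ^ (k + 1 + 2) := by rw [← pow_add]
            _ ≤ m ^ (k + 1 + 1) := Ideal.pow_le_pow_right (by omega)
        refine sup_le (sup_le le_sup_left (le_trans e1 le_sup_right))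
          (sup_le (le_trans e2 le_sup_right) (le_trans e3 le_sup_right))

/-- **W1, abstract form.** -/
theorem mem_pow_ker_iff (t : R) (ht : ev t = 0) (hDt : ev (D t) ≠ 0)
    (hm : RingHom.ker ev ≤ Ideal.span {t} ⊔ (RingHom.ker ev) ^ 2) (k : ℕ) (g : R) :
    g ∈ (RingHom.ker ev) ^ k ↔ ∀ i, i < k → ev (D^[i] g) = 0 := by
  refine ⟨fun h => pow_ker_le_jetIdeal ev D k h, ?_⟩
  induction k generalizing g with
  | zero => intro _; simp
  | succ k ih =>
    intro hg
    have hgk : g ∈ (RingHom.ker ev) ^ k := ih g (jet_of_le ev D (Nat.le_succ k) hg)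
    have := pow_le_span_sup (RingHom.ker ev) t ((RingHom.mem_ker).mpr ht) hm k hgk
    obtain ⟨a, ha, h, hh, rfl⟩ := Submodule.mem_sup.mp this
    obtain ⟨r, rfl⟩ := Ideal.mem_span_singleton'.mp ha
    -- `r = c + r'` with `r' ∈ m`
    have hr' : r - algebraMap K R (ev r) ∈ RingHom.ker ev := by
      rw [RingHom.mem_ker, map_sub, AlgHom.commutes]
      simp
    have htk : t ^ k ∈ (RingHom.ker ev) ^ k := Ideal.pow_mem_pow ((RingHom.mem_ker).mpr ht) k
    have h1 : (r - algebraMap K R (ev r)) * t ^ k ∈ (RingHom.ker ev) ^ (k + 1) := by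
      rw [pow_succ']
      exact Ideal.mul_mem_mul hr' htk
    have hsplit : r * t ^ k + h = ev r • t ^ k + ((r - algebraMap K R (ev r)) * t ^ k + h) := by
      rw [Algebra.smul_def]; ring
    have hrest : (r - algebraMap K R (ev r)) * t ^ k + h ∈ (RingHom.ker ev) ^ (k + 1) :=
      Ideal.add_mem _ h1 hh
    have hjet := hg k (Nat.lt_succ_self k)
    rw [hsplit, iterate_add, map_add, iterate_smul, map_smul,
      pow_ker_le_jetIdeal ev D (k + 1) hrest k (Nat.lt_succ_self k), add_zero,
      ev_iterate_pow ev D t ht, smul_eq_mul] at hjet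
    have hc : ev r = 0 := by
      rcases mul_eq_zero.mp hjet with h0 | h0
      · exact h0
      · exfalso
        rcases mul_eq_zero.mp h0 with h2 | h2
        · exact (Nat.cast_ne_zero.mpr (Nat.factorial_ne_zero k)) h2
        · exact hDt (pow_eq_zero_iff (fun hk0 => by
            subst hk0; simp at h2) |>.mp h2)
    have hz : ev r • t ^ k = 0 := by rw [hc, zero_smul]
    rw [hsplit, hz, zero_add]
    exact hrest

end Abstract

section Curve

open WeierstrassCurve.Affine Fermat.Agent.S13.Wr

variable {K : Type*} [Field K] (W : WeierstrassCurve.Affine K)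

/-- the kernel of evaluation at `P = (x, y)` is the maximal ideal `⟨X - x, Y - y⟩`. -/
theorem ker_evalAt {x y : K} (h : W.Equation x y) :
    RingHom.ker (evalAt W h) = CoordinateRing.XYIdeal W x (C y) := by
  have hmax : (CoordinateRing.XYIdeal W x (C y)).IsMaximal := by
    have heq : (W.polynomial.eval (C y)).eval x = 0 := h
    apply Ideal.Quotient.maximal_of_isField
    exact MulEquiv.isField (Field.toIsField K)
      (CoordinateRing.quotientXYIdealEquiv (W' := W) heq).toMulEquiv
  have hle : CoordinateRing.XYIdeal W x (C y) ≤ RingHom.ker (evalAt W h) := by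
    rw [CoordinateRing.XYIdeal, Ideal.span_le]
    rintro g (rfl | rfl)
    · show evalAt W h (CoordinateRing.XClass W x) = 0
      have : CoordinateRing.XClass W x = pq W (X - C x) 0 := by
        unfold pq CoordinateRing.XClass
        simp [CoordinateRing.smul]
      rw [this, evalAt_pq]; simp
    · show evalAt W h (CoordinateRing.YClass W (C y)) = 0
      have : CoordinateRing.YClass W (C y) = pq W (- C y) 1 := by
        unfold pq CoordinateRing.YClass
        simp [CoordinateRing.smul]
        ring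
      rw [this, evalAt_pq]; simp
  have hne : RingHom.ker (evalAt W h) ≠ ⊤ := by
    rw [Ne, Ideal.eq_top_iff_one, RingHom.mem_ker, map_one]
    exact one_ne_zero
  exact (hmax.eq_of_le hne hle).symm

/-- the Taylor expansion of the Weierstrass polynomial at `(x, y)`. -/
lemma taylor_poly (x y : K) :
    W.polynomial = (Y - C (C y)) ^ 2 + C (C W.a₁) * C (X - C x) * (Y - C (C y))
      - C (C (3 * x + W.a₂)) * C (X - C x) ^ 2 - C (X - C x) ^ 3
      + C (C (W.a₁ * y - (3 * x ^ 2 + 2 * W.a₂ * x + W.a₄))) * C (X - C x)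
      + C (C (2 * y + W.a₁ * x + W.a₃)) * (Y - C (C y))
      + C (C (y ^ 2 + W.a₁ * x * y + W.a₃ * y - (x ^ 3 + W.a₂ * x ^ 2 + W.a₄ * x + W.a₆))) := by
  rw [WeierstrassCurve.Affine.polynomial]
  simp only [map_add, map_sub, map_mul, map_pow, map_ofNat]
  ring

/-- the linear relation between `ξ = X - x` and `η = Y - y` modulo `m ^ 2`. -/
lemma taylor_rel {x y : K} (h : W.Equation x y) :
    CoordinateRing.mk W (C (C (W.a₁ * y - (3 * x ^ 2 + 2 * W.a₂ * x + W.a₄)))) *
        CoordinateRing.XClass W x +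
      CoordinateRing.mk W (C (C (2 * y + W.a₁ * x + W.a₃))) * CoordinateRing.YClass W (C y) +
      (CoordinateRing.YClass W (C y) ^ 2 +
        CoordinateRing.mk W (C (C W.a₁)) * CoordinateRing.XClass W x *
          CoordinateRing.YClass W (C y) -
        CoordinateRing.mk W (C (C (3 * x + W.a₂))) * CoordinateRing.XClass W x ^ 2 -
        CoordinateRing.XClass W x ^ 3) = 0 := by
  have h0 : CoordinateRing.mk W W.polynomial = 0 := AdjoinRoot.mk_self
  have hP : y ^ 2 + W.a₁ * x * y + W.a₃ * y - (x ^ 3 + W.a₂ * x ^ 2 + W.a₄ * x + W.a₆) = 0 := by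
    have := (W.equation_iff x y).mp h
    linear_combination this
  have h1 := congrArg (CoordinateRing.mk W) (taylor_poly W x y)
  rw [h0, hP] at h1
  simp only [map_add, map_sub, map_mul, map_pow, map_zero, add_zero, map_ofNat] at h1
  unfold CoordinateRing.XClass CoordinateRing.YClass
  simp only [map_add, map_sub, map_mul, map_pow, map_ofNat]
  linear_combination -h1

lemma evalAt_D_XClass {x y : K} (h : W.Equation x y) :
    evalAt W h (D W (CoordinateRing.XClass W x)) = 2 * y + W.a₁ * x + W.a₃ := by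
  have : CoordinateRing.XClass W x = pq W (X - C x) 0 := by
    unfold pq CoordinateRing.XClass
    simp [CoordinateRing.smul]
  rw [this, D_pq, evalAt_pq]
  simp [polyA]
  ring

lemma evalAt_D_YClass {x y : K} (h : W.Equation x y) :
    evalAt W h (D W (CoordinateRing.YClass W (C y))) =
      -(W.a₁ * y - (3 * x ^ 2 + 2 * W.a₂ * x + W.a₄)) := by
  have : CoordinateRing.YClass W (C y) = pq W (- C y) 1 := by
    unfold pq CoordinateRing.YClass
    simp [CoordinateRing.smul]
    ring
  rw [this, D_pq, evalAt_pq]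
  simp [polyA, polyB]
  ring

/-- existence of a uniformiser at a nonsingular point. -/
lemma exists_uniformiser {x y : K} (h : W.Nonsingular x y) :
    ∃ t : W.CoordinateRing, evalAt W h.1 t = 0 ∧ evalAt W h.1 (D W t) ≠ 0 ∧
      RingHom.ker (evalAt W h.1) ≤ Ideal.span {t} ⊔ (RingHom.ker (evalAt W h.1)) ^ 2 := by
  have hker := ker_evalAt W h.1
  set m := CoordinateRing.XYIdeal W x (C y) with hm
  have hξ : CoordinateRing.XClass W x ∈ m := Ideal.subset_span (by simp)
  have hη : CoordinateRing.YClass W (C y) ∈ m := Ideal.subset_span (by simp)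
  have hQ : (CoordinateRing.YClass W (C y) ^ 2 +
        CoordinateRing.mk W (C (C W.a₁)) * CoordinateRing.XClass W x *
          CoordinateRing.YClass W (C y) -
        CoordinateRing.mk W (C (C (3 * x + W.a₂))) * CoordinateRing.XClass W x ^ 2 -
        CoordinateRing.XClass W x ^ 3) ∈ m ^ 2 := by
    refine Ideal.sub_mem _ (Ideal.sub_mem _ (Ideal.add_mem _ (Ideal.pow_mem_pow hη 2) ?_) ?_) ?_
    · rw [mul_assoc, pow_two]
      exact Ideal.mul_mem_left _ _ (Ideal.mul_mem_mul hξ hη)
    · exact Ideal.mul_mem_left _ _ (Ideal.pow_mem_pow hξ 2)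
    · have h3 : CoordinateRing.XClass W x ^ 3 =
          CoordinateRing.XClass W x ^ 2 * CoordinateRing.XClass W x := pow_succ _ 2
      rw [h3]
      exact Ideal.mul_mem_right _ _ (Ideal.pow_mem_pow hξ 2)
  have hrel := taylor_rel W h.1
  have hns := (W.nonsingular_iff' x y).mp h
  rw [hker]
  rcases hns.2 with hX | hY
  · -- `W_X(P) ≠ 0`: `t = η`
    refine ⟨CoordinateRing.YClass W (C y), ?_, ?_, ?_⟩
    · rw [← RingHom.mem_ker, hker]; exact hη
    · rw [evalAt_D_YClass]; exact neg_ne_zero.mpr hX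
    · have hmle : m = Ideal.span {CoordinateRing.XClass W x, CoordinateRing.YClass W (C y)} := rfl
      rw [hmle, Ideal.span_le, ← hmle]
      rintro g (rfl | rfl)
      · -- `ξ = - c_X⁻¹ (c_Y η + Q)`
        have hinv : CoordinateRing.mk W (C (C (W.a₁ * y - (3 * x ^ 2 + 2 * W.a₂ * x + W.a₄)))) *
            CoordinateRing.mk W (C (C (W.a₁ * y - (3 * x ^ 2 + 2 * W.a₂ * x + W.a₄))⁻¹)) = 1 := by
          rw [← map_mul, ← map_mul, ← map_mul, mul_inv_cancel₀ hX]; simp
        have hexp : CoordinateRing.XClass W x =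
            (- CoordinateRing.mk W (C (C (W.a₁ * y - (3 * x ^ 2 + 2 * W.a₂ * x + W.a₄))⁻¹)) *
              CoordinateRing.mk W (C (C (2 * y + W.a₁ * x + W.a₃)))) *
              CoordinateRing.YClass W (C y) +
            (- CoordinateRing.mk W (C (C (W.a₁ * y - (3 * x ^ 2 + 2 * W.a₂ * x + W.a₄))⁻¹))) *
              (CoordinateRing.YClass W (C y) ^ 2 +
              CoordinateRing.mk W (C (C W.a₁)) * CoordinateRing.XClass W x *
                CoordinateRing.YClass W (C y) -
              CoordinateRing.mk W (C (C (3 * x + W.a₂))) * CoordinateRing.XClass W x ^ 2 -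
              CoordinateRing.XClass W x ^ 3) := by
          linear_combination (CoordinateRing.mk W
            (C (C (W.a₁ * y - (3 * x ^ 2 + 2 * W.a₂ * x + W.a₄))⁻¹))) * hrel -
            CoordinateRing.XClass W x * hinv
        have hmem := Submodule.add_mem_sup
          (Ideal.mul_mem_left (Ideal.span {CoordinateRing.YClass W (C y)})
            (- CoordinateRing.mk W (C (C (W.a₁ * y - (3 * x ^ 2 + 2 * W.a₂ * x + W.a₄))⁻¹)) *
              CoordinateRing.mk W (C (C (2 * y + W.a₁ * x + W.a₃)))) (Ideal.subset_span rfl))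
          (Ideal.mul_mem_left (m ^ 2)
            (- CoordinateRing.mk W (C (C (W.a₁ * y - (3 * x ^ 2 + 2 * W.a₂ * x + W.a₄))⁻¹))) hQ)
        rw [← hexp] at hmem
        exact hmem
      · exact Submodule.mem_sup_left (Ideal.subset_span rfl)
  · -- `W_Y(P) ≠ 0`: `t = ξ`
    refine ⟨CoordinateRing.XClass W x, ?_, ?_, ?_⟩
    · rw [← RingHom.mem_ker, hker]; exact hξ
    · rw [evalAt_D_XClass]; exact hY
    · have hmle : m = Ideal.span {CoordinateRing.XClass W x, CoordinateRing.YClass W (C y)} := rfl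
      rw [hmle, Ideal.span_le, ← hmle]
      rintro g (rfl | rfl)
      · exact Submodule.mem_sup_left (Ideal.subset_span rfl)
      · have hinv : CoordinateRing.mk W (C (C (2 * y + W.a₁ * x + W.a₃))) *
            CoordinateRing.mk W (C (C (2 * y + W.a₁ * x + W.a₃)⁻¹)) = 1 := by
          rw [← map_mul, ← map_mul, ← map_mul, mul_inv_cancel₀ hY]; simp
        have hexp : CoordinateRing.YClass W (C y) =
            (- CoordinateRing.mk W (C (C (2 * y + W.a₁ * x + W.a₃)⁻¹)) *
              CoordinateRing.mk W (C (C (W.a₁ * y - (3 * x ^ 2 + 2 * W.a₂ * x + W.a₄))))) *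
              CoordinateRing.XClass W x +
            (- CoordinateRing.mk W (C (C (2 * y + W.a₁ * x + W.a₃)⁻¹))) *
              (CoordinateRing.YClass W (C y) ^ 2 +
              CoordinateRing.mk W (C (C W.a₁)) * CoordinateRing.XClass W x *
                CoordinateRing.YClass W (C y) -
              CoordinateRing.mk W (C (C (3 * x + W.a₂))) * CoordinateRing.XClass W x ^ 2 -
              CoordinateRing.XClass W x ^ 3) := by
          linear_combination (CoordinateRing.mk W
            (C (C (2 * y + W.a₁ * x + W.a₃)⁻¹))) * hrel -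
            CoordinateRing.YClass W (C y) * hinv
        have hmem := Submodule.add_mem_sup
          (Ideal.mul_mem_left (Ideal.span {CoordinateRing.XClass W x})
            (- CoordinateRing.mk W (C (C (2 * y + W.a₁ * x + W.a₃)⁻¹)) *
              CoordinateRing.mk W (C (C (W.a₁ * y - (3 * x ^ 2 + 2 * W.a₂ * x + W.a₄)))))
            (Ideal.subset_span rfl))
          (Ideal.mul_mem_left (m ^ 2)
            (- CoordinateRing.mk W (C (C (2 * y + W.a₁ * x + W.a₃)⁻¹))) hQ)
        rw [← hexp] at hmem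
        exact hmem

/-- **Leaf W1** (statement verbatim from findings #130): the order of vanishing at a nonsingular
point is detected by the iterates of the invariant derivation. -/
theorem W1_mem_pow_iff [CharZero K] {x y : K} (h : W.Nonsingular x y) (k : ℕ)
    (g : W.CoordinateRing) :
    g ∈ (CoordinateRing.XYIdeal W x (C y)) ^ k ↔
      ∀ i < k, evalAt W h.1 ((D W)^[i] g) = 0 := by
  obtain ⟨t, ht, hDt, hm⟩ := exists_uniformiser W h
  rw [← ker_evalAt W h.1]
  exact mem_pow_ker_iff (evalAt W h.1) (D W) t ht hDt hm k g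

end Curve

end Fermat.Agent.S13.W.Order
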