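import Fermat.Agent.S13.W.H1_PsiData
import Fermat.Agent.S13.Lp.H25_Defs

/-!
# S13, package W -> package Lp wiring (helper17): `Lp.PsiData P`

`psi_data` (helper1) applied to the integral short model
`W0 P = ⟨0, freyAl P p, 0, freyBe P p, 0⟩`, whose base change to `Kbar` is the short model
`(W1 P)⁄Kbar` of package Lp.
-/

set_option autoImplicit false

open Polynomial WeierstrassCurve WeierstrassCurve.Affine WeierstrassCurve.Affine.Point
open Fermat.Agent.S05 Fermat.Agent.S13.Asm Fermat.Agent.S13.Lp

namespace Fermat.Agent.S13.W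

/-- The integral short model of the Frey curve adapted to the prime `p`. -/
noncomputable def shortInt (P : FreyPackage) : WeierstrassCurve ℤ :=
  ⟨0, H27.freyAl P P.p, 0, H27.freyBe P P.p, 0⟩

lemma shortInt_map (P : FreyPackage) :
    (shortInt P).map (Int.castRingHom Kbar) = (W1 P)⁄Kbar := by
  have h1 := H27.freyShort_a₁ P P.p
  have h2 := H27.freyShort_a₂ P P.p
  have h3 := H27.freyShort_a₃ P P.p
  have h4 := H27.freyShort_a₄ P P.p
  have h6 := H27.freyShort_a₆ P P.p
  rw [H27.freyShort_def] at h1 h2 h3 h4 h6
  ext
  · simp [shortInt, WeierstrassCurve.baseChange, W1, h1]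
  · simp [shortInt, WeierstrassCurve.baseChange, W1, h2]
  · simp [shortInt, WeierstrassCurve.baseChange, W1, h3]
  · simp [shortInt, WeierstrassCurve.baseChange, W1, h4]
  · simp [shortInt, WeierstrassCurve.baseChange, W1, h6]

/-- transport of the torsion condition along an equality of curves. -/
lemma h17_nsmul_congr {K : Type*} [Field K] [DecidableEq K] {W W' : WeierstrassCurve.Affine K}
    (e : W = W') (n : ℕ) (x y : K) (h : W.Nonsingular x y) (h' : W'.Nonsingular x y) :
    n • (Point.some x y h : W.Point) = 0 ↔ n • (Point.some x y h' : W'.Point) = 0 := by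
  subst e
  rfl

/-- **Interface Lp ← W**: the root polynomial of the `p`-torsion of the short model. -/
theorem psiData (P : FreyPackage) : PsiData P := by
  obtain ⟨Ψ, hdeg, _, hndvd, hroot⟩ :=
    Wr.psi_data (shortInt P) rfl rfl P.p P.pp (by have := P.hp5; omega)
  refine ⟨Ψ, hdeg, hndvd, fun x y h => ?_⟩
  have e := shortInt_map P
  have h' : ((shortInt P).map (Int.castRingHom Kbar)).toAffine.Nonsingular x y := by
    rw [e]; exact h
  have key := hroot Kbar x y h'
  have haev : Polynomial.aeval x Ψ = (Ψ.map (Int.castRingHom Kbar)).eval x := by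
    rw [Polynomial.aeval_def, Polynomial.eval₂_eq_eval_map]
    congr 2
  rw [haev, ← key]
  exact (h17_nsmul_congr e P.p x y h' h).symm

end Fermat.Agent.S13.W
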