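import Fermat.Agent.S13.W.H1_Fil

/-!
# S13, package W (helper1): shared definitions

* `evalAt W h` : evaluation `K[W] →ₐ[K] K` at a point `(x, y)` of the curve;
* `nrm W g` : the norm `p² - p q A - q² B` of `g = p + q Y` (equal to `Algebra.norm K[X] g`);
* `ordN j` : the pole orders `0, 2, 3, 4, …`; `mono W j` : the monomial of pole order `ordN j`;
* `Wr W n` : the Wronskian `det (D^i (mono j))_{i, j < n}`.
-/

set_option autoImplicit false

open Polynomial
open scoped Polynomial.Bivariate

namespace Fermat.Agent.S13.Wr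

variable {K : Type*} [CommRing K] (W : WeierstrassCurve.Affine K)

open WeierstrassCurve.Affine

/-- evaluation at a point `(x, y)` of the curve, as a ring homomorphism. -/
noncomputable def evalRH {x y : K} (h : W.Equation x y) : W.CoordinateRing →+* K :=
  AdjoinRoot.lift (evalRingHom x) y (by
    have h' : W.polynomial.evalEval x y = 0 := h
    rwa [Polynomial.eval₂_evalRingHom])

lemma evalRH_mk {x y : K} (h : W.Equation x y) (f : K[X][Y]) :
    evalRH W h (CoordinateRing.mk W f) = f.evalEval x y := by
  unfold evalRH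
  rw [AdjoinRoot.lift_mk, Polynomial.eval₂_evalRingHom]

lemma evalRH_pq {x y : K} (h : W.Equation x y) (p q : K[X]) :
    evalRH W h (pq W p q) = p.eval x + q.eval x * y := by
  have h1 : pq W p q = CoordinateRing.mk W (C p + C q * Y) := by
    unfold pq
    rw [map_add, map_mul, Algebra.smul_def, Algebra.smul_def, mul_one]
    rfl
  rw [h1, evalRH_mk]
  simp [Polynomial.evalEval]

lemma evalRH_algebraMap {x y : K} (h : W.Equation x y) (c : K) :
    evalRH W h (algebraMap K W.CoordinateRing c) = c := by
  rw [algebraMap_eq_pq, evalRH_pq]; simp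

/-- evaluation at a point `(x, y)` of the curve, as a `K`-algebra homomorphism. -/
noncomputable def evalAt {x y : K} (h : W.Equation x y) : W.CoordinateRing →ₐ[K] K :=
  { evalRH W h with commutes' := evalRH_algebraMap W h }

lemma evalAt_pq {x y : K} (h : W.Equation x y) (p q : K[X]) :
    evalAt W h (pq W p q) = p.eval x + q.eval x * y := evalRH_pq W h p q

/-- the norm of `g = p + q Y` down to `K[X]`, by its explicit formula. -/
noncomputable def nrm (g : W.CoordinateRing) : K[X] :=
  cp W g ^ 2 - cp W g * cq W g * polyA W - cq W g ^ 2 * polyB W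

lemma norm_eq_nrm (g : W.CoordinateRing) : Algebra.norm K[X] g = nrm W g := by
  conv_lhs => rw [← pq_cp_cq W g]
  unfold pq nrm polyA polyB
  rw [CoordinateRing.norm_smul_basis]

lemma nrm_pq (p q : K[X]) : nrm W (pq W p q) = p ^ 2 - p * q * polyA W - q ^ 2 * polyB W := by
  unfold nrm; rw [cp_pq, cq_pq]

/-- the pole orders `0, 2, 3, 4, …` of the monomials. -/
def ordN (j : ℕ) : ℕ := if j = 0 then 0 else j + 1

/-- the monomial of pole order `n` (for `n ≠ 1`): `X^(n/2)` or `X^((n-3)/2) Y`. -/
noncomputable def monoN (n : ℕ) : W.CoordinateRing :=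
  if n % 2 = 0 then pq W (X ^ (n / 2)) 0 else pq W 0 (X ^ ((n - 3) / 2))

/-- the `j`-th monomial, of pole order `ordN j`. -/
noncomputable def mono (j : ℕ) : W.CoordinateRing := monoN W (ordN j)

/-- the matrix `(D^i (mono j))_{i, j < n}`. -/
noncomputable def WrMat (n : ℕ) : Matrix (Fin n) (Fin n) W.CoordinateRing :=
  Matrix.of fun i j => (D W)^[(i : ℕ)] (mono W (j : ℕ))

/-- the Wronskian. -/
noncomputable def Wr (n : ℕ) : W.CoordinateRing := (WrMat W n).det

end Fermat.Agent.S13.Wr
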