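import Mathlib

/-!
# S13, work package WA (helper1): the invariant derivation on the coordinate ring

`D = W_Y ∂/∂X - W_X ∂/∂Y` on `K[W] = K[X,Y]/(W)`, written in the `K[X]`-basis `{1, Y}`:
`D (p + q Y) = (A p' + 2 B q' + B' q) + (2 p' - A q' - A' q) Y`,
where `Y² = B - A Y`, `A = a₁ X + a₃`, `B = X³ + a₂ X² + a₄ X + a₆`.
-/

set_option autoImplicit false

open Polynomial
open scoped Polynomial.Bivariate

namespace Fermat.Agent.S13.Wr

variable {K : Type*} [CommRing K] (W : WeierstrassCurve.Affine K)

open WeierstrassCurve.Affine

/-- `A = a₁ X + a₃`. -/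
noncomputable def polyA : K[X] := C W.a₁ * X + C W.a₃

/-- `B = X³ + a₂ X² + a₄ X + a₆`. -/
noncomputable def polyB : K[X] := X ^ 3 + C W.a₂ * X ^ 2 + C W.a₄ * X + C W.a₆

/-- first coordinate in the basis `{1, Y}`. -/
noncomputable def cp (g : W.CoordinateRing) : K[X] := (CoordinateRing.basis W).repr g 0

/-- second coordinate in the basis `{1, Y}`. -/
noncomputable def cq (g : W.CoordinateRing) : K[X] := (CoordinateRing.basis W).repr g 1

/-- the element `p + q Y`. -/
noncomputable def pq (p q : K[X]) : W.CoordinateRing :=
  p • (1 : W.CoordinateRing) + q • CoordinateRing.mk W Y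

lemma pq_cp_cq (g : W.CoordinateRing) : pq W (cp W g) (cq W g) = g := by
  have h := (CoordinateRing.basis W).sum_repr g
  rw [Fin.sum_univ_succ, Fin.sum_univ_one, CoordinateRing.basis_zero, Fin.succ_zero_eq_one,
    CoordinateRing.basis_one] at h
  exact h

lemma pq_injective {p q p' q' : K[X]} (h : pq W p q = pq W p' q') : p = p' ∧ q = q' := by
  have h0 : (p - p') • (1 : W.CoordinateRing) + (q - q') • CoordinateRing.mk W Y = 0 := by
    unfold pq at h
    rw [sub_smul, sub_smul]
    linear_combination h
  obtain ⟨h1, h2⟩ := CoordinateRing.smul_basis_eq_zero h0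
  exact ⟨sub_eq_zero.mp h1, sub_eq_zero.mp h2⟩

lemma cp_pq (p q : K[X]) : cp W (pq W p q) = p :=
  (pq_injective W (pq_cp_cq W (pq W p q))).1

lemma cq_pq (p q : K[X]) : cq W (pq W p q) = q :=
  (pq_injective W (pq_cp_cq W (pq W p q))).2

lemma pq_add (p q p' q' : K[X]) : pq W p q + pq W p' q' = pq W (p + p') (q + q') := by
  unfold pq; simp only [add_smul]; abel

lemma pq_zero : pq W 0 0 = 0 := by unfold pq; simp

lemma pq_one : pq W 1 0 = 1 := by unfold pq; simp

lemma pq_mul (p q p' q' : K[X]) :
    pq W p q * pq W p' q' =
      pq W (p * p' + q * q' * polyB W) (p * q' + q * p' - q * q' * polyA W) := by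
  have h1 : pq W p q * pq W p' q' =
      pq W p q * CoordinateRing.mk W (C p') +
        (pq W p q * CoordinateRing.mk W (C q')) * CoordinateRing.mk W Y := by
    conv_lhs => rw [show pq W p' q' = CoordinateRing.mk W (C p') +
      CoordinateRing.mk W (C q') * CoordinateRing.mk W Y by
        unfold pq; simp only [CoordinateRing.smul]; ring]
    ring
  rw [h1]
  unfold pq
  rw [CoordinateRing.smul_basis_mul_C, CoordinateRing.smul_basis_mul_C,
    CoordinateRing.smul_basis_mul_Y]
  unfold polyA polyB
  simp only [add_smul, sub_smul, mul_smul]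
  module

lemma cp_add (g h : W.CoordinateRing) : cp W (g + h) = cp W g + cp W h := by
  unfold cp; simp

lemma cq_add (g h : W.CoordinateRing) : cq W (g + h) = cq W g + cq W h := by
  unfold cq; simp

lemma algebraMap_eq_pq (c : K) : algebraMap K W.CoordinateRing c = pq W (C c) 0 := by
  unfold pq
  rw [zero_smul, add_zero, Algebra.smul_def, mul_one]
  rfl

lemma smul_pq (c : K) (p q : K[X]) : c • pq W p q = pq W (C c * p) (C c * q) := by
  rw [Algebra.smul_def, algebraMap_eq_pq, pq_mul]
  congr 1 <;> ring

/-- The invariant derivation, as a function. -/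
noncomputable def Dfun (g : W.CoordinateRing) : W.CoordinateRing :=
  pq W (polyA W * derivative (cp W g) + 2 * polyB W * derivative (cq W g)
      + derivative (polyB W) * cq W g)
    (2 * derivative (cp W g) - polyA W * derivative (cq W g) - derivative (polyA W) * cq W g)

lemma Dfun_pq (p q : K[X]) :
    Dfun W (pq W p q) =
      pq W (polyA W * derivative p + 2 * polyB W * derivative q + derivative (polyB W) * q)
        (2 * derivative p - polyA W * derivative q - derivative (polyA W) * q) := by
  unfold Dfun; rw [cp_pq, cq_pq]

lemma Dfun_add (g h : W.CoordinateRing) : Dfun W (g + h) = Dfun W g + Dfun W h := by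
  unfold Dfun
  rw [cp_add, cq_add, pq_add]
  congr 1 <;> simp only [derivative_add] <;> ring

lemma Dfun_smul (c : K) (g : W.CoordinateRing) : Dfun W (c • g) = c • Dfun W g := by
  rw [← pq_cp_cq W g, smul_pq, Dfun_pq, Dfun_pq, smul_pq]
  congr 1 <;> simp only [derivative_mul, derivative_C] <;> ring

lemma Dfun_mul_aux1 (A B p q p' q' : K[X]) :
    A * derivative (p * p' + q * q' * B) + 2 * B * derivative (p * q' + q * p' - q * q' * A)
        + derivative B * (p * q' + q * p' - q * q' * A) =
      (p * (A * derivative p' + 2 * B * derivative q' + derivative B * q')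
          + q * (2 * derivative p' - A * derivative q' - derivative A * q') * B)
        + (p' * (A * derivative p + 2 * B * derivative q + derivative B * q)
          + q' * (2 * derivative p - A * derivative q - derivative A * q) * B) := by
  simp only [derivative_mul, derivative_add, derivative_sub]
  ring

lemma Dfun_mul_aux2 (A B p q p' q' : K[X]) :
    2 * derivative (p * p' + q * q' * B) - A * derivative (p * q' + q * p' - q * q' * A)
        - derivative A * (p * q' + q * p' - q * q' * A) =
      (p * (2 * derivative p' - A * derivative q' - derivative A * q')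
          + q * (A * derivative p' + 2 * B * derivative q' + derivative B * q')
          - q * (2 * derivative p' - A * derivative q' - derivative A * q') * A)
        + (p' * (2 * derivative p - A * derivative q - derivative A * q)
          + q' * (A * derivative p + 2 * B * derivative q + derivative B * q)
          - q' * (2 * derivative p - A * derivative q - derivative A * q) * A) := by
  simp only [derivative_mul, derivative_add, derivative_sub]
  ring

lemma Dfun_mul (g h : W.CoordinateRing) : Dfun W (g * h) = g * Dfun W h + h * Dfun W g := by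
  obtain ⟨p, q, rfl⟩ : ∃ p q, g = pq W p q := ⟨_, _, (pq_cp_cq W g).symm⟩
  obtain ⟨p', q', rfl⟩ : ∃ p q, h = pq W p q := ⟨_, _, (pq_cp_cq W h).symm⟩
  rw [pq_mul, Dfun_pq, Dfun_pq, Dfun_pq, pq_mul, pq_mul, pq_add]
  rw [Dfun_mul_aux1, Dfun_mul_aux2]

/-- The invariant derivation `D` of the coordinate ring. -/
noncomputable def D : Derivation K W.CoordinateRing W.CoordinateRing where
  toFun := Dfun W
  map_add' := Dfun_add W
  map_smul' := Dfun_smul W
  map_one_eq_zero' := by
    change Dfun W 1 = 0
    rw [← pq_one, Dfun_pq]
    simp [pq_zero]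
  leibniz' g h := by
    change Dfun W (g * h) = g • Dfun W h + h • Dfun W g
    rw [Dfun_mul]; rfl

lemma D_apply (g : W.CoordinateRing) : D W g = Dfun W g := rfl

lemma D_pq (p q : K[X]) :
    D W (pq W p q) =
      pq W (polyA W * derivative p + 2 * polyB W * derivative q + derivative (polyB W) * q)
        (2 * derivative p - polyA W * derivative q - derivative (polyA W) * q) :=
  Dfun_pq W p q

end Fermat.Agent.S13.Wr
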