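import Mathlib

/-!
# S13, package W (helper1): determinants in a filtered ring with a leading-coefficient map

Abstract lemma: if `M i j ∈ Fil (r i + c j)` then `det M ∈ Fil (∑ r + ∑ c)` and the leading
coefficient of `det M` is the determinant of the leading coefficients.
-/

set_option autoImplicit false

namespace Fermat.Agent.S13.Wr

universe u v w

section

variable {R : Type u} {K : Type v} [CommRing R] [CommRing K]
  (Fil : ℕ → R → Prop) (lc : ℕ → R → K)

lemma h1_fil_prod (hone : Fil 0 1)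
    (hmul : ∀ m n g h, Fil m g → Fil n h → Fil (m + n) (g * h))
    (lcone : lc 0 1 = 1)
    (lcmul : ∀ m n g h, Fil m g → Fil n h → lc (m + n) (g * h) = lc m g * lc n h)
    {ι : Type w} [DecidableEq ι] (s : Finset ι) (f : ι → R) (d : ι → ℕ)
    (h : ∀ i ∈ s, Fil (d i) (f i)) :
    Fil (∑ i ∈ s, d i) (∏ i ∈ s, f i) ∧
      lc (∑ i ∈ s, d i) (∏ i ∈ s, f i) = ∏ i ∈ s, lc (d i) (f i) := by
  induction s using Finset.induction_on with
  | empty => simp [hone, lcone]
  | insert a s ha ih =>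
    rw [Finset.sum_insert ha, Finset.prod_insert ha, Finset.prod_insert ha]
    have h1 := h a (Finset.mem_insert_self a s)
    have h2 := ih (fun i hi => h i (Finset.mem_insert_of_mem hi))
    exact ⟨hmul _ _ _ _ h1 h2.1, by rw [lcmul _ _ _ _ h1 h2.1, h2.2]⟩

lemma h1_fil_sum (h0 : ∀ n, Fil n 0)
    (hadd : ∀ n g h, Fil n g → Fil n h → Fil n (g + h))
    (lc0 : ∀ n, lc n 0 = 0) (lcadd : ∀ n g h, lc n (g + h) = lc n g + lc n h)
    {ι : Type w} [DecidableEq ι] (n : ℕ) (s : Finset ι) (f : ι → R)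
    (h : ∀ i ∈ s, Fil n (f i)) :
    Fil n (∑ i ∈ s, f i) ∧ lc n (∑ i ∈ s, f i) = ∑ i ∈ s, lc n (f i) := by
  induction s using Finset.induction_on with
  | empty => simp [h0, lc0]
  | insert a s ha ih =>
    rw [Finset.sum_insert ha, Finset.sum_insert ha]
    have h1 := h a (Finset.mem_insert_self a s)
    have h2 := ih (fun i hi => h i (Finset.mem_insert_of_mem hi))
    exact ⟨hadd _ _ _ h1 h2.1, by rw [lcadd, h2.2]⟩

/-- determinants in a filtered ring with a leading-coefficient map. -/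
theorem h1_det_fil
    (h0 : ∀ n, Fil n 0) (hadd : ∀ n g h, Fil n g → Fil n h → Fil n (g + h))
    (hneg : ∀ n g, Fil n g → Fil n (-g)) (hone : Fil 0 1)
    (hmul : ∀ m n g h, Fil m g → Fil n h → Fil (m + n) (g * h))
    (lc0 : ∀ n, lc n 0 = 0) (lcadd : ∀ n g h, lc n (g + h) = lc n g + lc n h)
    (lcneg : ∀ n g, lc n (-g) = - lc n g) (lcone : lc 0 1 = 1)
    (lcmul : ∀ m n g h, Fil m g → Fil n h → lc (m + n) (g * h) = lc m g * lc n h)
    {ι : Type w} [Fintype ι] [DecidableEq ι] (M : Matrix ι ι R) (r c : ι → ℕ)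
    (hM : ∀ i j, Fil (r i + c j) (M i j)) :
    Fil (∑ i, r i + ∑ j, c j) M.det ∧
      lc (∑ i, r i + ∑ j, c j) M.det = (Matrix.of fun i j => lc (r i + c j) (M i j)).det := by
  classical
  have hterm : ∀ σ : Equiv.Perm ι,
      Fil (∑ i, r i + ∑ j, c j) (Equiv.Perm.sign σ • ∏ i, M (σ i) i) ∧
      lc (∑ i, r i + ∑ j, c j) (Equiv.Perm.sign σ • ∏ i, M (σ i) i) =
        Equiv.Perm.sign σ • ∏ i, lc (r (σ i) + c i) (M (σ i) i) := by
    intro σ
    have hp := h1_fil_prod Fil lc hone hmul lcone lcmul Finset.univ (fun i => M (σ i) i)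
      (fun i => r (σ i) + c i) (fun i _ => hM (σ i) i)
    have hs : ∑ i, (r (σ i) + c i) = ∑ i, r i + ∑ j, c j := by
      rw [Finset.sum_add_distrib, Equiv.sum_comp σ r]
    rw [hs] at hp
    rcases Int.units_eq_one_or (Equiv.Perm.sign σ) with h1 | h1
    · rw [h1, one_smul, one_smul]; exact hp
    · rw [h1, Units.neg_smul, one_smul, Units.neg_smul, one_smul]
      exact ⟨hneg _ _ hp.1, by rw [lcneg, hp.2]⟩
  rw [Matrix.det_apply, Matrix.det_apply]
  have hsum := h1_fil_sum Fil lc h0 hadd lc0 lcadd (∑ i, r i + ∑ j, c j) Finset.univ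
    (fun σ : Equiv.Perm ι => Equiv.Perm.sign σ • ∏ i, M (σ i) i) (fun σ _ => (hterm σ).1)
  refine ⟨hsum.1, ?_⟩
  rw [hsum.2]
  refine Finset.sum_congr rfl fun σ _ => ?_
  rw [(hterm σ).2]
  rfl

end

end Fermat.Agent.S13.Wr
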