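import Fermat.Agent.S13.W.H1_Deriv

/-!
# S13, WA (helper1): the pole-order filtration on the coordinate ring and leading coefficients

`Fil n` = functions with pole order `≤ n` at infinity (`X` has pole order 2, `Y` pole order 3),
`lc n` = coefficient of the monomial of pole order `n`.
-/

set_option autoImplicit false

open Polynomial
open scoped Polynomial.Bivariate

namespace Fermat.Agent.S13.Wr

variable {K : Type*} [CommRing K] (W : WeierstrassCurve.Affine K)

open WeierstrassCurve.Affine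

/-- `Z f d`: all coefficients of `f` of index `≥ d` vanish (`degree f < d`). -/
def Z (f : K[X]) (d : ℕ) : Prop := ∀ k, d ≤ k → f.coeff k = 0

lemma Z_zero (d : ℕ) : Z (0 : K[X]) d := fun _ _ => by simp

lemma Z_mono {f : K[X]} {d e : ℕ} (h : Z f d) (hde : d ≤ e) : Z f e :=
  fun k hk => h k (hde.trans hk)

lemma Z_add {f g : K[X]} {d : ℕ} (hf : Z f d) (hg : Z g d) : Z (f + g) d :=
  fun k hk => by rw [coeff_add, hf k hk, hg k hk, add_zero]

lemma Z_sub {f g : K[X]} {d : ℕ} (hf : Z f d) (hg : Z g d) : Z (f - g) d :=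
  fun k hk => by rw [coeff_sub, hf k hk, hg k hk, sub_zero]

lemma Z_neg {f : K[X]} {d : ℕ} (hf : Z f d) : Z (-f) d :=
  fun k hk => by rw [coeff_neg, hf k hk, neg_zero]

lemma Z_eq_zero {f : K[X]} (hf : Z f 0) : f = 0 := by
  ext k; simpa using hf k (Nat.zero_le k)

lemma Z_mul' {f g : K[X]} {a b c : ℕ} (hf : Z f a) (hg : Z g b)
    (h : a = 0 ∨ b = 0 ∨ a + b ≤ c + 1) : Z (f * g) c := by
  intro k hk
  rw [coeff_mul]
  refine Finset.sum_eq_zero fun x hx => ?_
  have hx' : x.1 + x.2 = k := Finset.HasAntidiagonal.mem_antidiagonal.mp hx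
  by_cases h1 : a ≤ x.1
  · rw [hf _ h1, zero_mul]
  · by_cases h2 : b ≤ x.2
    · rw [hg _ h2, mul_zero]
    · omega

lemma Z_mul3' {f g h : K[X]} {a b c d : ℕ} (hf : Z f a) (hg : Z g b) (hh : Z h c)
    (hd : a = 0 ∨ b = 0 ∨ c = 0 ∨ a + b + c ≤ d + 2) : Z (f * g * h) d := by
  rcases Nat.eq_zero_or_pos a with ha | ha
  · subst ha; rw [Z_eq_zero hf]; simp only [zero_mul]; exact Z_zero _
  rcases Nat.eq_zero_or_pos b with hb | hb
  · subst hb; rw [Z_eq_zero hg]; simp only [zero_mul, mul_zero]; exact Z_zero _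
  rcases Nat.eq_zero_or_pos c with hc | hc
  · subst hc; rw [Z_eq_zero hh]; simp only [mul_zero]; exact Z_zero _
  have h1 : Z (f * g) (a + b - 1) := Z_mul' hf hg (by omega)
  exact Z_mul' h1 hh (by omega)

lemma Z_natDegree {f : K[X]} {d : ℕ} (hf : Z f (d + 1)) : f.natDegree ≤ d :=
  natDegree_le_iff_coeff_eq_zero.mpr fun N hN => hf N hN

lemma Z_of_natDegree {f : K[X]} {d : ℕ} (hf : f.natDegree ≤ d) : Z f (d + 1) :=
  fun k hk => coeff_eq_zero_of_natDegree_lt (by omega)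

lemma coeff_mul_top {f g : K[X]} {a b : ℕ} (hf : Z f (a + 1)) (hg : Z g (b + 1)) :
    (f * g).coeff (a + b) = f.coeff a * g.coeff b :=
  coeff_mul_add_eq_of_natDegree_le (Z_natDegree hf) (Z_natDegree hg)

lemma Z_derivative {f : K[X]} {d : ℕ} (hf : Z f d) : Z (derivative f) (d - 1) := by
  intro k hk
  rw [coeff_derivative, hf (k + 1) (by omega), zero_mul]

lemma Z_C_mul {f : K[X]} {d : ℕ} (c : K) (hf : Z f d) : Z (C c * f) d :=
  fun k hk => by rw [coeff_C_mul, hf k hk, mul_zero]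

lemma Z_ofNat_mul {f : K[X]} {d : ℕ} (hf : Z f d) : Z (2 * f) d := by
  have : (2 : K[X]) * f = f + f := by ring
  rw [this]; exact Z_add hf hf

lemma Z_polyA : Z (polyA W) 2 := by
  apply Z_of_natDegree
  unfold polyA
  compute_degree

lemma Z_polyB : Z (polyB W) 4 := by
  apply Z_of_natDegree
  unfold polyB
  compute_degree

lemma coeff_polyB_three : (polyB W).coeff 3 = 1 := by
  unfold polyB
  simp [coeff_X, coeff_C]

lemma derivative_polyA : derivative (polyA W) = C W.a₁ := by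
  unfold polyA; simp

lemma derivative_polyB :
    derivative (polyB W) = C 3 * X ^ 2 + C (2 * W.a₂) * X + C W.a₄ := by
  unfold polyB
  simp only [derivative_add, derivative_mul, derivative_C, derivative_X_pow, derivative_X,
    zero_mul, zero_add, mul_one, derivative_X_sq, map_mul]
  simp only [Nat.cast_ofNat, Nat.add_one_sub_one, map_ofNat]
  ring

lemma Z_dpolyA : Z (derivative (polyA W)) 1 := by
  simpa using Z_derivative (Z_polyA W)

lemma Z_dpolyB : Z (derivative (polyB W)) 3 := by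
  simpa using Z_derivative (Z_polyB W)

lemma coeff_dpolyB_two : (derivative (polyB W)).coeff 2 = 3 := by
  rw [coeff_derivative, coeff_polyB_three]; norm_num

/-- the pole-order filtration. -/
def Fil (n : ℕ) (g : W.CoordinateRing) : Prop :=
  Z (cp W g) (n / 2 + 1) ∧ Z (cq W g) ((n - 1) / 2)

/-- the coefficient of the monomial of pole order `n`. -/
noncomputable def lc (n : ℕ) (g : W.CoordinateRing) : K :=
  if n % 2 = 0 then (cp W g).coeff (n / 2) else (cq W g).coeff ((n - 3) / 2)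

lemma Fil_pq_iff (n : ℕ) (p q : K[X]) :
    Fil W n (pq W p q) ↔ Z p (n / 2 + 1) ∧ Z q ((n - 1) / 2) := by
  unfold Fil; rw [cp_pq, cq_pq]

lemma lc_pq (n : ℕ) (p q : K[X]) :
    lc W n (pq W p q) = if n % 2 = 0 then p.coeff (n / 2) else q.coeff ((n - 3) / 2) := by
  unfold lc; rw [cp_pq, cq_pq]

lemma Fil_zero_elt (n : ℕ) : Fil W n 0 := by
  rw [← pq_zero, Fil_pq_iff]; exact ⟨Z_zero _, Z_zero _⟩

lemma Fil_add {n : ℕ} {g h : W.CoordinateRing} (hg : Fil W n g) (hh : Fil W n h) :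
    Fil W n (g + h) := by
  unfold Fil at *
  rw [cp_add, cq_add]
  exact ⟨Z_add hg.1 hh.1, Z_add hg.2 hh.2⟩

lemma Fil_mono {m n : ℕ} {g : W.CoordinateRing} (hg : Fil W m g) (hmn : m ≤ n) : Fil W n g :=
  ⟨Z_mono hg.1 (by omega), Z_mono hg.2 (by omega)⟩

lemma Fil_smul {n : ℕ} (c : K) {g : W.CoordinateRing} (hg : Fil W n g) : Fil W n (c • g) := by
  obtain ⟨p, q, rfl⟩ : ∃ p q, g = pq W p q := ⟨_, _, (pq_cp_cq W g).symm⟩
  rw [smul_pq, Fil_pq_iff]
  rw [Fil_pq_iff] at hg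
  exact ⟨Z_C_mul c hg.1, Z_C_mul c hg.2⟩

lemma Fil_neg {n : ℕ} {g : W.CoordinateRing} (hg : Fil W n g) : Fil W n (-g) := by
  have := Fil_smul W (-1 : K) hg
  simpa using this

lemma Fil_sub {n : ℕ} {g h : W.CoordinateRing} (hg : Fil W n g) (hh : Fil W n h) :
    Fil W n (g - h) := by
  rw [sub_eq_add_neg]; exact Fil_add W hg (Fil_neg W hh)

lemma lc_add (n : ℕ) (g h : W.CoordinateRing) : lc W n (g + h) = lc W n g + lc W n h := by
  unfold lc; rw [cp_add, cq_add]; split_ifs <;> simp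

lemma lc_smul (n : ℕ) (c : K) (g : W.CoordinateRing) : lc W n (c • g) = c * lc W n g := by
  obtain ⟨p, q, rfl⟩ : ∃ p q, g = pq W p q := ⟨_, _, (pq_cp_cq W g).symm⟩
  rw [smul_pq, lc_pq, lc_pq]; split_ifs <;> simp

lemma lc_zero (n : ℕ) : lc W n 0 = 0 := by
  rw [← pq_zero, lc_pq]; split_ifs <;> simp

lemma lc_neg (n : ℕ) (g : W.CoordinateRing) : lc W n (-g) = - lc W n g := by
  have := lc_smul W n (-1 : K) g
  simpa using this

lemma lc_sub (n : ℕ) (g h : W.CoordinateRing) : lc W n (g - h) = lc W n g - lc W n h := by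
  rw [sub_eq_add_neg, lc_add, lc_neg, sub_eq_add_neg]

/-- `lc n` vanishes on `Fil m` for `m < n`. -/
lemma lc_eq_zero_of_Fil {m n : ℕ} {g : W.CoordinateRing} (hg : Fil W m g) (hmn : m < n) :
    lc W n g = 0 := by
  unfold lc
  split_ifs with h
  · exact hg.1 _ (by omega)
  · exact hg.2 _ (by omega)

lemma Fil_one : Fil W 0 (1 : W.CoordinateRing) := by
  rw [← pq_one, Fil_pq_iff]
  refine ⟨?_, Z_zero _⟩
  apply Z_of_natDegree
  simp

lemma lc_one : lc W 0 (1 : W.CoordinateRing) = 1 := by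
  rw [← pq_one, lc_pq]; simp

/-- multiplicativity of the filtration. -/
lemma Fil_mul {m n : ℕ} {g h : W.CoordinateRing} (hg : Fil W m g) (hh : Fil W n h) :
    Fil W (m + n) (g * h) := by
  obtain ⟨p, q, rfl⟩ : ∃ p q, g = pq W p q := ⟨_, _, (pq_cp_cq W g).symm⟩
  obtain ⟨p', q', rfl⟩ : ∃ p q, h = pq W p q := ⟨_, _, (pq_cp_cq W h).symm⟩
  rw [Fil_pq_iff] at hg hh
  rw [pq_mul, Fil_pq_iff]
  obtain ⟨hp, hq⟩ := hg
  obtain ⟨hp', hq'⟩ := hh
  refine ⟨Z_add (Z_mul' hp hp' (by omega)) ?_, Z_sub (Z_add ?_ ?_) ?_⟩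
  · exact Z_mul3' hq hq' (Z_polyB W) (by omega)
  · exact Z_mul' hp hq' (by omega)
  · exact Z_mul' hq hp' (by omega)
  · exact Z_mul3' hq hq' (Z_polyA W) (by omega)

end Fermat.Agent.S13.Wr
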