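import Fermat.Agent.S13.W.H1_Lc
import Fermat.Agent.S13.W.H1_Det
import Fermat.Agent.S13.W.H1_Defs

/-!
# S13, package W (helper1): pole order and leading coefficient of the Wronskian

* `Fil_iter` : `D^i g ∈ Fil (i + n)` with leading coefficient `n (n+1) ⋯ (n+i-1) lc n g`;
* `Fil_mono'`, `lc_mono'` : the monomials;
* `Fil_Wr`, `lc_Wr` : the Wronskian `Wr W n` has pole order `≤ ∑ i + ∑ ordN j` and leading
  coefficient `det (ascPochhammer_i (ordN j))`;
* `sum_ord` : `∑_{i<n} i + ∑_{j<n} ordN j = n^2 - 1`.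
-/

set_option autoImplicit false

open Polynomial
open scoped Polynomial.Bivariate

namespace Fermat.Agent.S13.Wr

variable {K : Type*} [CommRing K] (W : WeierstrassCurve.Affine K)

open WeierstrassCurve.Affine

theorem Fil_iter {n : ℕ} {g : W.CoordinateRing} (hg : Fil W n g) (i : ℕ) :
    Fil W (i + n) ((D W)^[i] g) ∧
      lc W (i + n) ((D W)^[i] g) = (((ascPochhammer ℕ i).eval n : ℕ) : K) * lc W n g := by
  induction i with
  | zero => simp [hg]
  | succ i ih =>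
    rw [Function.iterate_succ_apply']
    have e : i + 1 + n = (i + n) + 1 := by omega
    rw [e]
    refine ⟨Fil_D W ih.1, ?_⟩
    rw [lc_D W ih.1, ih.2, ascPochhammer_succ_eval]
    push_cast
    ring

lemma Fil_monoN {n : ℕ} (hn : n ≠ 1) : Fil W n (monoN W n) := by
  unfold monoN
  split_ifs with h
  · rw [Fil_pq_iff]
    refine ⟨?_, Z_zero _⟩
    apply Z_of_natDegree
    exact natDegree_X_pow_le _
  · rw [Fil_pq_iff]
    refine ⟨Z_zero _, ?_⟩
    have e : (n - 1) / 2 = (n - 3) / 2 + 1 := by omega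
    rw [e]
    apply Z_of_natDegree
    exact natDegree_X_pow_le _

lemma lc_monoN (n : ℕ) : lc W n (monoN W n) = 1 := by
  unfold monoN
  split_ifs with h
  · rw [lc_pq, if_pos h]; simp
  · rw [lc_pq, if_neg h]; simp

lemma ordN_ne_one (j : ℕ) : ordN j ≠ 1 := by
  unfold ordN; split_ifs <;> omega

lemma Fil_mono' (j : ℕ) : Fil W (ordN j) (mono W j) := Fil_monoN W (ordN_ne_one j)

lemma lc_mono' (j : ℕ) : lc W (ordN j) (mono W j) = 1 := lc_monoN W _

/-- the matrix of rising factorials. -/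
noncomputable def risMat (n : ℕ) : Matrix (Fin n) (Fin n) ℤ :=
  Matrix.of fun i j => (ascPochhammer ℤ (i : ℕ)).eval ((ordN (j : ℕ) : ℕ) : ℤ)

theorem Fil_lc_Wr (n : ℕ) :
    Fil W (∑ i : Fin n, (i : ℕ) + ∑ j : Fin n, ordN (j : ℕ)) (Wr W n) ∧
      lc W (∑ i : Fin n, (i : ℕ) + ∑ j : Fin n, ordN (j : ℕ)) (Wr W n) =
        (((risMat n).det : ℤ) : K) := by
  have h := h1_det_fil (Fil W) (lc W) (Fil_zero_elt W) (fun _ _ _ => Fil_add W)
    (fun _ _ => Fil_neg W) (Fil_one W) (fun _ _ _ _ => Fil_mul W) (lc_zero W) (lc_add W)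
    (lc_neg W) (lc_one W) (fun _ _ _ _ => lc_mul W) (WrMat W n) (fun i => (i : ℕ))
    (fun j => ordN (j : ℕ)) (fun i j => (Fil_iter W (Fil_mono' W j) i).1)
  refine ⟨h.1, ?_⟩
  have h2 : Wr W n = (WrMat W n).det := rfl
  rw [h2, h.2]
  have h3 : (((risMat n).det : ℤ) : K) = ((Int.castRingHom K).mapMatrix (risMat n)).det := by
    rw [← RingHom.map_det]; rfl
  rw [h3]
  congr 1
  ext i j
  simp only [Matrix.of_apply, RingHom.mapMatrix_apply, Matrix.map_apply, risMat, WrMat]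
  rw [(Fil_iter W (Fil_mono' W j) i).2, lc_mono', mul_one]
  have : ((ascPochhammer ℤ (i : ℕ)).eval ((ordN (j : ℕ) : ℕ) : ℤ)) =
      (((ascPochhammer ℕ (i : ℕ)).eval (ordN (j : ℕ)) : ℕ) : ℤ) := by
    rw [← ascPochhammer_eval_cast]
  rw [this, eq_intCast, Int.cast_natCast]

lemma sum_ord (n : ℕ) (hn : 0 < n) :
    ∑ i : Fin n, (i : ℕ) + ∑ j : Fin n, ordN (j : ℕ) = n ^ 2 - 1 := by
  rw [Fin.sum_univ_eq_sum_range (fun i => i) n, Fin.sum_univ_eq_sum_range (fun j => ordN j) n]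
  have h1 : ∀ m : ℕ, (∑ i ∈ Finset.range m, i) * 2 = m * (m - 1) := fun m =>
    Finset.sum_range_id_mul_two m
  have h2 : ∀ m : ℕ, (∑ j ∈ Finset.range (m + 1), ordN j) * 2 = (m + 1) * (m + 2) - 2 := by
    intro m
    induction m with
    | zero => simp [ordN]
    | succ m ih =>
      rw [Finset.sum_range_succ, add_mul, ih]
      have : ordN (m + 1) = m + 2 := by unfold ordN; simp
      rw [this]
      have h3 : 2 ≤ (m + 1) * (m + 2) := by nlinarith
      have h4 : 2 ≤ (m + 1 + 1) * (m + 1 + 2) := by nlinarith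
      zify [h3, h4]
      ring
  obtain ⟨m, rfl⟩ : ∃ m, n = m + 1 := ⟨n - 1, by omega⟩
  have e1 := h1 (m + 1)
  have e2 := h2 m
  have h3 : 2 ≤ (m + 1) * (m + 2) := by nlinarith
  have h5 : 1 ≤ (m + 1) ^ 2 := by nlinarith
  have e3 : m + 1 - 1 = m := by omega
  rw [e3] at e1
  zify [h3, h5] at e1 e2 ⊢
  nlinarith

end Fermat.Agent.S13.Wr
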