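import Fermat.Agent.S13.W.H1_Fil

/-!
# S13, package W (helper1): leading coefficients of products and derivatives

* `lc_mul` : `lc (m + n) (g h) = lc m g * lc n h` for `g ∈ Fil m`, `h ∈ Fil n`;
* `Fil_D`  : `D` raises the pole order by at most one;
* `lc_D`   : `lc (n + 1) (D g) = n * lc n g`.
-/

set_option autoImplicit false

open Polynomial
open scoped Polynomial.Bivariate

namespace Fermat.Agent.S13.Wr

variable {K : Type*} [CommRing K] (W : WeierstrassCurve.Affine K)

open WeierstrassCurve.Affine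

lemma Z_coeff {f : K[X]} {d k : ℕ} (hf : Z f d) (hk : d ≤ k) : f.coeff k = 0 := hf k hk

/-- even × even. -/
lemma lc_mul_ee {a b : ℕ} {p q p' q' : K[X]}
    (hg : Fil W (2 * a) (pq W p q)) (hh : Fil W (2 * b) (pq W p' q')) :
    lc W (2 * a + 2 * b) (pq W p q * pq W p' q') =
      lc W (2 * a) (pq W p q) * lc W (2 * b) (pq W p' q') := by
  rw [Fil_pq_iff] at hg hh
  obtain ⟨hp, hq⟩ := hg
  obtain ⟨hp', hq'⟩ := hh
  rw [pq_mul, lc_pq, lc_pq, lc_pq, if_pos (by omega), if_pos (by omega), if_pos (by omega)]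
  have e1 : (2 * a + 2 * b) / 2 = a + b := by omega
  have e2 : 2 * a / 2 = a := by omega
  have e3 : 2 * b / 2 = b := by omega
  rw [e1, e2, e3]
  have hp1 : Z p (a + 1) := Z_mono hp (by omega)
  have hp1' : Z p' (b + 1) := Z_mono hp' (by omega)
  rw [coeff_add, coeff_mul_top hp1 hp1']
  have h0 : Z (q * q' * polyB W) (a + b) := Z_mul3' hq hq' (Z_polyB W) (by omega)
  rw [h0 _ le_rfl, add_zero]

/-- even × odd. -/
lemma lc_mul_eo {a b : ℕ} {p q p' q' : K[X]}
    (hg : Fil W (2 * a) (pq W p q)) (hh : Fil W (2 * b + 1) (pq W p' q')) :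
    lc W (2 * a + (2 * b + 1)) (pq W p q * pq W p' q') =
      lc W (2 * a) (pq W p q) * lc W (2 * b + 1) (pq W p' q') := by
  rw [Fil_pq_iff] at hg hh
  obtain ⟨hp, hq⟩ := hg
  obtain ⟨hp', hq'⟩ := hh
  rw [pq_mul, lc_pq, lc_pq, lc_pq, if_neg (by omega), if_pos (by omega), if_neg (by omega)]
  have e1 : (2 * a + (2 * b + 1) - 3) / 2 = a + b - 1 := by omega
  have e2 : 2 * a / 2 = a := by omega
  have e3 : (2 * b + 1 - 3) / 2 = b - 1 := by omega
  have e4 : (2 * b + 1) / 2 = b := by omega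
  have e5 : (2 * b + 1 - 1) / 2 = b := by omega
  rw [e1, e2, e3]
  replace hp : Z p (a + 1) := Z_mono hp (by omega)
  replace hp' : Z p' (b + 1) := Z_mono hp' (by omega)
  replace hq' : Z q' b := Z_mono hq' (by omega)
  rw [coeff_sub, coeff_add]
  have h1 : Z (q * p') (a + b - 1) := Z_mul' hq hp' (by omega)
  have h2 : Z (q * q' * polyA W) (a + b - 1) := Z_mul3' hq hq' (Z_polyA W) (by omega)
  rw [h1 _ le_rfl, h2 _ le_rfl, add_zero, sub_zero]
  rcases Nat.eq_zero_or_pos b with hb | hb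
  · subst hb
    rw [Z_eq_zero hq']; simp
  · obtain ⟨b', rfl⟩ : ∃ b', b = b' + 1 := ⟨b - 1, by omega⟩
    have e6 : a + (b' + 1) - 1 = a + b' := by omega
    have e7 : b' + 1 - 1 = b' := by omega
    rw [e6, e7]
    exact coeff_mul_top hp hq'

/-- odd × odd. -/
lemma lc_mul_oo {a b : ℕ} {p q p' q' : K[X]}
    (hg : Fil W (2 * a + 1) (pq W p q)) (hh : Fil W (2 * b + 1) (pq W p' q')) :
    lc W (2 * a + 1 + (2 * b + 1)) (pq W p q * pq W p' q') =
      lc W (2 * a + 1) (pq W p q) * lc W (2 * b + 1) (pq W p' q') := by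
  rw [Fil_pq_iff] at hg hh
  obtain ⟨hp, hq⟩ := hg
  obtain ⟨hp', hq'⟩ := hh
  rw [pq_mul, lc_pq, lc_pq, lc_pq, if_pos (by omega), if_neg (by omega), if_neg (by omega)]
  have e1 : (2 * a + 1 + (2 * b + 1)) / 2 = a + b + 1 := by omega
  have e2 : (2 * a + 1 - 3) / 2 = a - 1 := by omega
  have e3 : (2 * b + 1 - 3) / 2 = b - 1 := by omega
  have e4 : (2 * b + 1) / 2 = b := by omega
  have e5 : (2 * b + 1 - 1) / 2 = b := by omega
  have e6 : (2 * a + 1) / 2 = a := by omega
  have e7 : (2 * a + 1 - 1) / 2 = a := by omega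
  rw [e1, e2, e3]
  replace hp : Z p (a + 1) := Z_mono hp (by omega)
  replace hp' : Z p' (b + 1) := Z_mono hp' (by omega)
  replace hq : Z q a := Z_mono hq (by omega)
  replace hq' : Z q' b := Z_mono hq' (by omega)
  rw [coeff_add]
  have h1 : Z (p * p') (a + b + 1) := Z_mul' hp hp' (by omega)
  rw [h1 _ le_rfl, zero_add]
  rcases Nat.eq_zero_or_pos a with ha | ha
  · subst ha
    rw [Z_eq_zero hq]; simp
  rcases Nat.eq_zero_or_pos b with hb | hb
  · subst hb
    rw [Z_eq_zero hq']; simp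
  obtain ⟨a', rfl⟩ : ∃ a', a = a' + 1 := ⟨a - 1, by omega⟩
  obtain ⟨b', rfl⟩ : ∃ b', b = b' + 1 := ⟨b - 1, by omega⟩
  have e8 : a' + 1 + (b' + 1) + 1 = (a' + b') + 3 := by omega
  have e9 : a' + 1 - 1 = a' := by omega
  have e10 : b' + 1 - 1 = b' := by omega
  rw [e8, e9, e10]
  have h2 : Z (q * q') (a' + b' + 1) := Z_mul' hq hq' (by omega)
  rw [coeff_mul_top h2 (Z_polyB W), coeff_polyB_three, mul_one]
  exact coeff_mul_top hq hq'

/-- multiplicativity of the leading coefficient. -/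
theorem lc_mul {m n : ℕ} {g h : W.CoordinateRing} (hg : Fil W m g) (hh : Fil W n h) :
    lc W (m + n) (g * h) = lc W m g * lc W n h := by
  obtain ⟨p, q, rfl⟩ : ∃ p q, g = pq W p q := ⟨_, _, (pq_cp_cq W g).symm⟩
  obtain ⟨p', q', rfl⟩ : ∃ p q, h = pq W p q := ⟨_, _, (pq_cp_cq W h).symm⟩
  obtain ⟨a, rfl | rfl⟩ := Nat.even_or_odd' m
  · obtain ⟨b, rfl | rfl⟩ := Nat.even_or_odd' n
    · exact lc_mul_ee W hg hh
    · exact lc_mul_eo W hg hh
  · obtain ⟨b, rfl | rfl⟩ := Nat.even_or_odd' n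
    · rw [add_comm, mul_comm (pq W p q), mul_comm (lc W _ _)]
      exact lc_mul_eo W hh hg
    · exact lc_mul_oo W hg hh

/-- `D` raises the pole order by at most one. -/
theorem Fil_D {n : ℕ} {g : W.CoordinateRing} (hg : Fil W n g) : Fil W (n + 1) (D W g) := by
  obtain ⟨p, q, rfl⟩ : ∃ p q, g = pq W p q := ⟨_, _, (pq_cp_cq W g).symm⟩
  rw [Fil_pq_iff] at hg
  obtain ⟨hp, hq⟩ := hg
  rw [D_pq, Fil_pq_iff]
  have hp' := Z_derivative hp
  have hq' := Z_derivative hq
  refine ⟨Z_add (Z_add ?_ ?_) ?_, Z_sub (Z_sub ?_ ?_) ?_⟩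
  · exact Z_mul' (Z_polyA W) hp' (by omega)
  · rw [mul_assoc]
    exact Z_ofNat_mul (Z_mul' (Z_polyB W) hq' (by omega))
  · exact Z_mul' (Z_dpolyB W) hq (by omega)
  · exact Z_mono (Z_ofNat_mul hp') (by omega)
  · exact Z_mul' (Z_polyA W) hq' (by omega)
  · exact Z_mul' (Z_dpolyA W) hq (by omega)

/-- the leading coefficient of `D g`. -/
theorem lc_D {n : ℕ} {g : W.CoordinateRing} (hg : Fil W n g) :
    lc W (n + 1) (D W g) = (n : K) * lc W n g := by
  obtain ⟨p, q, rfl⟩ : ∃ p q, g = pq W p q := ⟨_, _, (pq_cp_cq W g).symm⟩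
  rw [Fil_pq_iff] at hg
  obtain ⟨hp, hq⟩ := hg
  rw [D_pq, lc_pq, lc_pq]
  have hp' := Z_derivative hp
  have hq' := Z_derivative hq
  obtain ⟨a, rfl | rfl⟩ := Nat.even_or_odd' n
  · rw [if_neg (by omega), if_pos (by omega)]
    have e1 : (2 * a + 1 - 3) / 2 = a - 1 := by omega
    have e2 : 2 * a / 2 = a := by omega
    have e3 : (2 * a - 1) / 2 = a - 1 := by omega
    rw [e1, e2]
    replace hp : Z p (a + 1) := Z_mono hp (by omega)
    replace hp' : Z (derivative p) a := Z_mono hp' (by omega)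
    replace hq : Z q (a - 1) := Z_mono hq (by omega)
    replace hq' : Z (derivative q) (a - 1 - 1) := Z_mono hq' (by omega)
    rw [coeff_sub, coeff_sub]
    have h1 : Z (polyA W * derivative q) (a - 1) := Z_mul' (Z_polyA W) hq' (by omega)
    have h2 : Z (derivative (polyA W) * q) (a - 1) := Z_mul' (Z_dpolyA W) hq (by omega)
    rw [h1 _ le_rfl, h2 _ le_rfl, sub_zero, sub_zero]
    rcases Nat.eq_zero_or_pos a with ha | ha
    · subst ha
      have : derivative p = 0 := Z_eq_zero hp'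
      rw [this]; simp
    · obtain ⟨a', rfl⟩ : ∃ a', a = a' + 1 := ⟨a - 1, by omega⟩
      have e4 : a' + 1 - 1 = a' := by omega
      rw [e4]
      have : (2 * derivative p).coeff a' = 2 * (derivative p).coeff a' := by
        rw [show (2 : K[X]) * derivative p = derivative p + derivative p by ring, coeff_add]
        ring
      rw [this, coeff_derivative]
      push_cast
      ring
  · rw [if_pos (by omega), if_neg (by omega)]
    have e1 : (2 * a + 1 + 1) / 2 = a + 1 := by omega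
    have e2 : (2 * a + 1 - 3) / 2 = a - 1 := by omega
    have e3 : (2 * a + 1 - 1) / 2 = a := by omega
    have e4 : (2 * a + 1) / 2 + 1 - 1 = a := by omega
    rw [e1, e2]
    replace hp' : Z (derivative p) a := Z_mono hp' (by omega)
    replace hq : Z q a := Z_mono hq (by omega)
    replace hq' : Z (derivative q) (a - 1) := Z_mono hq' (by omega)
    rw [coeff_add, coeff_add]
    have h1 : Z (polyA W * derivative p) (a + 1) := Z_mul' (Z_polyA W) hp' (by omega)
    rw [h1 _ le_rfl, zero_add]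
    rcases Nat.eq_zero_or_pos a with ha | ha
    · subst ha
      rw [Z_eq_zero hq]; simp
    obtain ⟨a', rfl⟩ : ∃ a', a = a' + 1 := ⟨a - 1, by omega⟩
    have e5 : a' + 1 - 1 = a' := by omega
    rw [e5] at hq' ⊢
    have h3 : (derivative (polyB W) * q).coeff (a' + 1 + 1) = 3 * q.coeff a' := by
      have := coeff_mul_top (a := 2) (b := a') (Z_dpolyB W) hq
      rw [show a' + 1 + 1 = 2 + a' by omega, this, coeff_dpolyB_two]
    have h4 : (2 * polyB W * derivative q).coeff (a' + 1 + 1) = 2 * (a' : K) * q.coeff a' := by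
      have h5 : (2 * polyB W * derivative q) = polyB W * derivative q + polyB W * derivative q := by
        ring
      rw [h5, coeff_add]
      rcases Nat.eq_zero_or_pos a' with ha' | ha'
      · subst ha'
        rw [Z_eq_zero hq']; simp
      obtain ⟨a'', rfl⟩ : ∃ a'', a' = a'' + 1 := ⟨a' - 1, by omega⟩
      have := coeff_mul_top (a := 3) (b := a'') (Z_polyB W) hq'
      rw [show a'' + 1 + 1 + 1 = 3 + a'' by omega, this, coeff_polyB_three, coeff_derivative]
      push_cast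
      ring
    rw [h3, h4]
    push_cast
    ring

end Fermat.Agent.S13.Wr
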