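import Fermat.Agent.S13.W.H1_Defs
import Fermat.Agent.S13.W.H14_Span

/-!
# S13, package W, leaf C (helper22): the norm and the pole-order filtration

For `g = p + q Y` in the coordinate ring, `nrm W g = p² - p q A - q² B`.

* `C_nrm_mul` : `nrm` is multiplicative;
* `C_nrm_Z` : if `g` has pole order `≤ n` then `nrm W g` has degree `≤ n` and its coefficient
  of index `n` is `(-1) ^ n * (lc W n g) ^ 2`;
* `C_Fil_of_natDegree` : over a domain, `natDegree (nrm W g) ≤ n` implies `Fil W n g`.
-/

set_option autoImplicit false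

open Polynomial
open scoped Polynomial.Bivariate

namespace Fermat.Agent.S13.Wr

universe u

open WeierstrassCurve.Affine

/-- `nrm` is multiplicative. -/
theorem C_nrm_mul {K : Type u} [CommRing K] (W : WeierstrassCurve.Affine K)
    (g h : W.CoordinateRing) : nrm W (g * h) = nrm W g * nrm W h := by
  rw [← norm_eq_nrm, ← norm_eq_nrm, ← norm_eq_nrm, map_mul]

theorem h22_nrm_one {K : Type u} [CommRing K] (W : WeierstrassCurve.Affine K) :
    nrm W (1 : W.CoordinateRing) = 1 := by
  rw [← norm_eq_nrm, map_one]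

theorem h22_nrm_pow {K : Type u} [CommRing K] (W : WeierstrassCurve.Affine K)
    (g : W.CoordinateRing) (k : ℕ) : nrm W (g ^ k) = nrm W g ^ k := by
  rw [← norm_eq_nrm, ← norm_eq_nrm, map_pow]

/-- the coefficient of index `2 a` of `p ^ 2` when `deg p ≤ a`. -/
theorem h22_coeff_sq {K : Type u} [CommRing K] {p : K[X]} {a : ℕ} (hp : Z p (a + 1)) :
    (p ^ 2).coeff (2 * a) = p.coeff a ^ 2 := by
  rw [pow_two, pow_two, two_mul]
  exact coeff_mul_top hp hp

/-- the coefficient of index `2 a + 3` of `q ^ 2 * B` when `deg q ≤ a`. -/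
theorem h22_coeff_sq_mul_polyB {K : Type u} [CommRing K] (W : WeierstrassCurve.Affine K)
    {q : K[X]} {a : ℕ} (hq : Z q (a + 1)) :
    (q ^ 2 * polyB W).coeff (2 * a + 3) = q.coeff a ^ 2 := by
  have h2 : Z (q ^ 2) (2 * a + 1) := by
    rw [pow_two]
    exact Z_mul' hq hq (by omega)
  rw [coeff_mul_top h2 (Z_polyB W), coeff_polyB_three, mul_one, h22_coeff_sq hq]

/-- **Leaf C.** If `g` has pole order `≤ n` at infinity, then its norm has degree `≤ n` and the
coefficient of index `n` is `(-1) ^ n` times the square of the leading coefficient of `g`. -/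
theorem C_nrm_Z {K : Type u} [CommRing K] (W : WeierstrassCurve.Affine K) {n : ℕ}
    {g : W.CoordinateRing} (hg : Fil W n g) :
    Z (nrm W g) (n + 1) ∧ (nrm W g).coeff n = (-1) ^ n * lc W n g ^ 2 := by
  obtain ⟨p, q, rfl⟩ : ∃ p q, g = pq W p q := ⟨_, _, (pq_cp_cq W g).symm⟩
  rw [Fil_pq_iff] at hg
  obtain ⟨hp, hq⟩ := hg
  rw [nrm_pq, lc_pq]
  -- the middle term has degree `< n`
  have hmid : Z (p * q * polyA W) n := Z_mul3' hp hq (Z_polyA W) (by omega)
  have hpp : Z (p ^ 2) (n + 1) := by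
    rw [pow_two]
    exact Z_mul' hp hp (by omega)
  have hqq : Z (q ^ 2 * polyB W) (n + 1) := by
    rw [pow_two]
    exact Z_mul3' hq hq (Z_polyB W) (by omega)
  refine ⟨Z_sub (Z_sub hpp (Z_mono hmid (by omega))) hqq, ?_⟩
  rw [coeff_sub, coeff_sub, hmid n le_rfl, sub_zero]
  rcases Nat.even_or_odd' n with ⟨a, rfl | rfl⟩
  · -- `n = 2 a`
    have hp' : Z p (a + 1) := by
      have : 2 * a / 2 + 1 = a + 1 := by omega
      rwa [this] at hp
    have hqB : (q ^ 2 * polyB W).coeff (2 * a) = 0 := by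
      have : Z (q ^ 2 * polyB W) (2 * a) := by
        rw [pow_two]
        exact Z_mul3' hq hq (Z_polyB W) (by omega)
      exact this _ le_rfl
    rw [hqB, sub_zero, h22_coeff_sq hp', if_pos (by omega)]
    have h1 : 2 * a / 2 = a := by omega
    rw [h1, pow_mul]
    simp
  · -- `n = 2 a + 1`
    have hpp0 : (p ^ 2).coeff (2 * a + 1) = 0 := by
      have : Z (p ^ 2) (2 * a + 1) := by
        rw [pow_two]
        exact Z_mul' hp hp (by omega)
      exact this _ le_rfl
    rw [hpp0, zero_sub, if_neg (by omega)]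
    have hodd : (-1 : K) ^ (2 * a + 1) = -1 := by
      rw [pow_succ, pow_mul]
      simp
    rw [hodd]
    rcases Nat.eq_zero_or_pos a with ha | ha
    · -- `n = 1`: `q = 0`
      subst ha
      have hq0 : q = 0 := Z_eq_zero (by simpa using hq)
      subst hq0
      simp
    · obtain ⟨b, rfl⟩ : ∃ b, a = b + 1 := ⟨a - 1, by omega⟩
      have hq' : Z q (b + 1) := by
        have : (2 * (b + 1) + 1 - 1) / 2 = b + 1 := by omega
        rwa [this] at hq
      have h1 : 2 * (b + 1) + 1 = 2 * b + 3 := by ring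
      have h2 : (2 * (b + 1) + 1 - 3) / 2 = b := by omega
      rw [h2, h1, h22_coeff_sq_mul_polyB W hq']
      ring

/-- the degree form of `C_nrm_Z`. -/
theorem h22_natDegree_nrm_le {K : Type u} [CommRing K] (W : WeierstrassCurve.Affine K) {n : ℕ}
    {g : W.CoordinateRing} (hg : Fil W n g) : (nrm W g).natDegree ≤ n :=
  Z_natDegree (C_nrm_Z W hg).1

/-- **Leaf C, converse.** Over a domain, a function whose norm has degree `≤ n` has pole order
`≤ n`. -/
theorem C_Fil_of_natDegree {K : Type u} [CommRing K] [IsDomain K] (W : WeierstrassCurve.Affine K)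
    {n : ℕ} {g : W.CoordinateRing} (hg : (nrm W g).natDegree ≤ n) : Fil W n g := by
  rw [← norm_eq_nrm] at hg
  exact (Fermat.Agent.S13.W.H14.natDegree_norm_le_iff W g n).1 hg

/-- Over a domain: pole order `≤ n` iff the norm has degree `≤ n`. -/
theorem h22_Fil_iff_natDegree_nrm {K : Type u} [CommRing K] [IsDomain K]
    (W : WeierstrassCurve.Affine K) (n : ℕ) (g : W.CoordinateRing) :
    Fil W n g ↔ (nrm W g).natDegree ≤ n :=
  ⟨h22_natDegree_nrm_le W, C_Fil_of_natDegree W⟩

/-- The leading coefficient of the norm: if `g` has pole order `≤ n` and `lc W n g ≠ 0` has a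
nonzero square, the norm has degree exactly `n`. -/
theorem h22_natDegree_nrm_eq {K : Type u} [CommRing K] (W : WeierstrassCurve.Affine K) {n : ℕ}
    {g : W.CoordinateRing} (hg : Fil W n g) (hlc : lc W n g ^ 2 ≠ 0) :
    (nrm W g).natDegree = n ∧ (nrm W g).leadingCoeff = (-1) ^ n * lc W n g ^ 2 := by
  obtain ⟨h1, h2⟩ := C_nrm_Z W hg
  have hne : (nrm W g).coeff n ≠ 0 := by
    rw [h2]
    intro h0
    apply hlc
    have : ((-1 : K) ^ n) * ((-1) ^ n * lc W n g ^ 2) = lc W n g ^ 2 := by
      rw [← mul_assoc, ← pow_two, ← pow_mul, mul_comm n 2, pow_mul]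
      simp
    rw [← this, h0, mul_zero]
  have hdeg : (nrm W g).natDegree = n :=
    le_antisymm (Z_natDegree h1) (le_natDegree_of_ne_zero hne)
  exact ⟨hdeg, by rw [leadingCoeff, hdeg, h2]⟩

end Fermat.Agent.S13.Wr
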