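import Mathlib
import Fermat.Prelude.Def_FLTPrelim_FreyPackage
import Fermat.Prelude.Def_FLTPrelim_GaloisRep
import Fermat.Prelude.Def_FLTPrelim_Ramification
import Fermat.Prelude.Def_FLTPrelim_CofixedLine
import Fermat.Agent.S05.H22_VarChange

/-!
# S13, package W, leaf [W-d] (helper22): transport along a rational change of variables

For Weierstrass curves `W₀`, `W₁ = C₀ • W₀` over `ℚ` and a field extension `K` of `ℚ`, the
isomorphism of groups of points `vcEquivBC` of `S05/H22_VarChange` restricts to a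
`ZMod n`-linear equivalence of the `n`-torsion modules which commutes with the action of
`K ≃ₐ[ℚ] K`.  Every statement about the Galois module `E[n]` can therefore be transported.

* `torsionEquiv` : the equivalence, `torsionEquiv_smul` : equivariance;
* `card_torsion_eq`, `nontrivial_torsion_iff`, `finite_torsion_iff`;
* `isGaloisStable_map_iff`, `fixes_map_iff`, `cofixes_map_iff`;
* `galoisRepIsIrreducible_iff_of_vc`, `hasGaloisStableCofixedLine_iff_of_vc`.
-/

set_option autoImplicit false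
set_option linter.unusedSectionVars false

open WeierstrassCurve WeierstrassCurve.Affine WeierstrassCurve.Affine.Point

namespace Fermat.Agent.S13.W.Tr

open Fermat.Agent.S05.H22

variable {K : Type*} [Field K] [DecidableEq K] [Algebra ℚ K]
  (C₀ : VariableChange ℚ) {W₀ W₁ : WeierstrassCurve ℚ} (h : W₁ = C₀ • W₀) (n : ℕ)

/-- The points of `W₁ = C₀ • W₀` killed by `n` are mapped to points of `W₀` killed by `n`. -/
theorem h22_vc_mem_torsionBy {P : (W₁⁄K).Point}
    (hP : P ∈ Submodule.torsionBy ℤ (W₁⁄K).Point n) :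
    vcEquivBC C₀ h K P ∈ Submodule.torsionBy ℤ (W₀⁄K).Point n := by
  rw [Submodule.mem_torsionBy_iff] at hP ⊢
  rw [← _root_.map_zsmul, hP, _root_.map_zero]

theorem h22_vc_symm_mem_torsionBy {P : (W₀⁄K).Point}
    (hP : P ∈ Submodule.torsionBy ℤ (W₀⁄K).Point n) :
    (vcEquivBC C₀ h K).symm P ∈ Submodule.torsionBy ℤ (W₁⁄K).Point n := by
  rw [Submodule.mem_torsionBy_iff] at hP ⊢
  rw [← _root_.map_zsmul, hP, _root_.map_zero]

/-- The additive equivalence of the `n`-torsion subgroups induced by a change of variables. -/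
noncomputable def torsionAddEquiv :
    Submodule.torsionBy ℤ (W₁⁄K).Point n ≃+ Submodule.torsionBy ℤ (W₀⁄K).Point n where
  toFun x := ⟨vcEquivBC C₀ h K x.1, h22_vc_mem_torsionBy C₀ h n x.2⟩
  invFun x := ⟨(vcEquivBC C₀ h K).symm x.1, h22_vc_symm_mem_torsionBy C₀ h n x.2⟩
  left_inv x := Subtype.ext ((vcEquivBC C₀ h K).symm_apply_apply x.1)
  right_inv x := Subtype.ext ((vcEquivBC C₀ h K).apply_symm_apply x.1)
  map_add' x y := Subtype.ext (map_add (vcEquivBC C₀ h K) x.1 y.1)

/-- **Transport of torsion.** The `ZMod n`-linear equivalence of the `n`-torsion modules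
induced by a change of variables over `ℚ`. -/
noncomputable def torsionEquiv :
    Submodule.torsionBy ℤ (W₁⁄K).Point n ≃ₗ[ZMod n] Submodule.torsionBy ℤ (W₀⁄K).Point n :=
  { torsionAddEquiv C₀ h n with
    map_smul' := fun c x => ZMod.map_smul (torsionAddEquiv C₀ h n).toAddMonoidHom c x }

@[simp]
theorem coe_torsionEquiv (x : Submodule.torsionBy ℤ (W₁⁄K).Point n) :
    ((torsionEquiv C₀ h n x : Submodule.torsionBy ℤ (W₀⁄K).Point n) : (W₀⁄K).Point) =
      vcEquivBC C₀ h K x.1 := rfl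

@[simp]
theorem coe_torsionEquiv_symm (x : Submodule.torsionBy ℤ (W₀⁄K).Point n) :
    (((torsionEquiv C₀ h n).symm x : Submodule.torsionBy ℤ (W₁⁄K).Point n) : (W₁⁄K).Point) =
      (vcEquivBC C₀ h K).symm x.1 := rfl

/-- The transport commutes with the Galois action. -/
theorem torsionEquiv_smul (σ : K ≃ₐ[ℚ] K) (x : Submodule.torsionBy ℤ (W₁⁄K).Point n) :
    torsionEquiv C₀ h n (σ • x) = σ • torsionEquiv C₀ h n x :=
  Subtype.ext (vcEquivBC_smul C₀ h σ x.1)

theorem torsionEquiv_symm_smul (σ : K ≃ₐ[ℚ] K) (x : Submodule.torsionBy ℤ (W₀⁄K).Point n) :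
    (torsionEquiv C₀ h n).symm (σ • x) = σ • (torsionEquiv C₀ h n).symm x := by
  apply (torsionEquiv C₀ h n).injective
  rw [torsionEquiv_smul, LinearEquiv.apply_symm_apply, LinearEquiv.apply_symm_apply]

/-! ### Cardinality -/

include C₀ h in
theorem card_torsion_eq :
    Nat.card (Submodule.torsionBy ℤ (W₁⁄K).Point n) =
      Nat.card (Submodule.torsionBy ℤ (W₀⁄K).Point n) :=
  Nat.card_congr (torsionEquiv (K := K) C₀ h n).toEquiv

include C₀ h in
theorem nontrivial_torsion_iff :
    Nontrivial (Submodule.torsionBy ℤ (W₁⁄K).Point n) ↔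
      Nontrivial (Submodule.torsionBy ℤ (W₀⁄K).Point n) :=
  (torsionEquiv (K := K) C₀ h n).toEquiv.nontrivial_congr

include C₀ h in
theorem finite_torsion_iff :
    Finite (Submodule.torsionBy ℤ (W₁⁄K).Point n) ↔
      Finite (Submodule.torsionBy ℤ (W₀⁄K).Point n) :=
  (torsionEquiv (K := K) C₀ h n).toEquiv.finite_iff

/-! ### Submodules -/

/-- Transport of a submodule of the torsion. -/
noncomputable abbrev mapSub (N : Submodule (ZMod n) (Submodule.torsionBy ℤ (W₁⁄K).Point n)) :
    Submodule (ZMod n) (Submodule.torsionBy ℤ (W₀⁄K).Point n) :=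
  N.map (torsionEquiv (K := K) C₀ h n).toLinearMap

theorem mem_mapSub_iff {N : Submodule (ZMod n) (Submodule.torsionBy ℤ (W₁⁄K).Point n)}
    {y : Submodule.torsionBy ℤ (W₀⁄K).Point n} :
    y ∈ mapSub C₀ h n N ↔ (torsionEquiv C₀ h n).symm y ∈ N := by
  constructor
  · rintro ⟨x, hx, rfl⟩
    simpa using hx
  · intro hy
    exact ⟨_, hy, by simp⟩

theorem apply_mem_mapSub_iff {N : Submodule (ZMod n) (Submodule.torsionBy ℤ (W₁⁄K).Point n)}
    {x : Submodule.torsionBy ℤ (W₁⁄K).Point n} :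
    torsionEquiv C₀ h n x ∈ mapSub C₀ h n N ↔ x ∈ N := by
  rw [mem_mapSub_iff, LinearEquiv.symm_apply_apply]

theorem mapSub_eq_bot_iff {N : Submodule (ZMod n) (Submodule.torsionBy ℤ (W₁⁄K).Point n)} :
    mapSub C₀ h n N = ⊥ ↔ N = ⊥ :=
  Submodule.map_eq_bot_iff (e := torsionEquiv (K := K) C₀ h n)

theorem mapSub_eq_top_iff {N : Submodule (ZMod n) (Submodule.torsionBy ℤ (W₁⁄K).Point n)} :
    mapSub C₀ h n N = ⊤ ↔ N = ⊤ :=
  Submodule.map_eq_top_iff (e := torsionEquiv (K := K) C₀ h n)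

/-- Every submodule of the torsion of `W₀` comes from a submodule of the torsion of `W₁`. -/
theorem exists_mapSub_eq (N' : Submodule (ZMod n) (Submodule.torsionBy ℤ (W₀⁄K).Point n)) :
    ∃ N : Submodule (ZMod n) (Submodule.torsionBy ℤ (W₁⁄K).Point n), mapSub C₀ h n N = N' :=
  ⟨N'.comap (torsionEquiv (K := K) C₀ h n).toLinearMap,
    Submodule.map_comap_eq_of_surjective (torsionEquiv C₀ h n).surjective N'⟩

theorem isGaloisStable_mapSub_iff
    {N : Submodule (ZMod n) (Submodule.torsionBy ℤ (W₁⁄K).Point n)} :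
    IsGaloisStable ℚ (mapSub C₀ h n N) ↔ IsGaloisStable ℚ N := by
  constructor
  · intro hN σ x hx
    have := hN σ _ ((apply_mem_mapSub_iff C₀ h n).2 hx)
    rwa [← torsionEquiv_smul, apply_mem_mapSub_iff] at this
  · intro hN σ y hy
    rw [mem_mapSub_iff] at hy ⊢
    rw [torsionEquiv_symm_smul]
    exact hN σ _ hy

/-- `σ` fixes `N` pointwise iff it fixes the transported submodule pointwise. -/
theorem fixes_mapSub_iff (σ : K ≃ₐ[ℚ] K)
    {N : Submodule (ZMod n) (Submodule.torsionBy ℤ (W₁⁄K).Point n)} :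
    (∀ y ∈ mapSub C₀ h n N, σ • y = y) ↔ ∀ x ∈ N, σ • x = x := by
  constructor
  · intro hN x hx
    have := hN _ ((apply_mem_mapSub_iff C₀ h n).2 hx)
    rw [← torsionEquiv_smul] at this
    exact (torsionEquiv C₀ h n).injective this
  · intro hN y hy
    rw [mem_mapSub_iff] at hy
    have := hN _ hy
    rw [← torsionEquiv_symm_smul] at this
    exact (torsionEquiv C₀ h n).symm.injective this

/-- `σ` acts trivially modulo `N` iff it acts trivially modulo the transported submodule. -/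
theorem cofixes_mapSub_iff (σ : K ≃ₐ[ℚ] K)
    {N : Submodule (ZMod n) (Submodule.torsionBy ℤ (W₁⁄K).Point n)} :
    (∀ y : Submodule.torsionBy ℤ (W₀⁄K).Point n, σ • y - y ∈ mapSub C₀ h n N) ↔
      ∀ x : Submodule.torsionBy ℤ (W₁⁄K).Point n, σ • x - x ∈ N := by
  constructor
  · intro hN x
    have := hN (torsionEquiv C₀ h n x)
    rwa [← torsionEquiv_smul, ← map_sub, apply_mem_mapSub_iff] at this
  · intro hN y
    rw [mem_mapSub_iff, map_sub, torsionEquiv_symm_smul]
    exact hN _

include C₀ h in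
/-- `σ` fixes the whole torsion of `W₁` iff it fixes the whole torsion of `W₀`. -/
theorem fixes_torsion_iff (σ : K ≃ₐ[ℚ] K) :
    (∀ y : Submodule.torsionBy ℤ (W₀⁄K).Point n, σ • y = y) ↔
      ∀ x : Submodule.torsionBy ℤ (W₁⁄K).Point n, σ • x = x := by
  constructor
  · intro hN x
    have := hN (torsionEquiv C₀ h n x)
    rw [← torsionEquiv_smul] at this
    exact (torsionEquiv C₀ h n).injective this
  · intro hN y
    have := hN ((torsionEquiv C₀ h n).symm y)
    rw [← torsionEquiv_symm_smul] at this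
    exact (torsionEquiv C₀ h n).symm.injective this

include C₀ h in
/-- `σ` is unipotent on the torsion of `W₁` iff it is unipotent on the torsion of `W₀`. -/
theorem unipotent_torsion_iff (σ : K ≃ₐ[ℚ] K) :
    (∀ y : Submodule.torsionBy ℤ (W₀⁄K).Point n, σ • (σ • y - y) = σ • y - y) ↔
      ∀ x : Submodule.torsionBy ℤ (W₁⁄K).Point n, σ • (σ • x - x) = σ • x - x := by
  constructor
  · intro hN x
    have := hN (torsionEquiv C₀ h n x)
    rw [← torsionEquiv_smul, ← map_sub, ← torsionEquiv_smul] at this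
    exact (torsionEquiv C₀ h n).injective this
  · intro hN y
    have := hN ((torsionEquiv C₀ h n).symm y)
    rw [← torsionEquiv_symm_smul, ← map_sub, ← torsionEquiv_symm_smul] at this
    exact (torsionEquiv C₀ h n).symm.injective this

/-! ### The two properties of the statement of S13 -/

include C₀ h in
theorem galoisRepIsIrreducible_iff_of_vc :
    GaloisRepIsIrreducible (K := K) ℚ W₀ n ↔ GaloisRepIsIrreducible (K := K) ℚ W₁ n := by
  constructor
  · rintro ⟨hnt, hN⟩
    refine ⟨(nontrivial_torsion_iff C₀ h n).2 hnt, fun N hst => ?_⟩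
    rcases hN (mapSub C₀ h n N) ((isGaloisStable_mapSub_iff C₀ h n).2 hst) with h0 | h1
    · exact Or.inl ((mapSub_eq_bot_iff C₀ h n).1 h0)
    · exact Or.inr ((mapSub_eq_top_iff C₀ h n).1 h1)
  · rintro ⟨hnt, hN⟩
    refine ⟨(nontrivial_torsion_iff C₀ h n).1 hnt, fun N' hst => ?_⟩
    obtain ⟨N, rfl⟩ := exists_mapSub_eq C₀ h n N'
    rcases hN N ((isGaloisStable_mapSub_iff C₀ h n).1 hst) with h0 | h1
    · exact Or.inl ((mapSub_eq_bot_iff C₀ h n).2 h0)
    · exact Or.inr ((mapSub_eq_top_iff C₀ h n).2 h1)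

include C₀ h in
theorem hasGaloisStableCofixedLine_iff_of_vc :
    HasGaloisStableCofixedLine (K := K) ℚ W₀ n ↔ HasGaloisStableCofixedLine (K := K) ℚ W₁ n := by
  constructor
  · rintro ⟨N', hst, h0, h1, hco⟩
    obtain ⟨N, rfl⟩ := exists_mapSub_eq C₀ h n N'
    exact ⟨N, (isGaloisStable_mapSub_iff C₀ h n).1 hst,
      fun e => h0 ((mapSub_eq_bot_iff C₀ h n).2 e),
      fun e => h1 ((mapSub_eq_top_iff C₀ h n).2 e),
      fun σ => (cofixes_mapSub_iff C₀ h n σ).1 (hco σ)⟩
  · rintro ⟨N, hst, h0, h1, hco⟩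
    exact ⟨mapSub C₀ h n N, (isGaloisStable_mapSub_iff C₀ h n).2 hst,
      fun e => h0 ((mapSub_eq_bot_iff C₀ h n).1 e),
      fun e => h1 ((mapSub_eq_top_iff C₀ h n).1 e),
      fun σ => (cofixes_mapSub_iff C₀ h n σ).2 (hco σ)⟩

end Fermat.Agent.S13.W.Tr
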