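import Mathlib
import Fermat.Agent.S13.Lp.H25_PsiData
import Fermat.Agent.S13.Lp.H23_C3Inst
import Fermat.Agent.S13.W.H6_Conseq
import Fermat.Agent.S13.W.H22_Transport

/-!
# S13, package W (helper24): the deliverable `StTweak P`

`E[p] ≠ 0`, `E[p]` finite, `#E[p] ≤ p²` for the Frey curve, from the root criterion `psi_data` on
the short model (helper1 / helper25), its consequences (helper6) and the transport to the Frey
model (helper22).
-/

set_option autoImplicit false
set_option linter.unusedSectionVars false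
set_option linter.unusedVariables false

open WeierstrassCurve WeierstrassCurve.Affine WeierstrassCurve.Affine.Point Polynomial

namespace Fermat.Agent.S13.W.H24

open Fermat.Agent.S05 Fermat.Agent.S13.Asm Fermat.Agent.S13.Lp

/-- The weak form of (T) on the short model. -/
theorem h24_tweak_short (P : FreyPackage) :
    Nontrivial (Submodule.torsionBy ℤ ((W1 P)⁄Kbar).Point (P.p : ℤ)) ∧
      Finite (Submodule.torsionBy ℤ ((W1 P)⁄Kbar).Point (P.p : ℤ)) ∧
      Nat.card (Submodule.torsionBy ℤ ((W1 P)⁄Kbar).Point (P.p : ℤ)) ≤ P.p ^ 2 := by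
  classical
  obtain ⟨Ψ, hdeg, hlc, hroot⟩ := Lp.psiData P
  have hp5 := P.hp5
  have hinj : Function.Injective (Int.castRingHom Kbar) := Int.cast_injective
  have hΨ0 : Ψ ≠ 0 := by
    rintro rfl
    exact hlc (by simp)
  have hPsi : Ψ.map (Int.castRingHom Kbar) ≠ 0 := (Polynomial.map_ne_zero_iff hinj).mpr hΨ0
  have hdeg' : (Ψ.map (Int.castRingHom Kbar)).natDegree = (P.p ^ 2 - 1) / 2 := by
    rw [natDegree_map_eq_of_injective hinj, hdeg]
  have hpos : 0 < (Ψ.map (Int.castRingHom Kbar)).natDegree := by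
    rw [hdeg']
    have : 25 ≤ P.p ^ 2 := by nlinarith
    omega
  refine Conseq.tweak (K := Kbar) (W := (W1 P)⁄Kbar) (n := P.p)
    (Psi := Ψ.map (Int.castRingHom Kbar)) (H23.h23_W1_Δ_ne_zero P) hPsi ?_ (by omega) hpos
    (le_of_eq hdeg')
  intro x y h
  rw [hroot x y h, aeval_def, eval₂_eq_eval_map]
  rfl

/-- **Deliverable (T), weak form**: `E[p] ≠ 0`, finite, of cardinality at most `p²`. -/
theorem h24_stTweak (P : FreyPackage) : StTweak P := by
  obtain ⟨h1, h2, h3⟩ := h24_tweak_short P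
  refine ⟨?_, ?_, ?_⟩
  · exact (Tr.nontrivial_torsion_iff (K := Kbar) (H27.freyVC P P.p)
      (W₀ := P.freyCurve) (W₁ := W1 P) rfl P.p).mp h1
  · exact (Tr.finite_torsion_iff (K := Kbar) (H27.freyVC P P.p)
      (W₀ := P.freyCurve) (W₁ := W1 P) rfl P.p).mp h2
  · rw [← Tr.card_torsion_eq (K := Kbar) (H27.freyVC P P.p)
      (W₀ := P.freyCurve) (W₁ := W1 P) rfl P.p]
    exact h3

end Fermat.Agent.S13.W.H24
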