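import Mathlib

/-!
# S13, package W (helper26): degree and top coefficient of a determinant of polynomials

If `natDegree (M i j) ≤ a i + b j` for all `i j`, then `natDegree (det M) ≤ Σ a + Σ b` and the
coefficient of `det M` in degree `Σ a + Σ b` is the determinant of the matrix of the
coefficients of `M i j` in degree `a i + b j`.
-/

set_option autoImplicit false

open Polynomial Finset

namespace Fermat.Agent.S13.W.H26

variable {R : Type*} [CommRing R]

/-- Degree bound for a finite product with individual degree bounds. -/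
theorem natDegree_prod_le_sum {ι : Type*} (s : Finset ι) (f : ι → R[X]) (d : ι → ℕ)
    (h : ∀ i ∈ s, (f i).natDegree ≤ d i) :
    (∏ i ∈ s, f i).natDegree ≤ ∑ i ∈ s, d i :=
  (natDegree_prod_le s f).trans (Finset.sum_le_sum h)

/-- Top coefficient of a finite product with individual degree bounds. -/
theorem coeff_prod_sum {ι : Type*} [DecidableEq ι] (s : Finset ι) (f : ι → R[X]) (d : ι → ℕ)
    (h : ∀ i ∈ s, (f i).natDegree ≤ d i) :
    (∏ i ∈ s, f i).coeff (∑ i ∈ s, d i) = ∏ i ∈ s, (f i).coeff (d i) := by
  induction s using Finset.induction_on with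
  | empty => simp
  | insert i s hi ih =>
    rw [Finset.prod_insert hi, Finset.sum_insert hi, Finset.prod_insert hi]
    have h1 : (f i).natDegree ≤ d i := h i (Finset.mem_insert_self i s)
    have h2 : (∏ j ∈ s, f j).natDegree ≤ ∑ j ∈ s, d j :=
      natDegree_prod_le_sum s f d fun j hj => h j (Finset.mem_insert_of_mem hj)
    rw [coeff_mul_add_eq_of_natDegree_le h1 h2, ih fun j hj => h j (Finset.mem_insert_of_mem hj)]

variable {n : Type*} [Fintype n] [DecidableEq n]

/-- **Graded determinant, degree bound.** -/
theorem natDegree_det_le_of_le (M : Matrix n n R[X]) (a b : n → ℕ)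
    (h : ∀ i j, (M i j).natDegree ≤ a i + b j) :
    (M.det).natDegree ≤ ∑ i, a i + ∑ j, b j := by
  rw [Matrix.det_apply]
  refine natDegree_sum_le_of_forall_le _ _ fun σ _ => ?_
  refine (natDegree_smul_le _ _).trans ?_
  refine (natDegree_prod_le_sum _ _ (fun i => a (σ i) + b i) fun i _ => h _ _).trans ?_
  rw [Finset.sum_add_distrib, Equiv.sum_comp σ a]

/-- **Graded determinant, top coefficient.** -/
theorem coeff_det_of_le (M : Matrix n n R[X]) (a b : n → ℕ)
    (h : ∀ i j, (M i j).natDegree ≤ a i + b j) :
    (M.det).coeff (∑ i, a i + ∑ j, b j) =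
      (Matrix.of fun i j => (M i j).coeff (a i + b j)).det := by
  rw [Matrix.det_apply, Matrix.det_apply, finsetSum_coeff]
  refine Finset.sum_congr rfl fun σ _ => ?_
  have hs : ∑ i, a i + ∑ j, b j = ∑ i, (a (σ i) + b i) := by
    rw [Finset.sum_add_distrib, Equiv.sum_comp σ a]
  have hc := coeff_prod_sum Finset.univ (fun i => M (σ i) i) (fun i => a (σ i) + b i)
    fun i _ => h _ _
  rw [← hs] at hc
  rcases Int.units_eq_one_or (Equiv.Perm.sign σ) with hσ | hσ
  · rw [hσ, one_smul, one_smul, hc]
    rfl
  · rw [hσ, Units.neg_smul, Units.neg_smul, one_smul, one_smul, coeff_neg, hc]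
    rfl

/-- **Graded determinant**: if the determinant of top coefficients is nonzero, the degree of
`det M` is exactly `Σ a + Σ b` and its leading coefficient is that determinant. -/
theorem natDegree_det_eq_of_le (M : Matrix n n R[X]) (a b : n → ℕ)
    (h : ∀ i j, (M i j).natDegree ≤ a i + b j)
    (hne : (Matrix.of fun i j => (M i j).coeff (a i + b j)).det ≠ 0) :
    (M.det).natDegree = ∑ i, a i + ∑ j, b j ∧
      (M.det).leadingCoeff = (Matrix.of fun i j => (M i j).coeff (a i + b j)).det := by
  have hle := natDegree_det_le_of_le M a b h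
  have hco := coeff_det_of_le M a b h
  have heq : (M.det).natDegree = ∑ i, a i + ∑ j, b j := by
    refine le_antisymm hle (le_natDegree_of_ne_zero ?_)
    rw [hco]
    exact hne
  exact ⟨heq, by rw [leadingCoeff, heq, hco]⟩

end Fermat.Agent.S13.W.H26
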