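import Mathlib
import Fermat.Agent.S13.W.H26_GradedDet

/-!
# S13, package W (helper26): the Wronskian of `L(p·O)` on `y² = f(x)` as a determinant over `R[X]`

On the curve `y² = f(x)` (`f` monic of degree `3`) the invariant derivation is
`D (A + B y) = (2 f B' + f' B) + (2 A') y`.  Every `D^i` of a monomial `x^a` or `x^b y` is *pure*
(of the form `A` or `B y`); `comp f n i` is the polynomial part of `D^i` applied to the
monomial of weighted degree `n` (`x^(n/2)` for even `n`, `x^((n-3)/2) y` for odd `n`).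

The Wronskian `det (D^i f_j)` of the `p` monomials of weighted degrees `0, 2, 3, …, p` equals
`det (wrMatrix f p)`, a determinant over `R[X]` (`wrPoly f p`), and

* `natDegree (wrPoly f p) = (p² - 1) / 2`,
* `leadingCoeff (wrPoly f p) = ∏_{j<k} (n_k - n_j)` (Vandermonde of `0, 2, 3, …, p`),
  which is divisible by `p` exactly once.
-/

set_option autoImplicit false

open Polynomial Finset

namespace Fermat.Agent.S13.W.H26

variable {R : Type*} [CommRing R]

/-- `D` on an element `A` (no `y`): the result is `(2 A') y`. -/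
noncomputable def dA (g : R[X]) : R[X] := C 2 * derivative g

/-- `D` on an element `B y`: the result is `2 f B' + f' B` (no `y`). -/
noncomputable def dB (f g : R[X]) : R[X] := C 2 * f * derivative g + derivative f * g

/-- The `x`-degree of the pure element of weighted degree `w`. -/
def xdeg (w : ℕ) : ℕ := if Even w then w / 2 else (w - 3) / 2

/-- The polynomial part of `D^i` applied to the monomial of weighted degree `n`. -/
noncomputable def comp (f : R[X]) (n : ℕ) : ℕ → R[X]
  | 0 => X ^ xdeg n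
  | i + 1 => if Even (n + i) then dA (comp f n i) else dB f (comp f n i)

@[simp] lemma comp_zero (f : R[X]) (n : ℕ) : comp f n 0 = X ^ xdeg n := rfl

lemma comp_succ (f : R[X]) (n i : ℕ) :
    comp f n (i + 1) = if Even (n + i) then dA (comp f n i) else dB f (comp f n i) := rfl

lemma dA_zero : dA (0 : R[X]) = 0 := by simp [dA]

lemma dB_zero (f : R[X]) : dB f (0 : R[X]) = 0 := by simp [dB]

/-- For `n = 0` (the constant function `1`) all derivatives vanish. -/
lemma comp_zero_left (f : R[X]) (i : ℕ) : comp f 0 (i + 1) = 0 := by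
  induction i with
  | zero => simp [comp_succ, dA, xdeg]
  | succ i ih =>
    rw [comp_succ, ih]
    split_ifs
    · exact dA_zero
    · exact dB_zero f

/-- Degree and top coefficient of `dA`. -/
lemma dA_spec {g : R[X]} {m : ℕ} (hg : g.natDegree ≤ m) :
    (dA g).natDegree ≤ m - 1 ∧ (dA g).coeff (m - 1) = (2 * m : ℕ) * g.coeff m := by
  constructor
  · refine (natDegree_C_mul_le _ _).trans ?_
    exact (natDegree_derivative_le g).trans (Nat.sub_le_sub_right hg 1)
  · rw [dA, coeff_C_mul, coeff_derivative]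
    rcases Nat.eq_zero_or_pos m with rfl | hm
    · have : g.coeff 1 = 0 := coeff_eq_zero_of_natDegree_lt (by omega)
      simp [this]
    · rw [Nat.sub_add_cancel hm]
      have : ((m - 1 : ℕ) : R) + 1 = (m : R) := by
        rw [← Nat.cast_succ, Nat.succ_eq_add_one, Nat.sub_add_cancel hm]
      rw [this]
      push_cast
      ring

/-- Degree and top coefficient of `dB`. -/
lemma dB_spec {f g : R[X]} (hf : f.Monic) (hf3 : f.natDegree = 3) {m : ℕ}
    (hg : g.natDegree ≤ m) :
    (dB f g).natDegree ≤ m + 2 ∧ (dB f g).coeff (m + 2) = (2 * m + 3 : ℕ) * g.coeff m := by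
  have hf' : (derivative f).natDegree ≤ 2 := by
    have := natDegree_derivative_le f
    omega
  have hg' : (derivative g).natDegree ≤ m - 1 :=
    (natDegree_derivative_le g).trans (Nat.sub_le_sub_right hg 1)
  have hcf' : (derivative f).coeff 2 = 3 := by
    rw [coeff_derivative]
    have : f.coeff 3 = 1 := by
      have := hf.coeff_natDegree
      rwa [hf3] at this
    rw [this]
    norm_num
  have h2f : (C (2 : R) * f).natDegree ≤ 3 := (natDegree_C_mul_le _ _).trans hf3.le
  have hc2f : (C (2 : R) * f).coeff 3 = 2 := by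
    rw [coeff_C_mul]
    have : f.coeff 3 = 1 := by
      have := hf.coeff_natDegree
      rwa [hf3] at this
    rw [this, mul_one]
  constructor
  · rw [dB]
    refine (natDegree_add_le _ _).trans (max_le ?_ ?_)
    · rcases Nat.eq_zero_or_pos m with rfl | hm
      · have hd : derivative g = 0 := by
          rw [eq_C_of_natDegree_le_zero hg, derivative_C]
        rw [hd, mul_zero, natDegree_zero]
        omega
      · refine (natDegree_mul_le_of_le h2f hg').trans ?_
        omega
    · refine (natDegree_mul_le_of_le hf' hg).trans ?_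
      omega
  · rw [dB, coeff_add]
    have h1 : (derivative f * g).coeff (m + 2) = 3 * g.coeff m := by
      rw [add_comm m 2, coeff_mul_add_eq_of_natDegree_le hf' hg, hcf']
    rw [h1]
    rcases Nat.eq_zero_or_pos m with rfl | hm
    · have hd : derivative g = 0 := by
        rw [eq_C_of_natDegree_le_zero hg, derivative_C]
      rw [hd, mul_zero, coeff_zero, zero_add]
      push_cast
      ring
    · have h2 : (C (2 : R) * f * derivative g).coeff (m + 2) = 2 * ((m : R) * g.coeff m) := by
        have : m + 2 = 3 + (m - 1) := by omega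
        rw [this, coeff_mul_add_eq_of_natDegree_le h2f hg', hc2f, coeff_derivative,
          Nat.sub_add_cancel hm]
        have : ((m - 1 : ℕ) : R) + 1 = (m : R) := by
          rw [← Nat.cast_succ, Nat.succ_eq_add_one, Nat.sub_add_cancel hm]
        rw [this]
        ring
      rw [h2]
      push_cast
      ring

/-- **Degree and top coefficient of `comp`**, for `n ≥ 2`. -/
theorem comp_spec {f : R[X]} (hf : f.Monic) (hf3 : f.natDegree = 3) {n : ℕ} (hn : 2 ≤ n)
    (i : ℕ) :
    (comp f n i).natDegree ≤ xdeg (n + i) ∧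
      (comp f n i).coeff (xdeg (n + i)) = (ascPochhammer R i).eval (n : R) := by
  induction i with
  | zero =>
    refine ⟨?_, ?_⟩
    · rw [comp_zero, add_zero]
      exact natDegree_X_pow_le _
    · rw [comp_zero, add_zero, coeff_X_pow, if_pos rfl, ascPochhammer_zero, eval_one]
  | succ i ih =>
    obtain ⟨ih1, ih2⟩ := ih
    rw [comp_succ, ascPochhammer_succ_eval, ← ih2]
    by_cases he : Even (n + i)
    · rw [if_pos he]
      have hx : xdeg (n + i) = (n + i) / 2 := by rw [xdeg, if_pos he]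
      have hx' : xdeg (n + (i + 1)) = (n + i) / 2 - 1 := by
        have hodd : ¬ Even (n + (i + 1)) := by
          rw [← add_assoc, Nat.even_add_one]
          exact not_not.mpr he
        rw [xdeg, if_neg hodd]
        obtain ⟨k, hk⟩ := he
        omega
      rw [hx] at ih1 ⊢
      obtain ⟨h1, h2⟩ := dA_spec ih1
      rw [hx']
      refine ⟨h1, ?_⟩
      rw [h2]
      have : 2 * ((n + i) / 2) = n + i := by
        obtain ⟨k, hk⟩ := he
        omega
      rw [this]
      push_cast
      ring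
    · rw [if_neg he]
      have hodd : Odd (n + i) := Nat.not_even_iff_odd.mp he
      have hx : xdeg (n + i) = (n + i - 3) / 2 := by rw [xdeg, if_neg he]
      have hge : 3 ≤ n + i := by
        obtain ⟨k, hk⟩ := hodd
        omega
      have hx' : xdeg (n + (i + 1)) = (n + i - 3) / 2 + 2 := by
        have hev : Even (n + (i + 1)) := by
          rw [← add_assoc, Nat.even_add_one]
          exact he
        rw [xdeg, if_pos hev]
        obtain ⟨k, hk⟩ := hodd
        omega
      rw [hx] at ih1 ⊢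
      obtain ⟨h1, h2⟩ := dB_spec hf hf3 ih1
      rw [hx']
      refine ⟨h1, ?_⟩
      rw [h2]
      have : 2 * ((n + i - 3) / 2) + 3 = n + i := by
        obtain ⟨k, hk⟩ := hodd
        omega
      rw [this]
      push_cast
      ring

end Fermat.Agent.S13.W.H26

namespace Fermat.Agent.S13.W.H26

variable {R : Type*} [CommRing R]

/-- The weighted degree of the `j`-th monomial of `L(p·O)`: `0, 2, 3, 4, …`. -/
def wdeg (j : ℕ) : ℕ := if j = 0 then 0 else j + 1

/-- The row weight `a i`. -/
def rowW (i : ℕ) : ℕ := if Even i then i / 2 else (i + 3) / 2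

/-- The column weight `b j`. -/
def colW (j : ℕ) : ℕ := xdeg (wdeg j)

/-- The entries of the Wronskian matrix over `R[X]`. -/
noncomputable def wrEntry (f : R[X]) (i j : ℕ) : R[X] :=
  comp f (wdeg j) i * (if Odd i ∧ Even (wdeg j) then f else 1)

/-- The Wronskian matrix over `R[X]`. -/
noncomputable def wrMatrix (f : R[X]) (p : ℕ) : Matrix (Fin p) (Fin p) R[X] :=
  Matrix.of fun i j => wrEntry f (i : ℕ) (j : ℕ)

/-- **The Wronskian polynomial** `Ψ = det (D^i f_j)`, as a polynomial in `x`. -/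
noncomputable def wrPoly (f : R[X]) (p : ℕ) : R[X] := (wrMatrix f p).det

lemma wdeg_zero : wdeg 0 = 0 := rfl

lemma wdeg_pos {j : ℕ} (hj : j ≠ 0) : wdeg j = j + 1 := by rw [wdeg, if_neg hj]

lemma xdeg_add_eq (n i : ℕ) (hn : 2 ≤ n) :
    xdeg (n + i) + (if Odd i ∧ Even n then 3 else 0) = rowW i + xdeg n := by
  unfold xdeg rowW
  rcases Nat.even_or_odd i with hi | hi <;> rcases Nat.even_or_odd n with hn' | hn'
  · have h1 : Even (n + i) := hn'.add hi
    have h2 : ¬ (Odd i ∧ Even n) := fun h => (Nat.not_odd_iff_even.mpr hi) h.1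
    rw [if_pos h1, if_neg h2, if_pos hi, if_pos hn']
    obtain ⟨a, ha⟩ := hi
    obtain ⟨b, hb⟩ := hn'
    omega
  · have h1 : ¬ Even (n + i) := Nat.not_even_iff_odd.mpr (hn'.add_even hi)
    have h2 : ¬ (Odd i ∧ Even n) := fun h => (Nat.not_odd_iff_even.mpr hi) h.1
    rw [if_neg h1, if_neg h2, if_pos hi, if_neg (Nat.not_even_iff_odd.mpr hn')]
    obtain ⟨a, ha⟩ := hi
    obtain ⟨b, hb⟩ := hn'
    omega
  · have h1 : ¬ Even (n + i) := Nat.not_even_iff_odd.mpr (hn'.add_odd hi)
    have h2 : Odd i ∧ Even n := ⟨hi, hn'⟩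
    rw [if_neg h1, if_pos h2, if_neg (Nat.not_even_iff_odd.mpr hi), if_pos hn']
    obtain ⟨a, ha⟩ := hi
    obtain ⟨b, hb⟩ := hn'
    omega
  · have h1 : Even (n + i) := hn'.add_odd hi
    have h2 : ¬ (Odd i ∧ Even n) := fun h => (Nat.not_even_iff_odd.mpr hn') h.2
    rw [if_pos h1, if_neg h2, if_neg (Nat.not_even_iff_odd.mpr hi),
      if_neg (Nat.not_even_iff_odd.mpr hn')]
    obtain ⟨a, ha⟩ := hi
    obtain ⟨b, hb⟩ := hn'
    omega

/-- **Degree and top coefficient of the entries.** -/
theorem wrEntry_spec {f : R[X]} (hf : f.Monic) (hf3 : f.natDegree = 3) (i j : ℕ) :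
    (wrEntry f i j).natDegree ≤ rowW i + colW j ∧
      (wrEntry f i j).coeff (rowW i + colW j) = (ascPochhammer R i).eval ((wdeg j : ℕ) : R) := by
  rcases Nat.eq_zero_or_pos j with rfl | hj
  · -- the constant function
    rcases Nat.eq_zero_or_pos i with rfl | hi
    · have : wrEntry f 0 0 = 1 := by
        simp [wrEntry, wdeg, xdeg]
      rw [this]
      simp [rowW, colW, wdeg, xdeg]
    · obtain ⟨k, rfl⟩ := Nat.exists_eq_succ_of_ne_zero hi.ne'
      have : wrEntry f (k + 1) 0 = 0 := by
        rw [wrEntry, wdeg_zero, comp_zero_left, zero_mul]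
      rw [this]
      refine ⟨by simp, ?_⟩
      rw [coeff_zero, wdeg_zero, Nat.cast_zero, ascPochhammer_eval_zero, if_neg (Nat.succ_ne_zero k)]
  · have hn : 2 ≤ wdeg j := by
      rw [wdeg_pos hj.ne']
      omega
    obtain ⟨h1, h2⟩ := comp_spec hf hf3 hn i
    have hkey := xdeg_add_eq (wdeg j) i hn
    rw [colW, ← hkey, wrEntry, ← h2]
    by_cases hc : Odd i ∧ Even (wdeg j)
    · rw [if_pos hc, if_pos hc]
      refine ⟨natDegree_mul_le_of_le h1 hf3.le, ?_⟩
      rw [coeff_mul_add_eq_of_natDegree_le h1 hf3.le]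
      have : f.coeff 3 = 1 := by
        have := hf.coeff_natDegree
        rwa [hf3] at this
      rw [this, mul_one]
    · rw [if_neg hc, if_neg hc, mul_one, add_zero]
      exact ⟨h1, rfl⟩

/-- The sum of the row weights. -/
lemma sum_rowW (m : ℕ) : ∑ i ∈ Finset.range (2 * m + 1), rowW i = m ^ 2 + 2 * m := by
  induction m with
  | zero => simp [rowW]
  | succ m ih =>
    have : 2 * (m + 1) + 1 = (2 * m + 1) + 1 + 1 := by ring
    rw [this, Finset.sum_range_succ, Finset.sum_range_succ, ih]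
    have h1 : rowW (2 * m + 1) = m + 2 := by
      have : ¬ Even (2 * m + 1) := by
        rw [Nat.not_even_iff_odd]
        exact ⟨m, rfl⟩
      rw [rowW, if_neg this]
      omega
    have h2 : rowW (2 * m + 1 + 1) = m + 1 := by
      have : Even (2 * m + 1 + 1) := ⟨m + 1, by ring⟩
      rw [rowW, if_pos this]
      omega
    rw [h1, h2]
    ring

/-- The sum of the column weights. -/
lemma sum_colW (m : ℕ) : ∑ j ∈ Finset.range (2 * m + 1), colW j = m ^ 2 := by
  induction m with
  | zero => simp [colW, wdeg, xdeg]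
  | succ m ih =>
    have : 2 * (m + 1) + 1 = (2 * m + 1) + 1 + 1 := by ring
    rw [this, Finset.sum_range_succ, Finset.sum_range_succ, ih]
    have h1 : colW (2 * m + 1) = m + 1 := by
      have : Even (2 * m + 1 + 1) := ⟨m + 1, by ring⟩
      rw [colW, wdeg_pos (by omega), xdeg, if_pos this]
      omega
    have h2 : colW (2 * m + 1 + 1) = m := by
      have : ¬ Even (2 * m + 1 + 1 + 1) := by
        rw [Nat.not_even_iff_odd]
        exact ⟨m + 1, by ring⟩
      rw [colW, wdeg_pos (by omega), xdeg, if_neg this]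
      omega
    rw [h1, h2]
    ring

/-- The total weight is `(p² - 1) / 2` for odd `p`. -/
lemma sum_weights {p : ℕ} (hp : Odd p) :
    ∑ i : Fin p, rowW (i : ℕ) + ∑ j : Fin p, colW (j : ℕ) = (p ^ 2 - 1) / 2 := by
  obtain ⟨m, rfl⟩ := hp
  rw [Fin.sum_univ_eq_sum_range (fun i => rowW i), Fin.sum_univ_eq_sum_range (fun j => colW j),
    sum_rowW, sum_colW]
  have : (2 * m + 1) ^ 2 - 1 = 2 * (m ^ 2 + 2 * m + m ^ 2) := by
    have : (2 * m + 1) ^ 2 = 2 * (m ^ 2 + 2 * m + m ^ 2) + 1 := by ring
    omega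
  rw [this, Nat.mul_div_cancel_left _ (by norm_num : 0 < 2)]

end Fermat.Agent.S13.W.H26

namespace Fermat.Agent.S13.W.H26

variable {R : Type*} [CommRing R]

/-- The leading coefficient of the Wronskian: the Vandermonde determinant of `0, 2, 3, …, p`. -/
def wrConst (p : ℕ) : ℤ :=
  ∏ i : Fin p, ∏ j ∈ Finset.Ioi i, (((wdeg (j : ℕ) : ℕ) : ℤ) - ((wdeg (i : ℕ) : ℕ) : ℤ))

/-- The determinant of the rising factorials is the Vandermonde determinant (over `ℤ`). -/
theorem det_ascPochhammer_int (p : ℕ) :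
    (Matrix.of fun i j : Fin p =>
      (ascPochhammer ℤ (i : ℕ)).eval (((wdeg (j : ℕ) : ℕ) : ℤ))).det = wrConst p := by
  have h := Matrix.det_eval_matrixOfPolynomials_eq_det_vandermonde
    (fun j : Fin p => (((wdeg (j : ℕ) : ℕ) : ℤ))) (fun i : Fin p => ascPochhammer ℤ (i : ℕ))
    (fun i => ascPochhammer_natDegree (S := ℤ) (i : ℕ)) (fun i => monic_ascPochhammer ℤ _)
  rw [Matrix.det_vandermonde] at h
  rw [wrConst, h, ← Matrix.det_transpose]
  rfl

/-- The determinant of the rising factorials over any commutative ring. -/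
theorem det_ascPochhammer (p : ℕ) :
    (Matrix.of fun i j : Fin p =>
      (ascPochhammer R (i : ℕ)).eval (((wdeg (j : ℕ) : ℕ) : R))).det = ((wrConst p : ℤ) : R) := by
  rw [← det_ascPochhammer_int]
  have h := RingHom.map_det (Int.castRingHom R) (Matrix.of fun i j : Fin p =>
      (ascPochhammer ℤ (i : ℕ)).eval (((wdeg (j : ℕ) : ℕ) : ℤ)))
  have h' : (((Matrix.of fun i j : Fin p =>
      (ascPochhammer ℤ (i : ℕ)).eval (((wdeg (j : ℕ) : ℕ) : ℤ))).det : ℤ) : R) =
      ((Int.castRingHom R).mapMatrix (Matrix.of fun i j : Fin p =>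
      (ascPochhammer ℤ (i : ℕ)).eval (((wdeg (j : ℕ) : ℕ) : ℤ)))).det := h
  rw [h']
  congr 1
  ext i j
  simp only [RingHom.mapMatrix_apply, Matrix.map_apply, Matrix.of_apply, Int.coe_castRingHom]
  have h1 := ascPochhammer_eval_cast (S := R) (i : ℕ) (wdeg (j : ℕ))
  have h2 := ascPochhammer_eval_cast (S := ℤ) (i : ℕ) (wdeg (j : ℕ))
  rw [← h1, ← h2, Int.cast_natCast]

/-- **Degree bound and top coefficient of the Wronskian polynomial.** -/
theorem wrPoly_coeff {f : R[X]} (hf : f.Monic) (hf3 : f.natDegree = 3) {p : ℕ} (hp : Odd p) :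
    (wrPoly f p).natDegree ≤ (p ^ 2 - 1) / 2 ∧
      (wrPoly f p).coeff ((p ^ 2 - 1) / 2) = ((wrConst p : ℤ) : R) := by
  have hle : ∀ i j : Fin p, (wrMatrix f p i j).natDegree ≤ rowW (i : ℕ) + colW (j : ℕ) :=
    fun i j => (wrEntry_spec hf hf3 i j).1
  have h1 := natDegree_det_le_of_le (wrMatrix f p) (fun i => rowW (i : ℕ))
    (fun j => colW (j : ℕ)) hle
  have h2 := coeff_det_of_le (wrMatrix f p) (fun i => rowW (i : ℕ))
    (fun j => colW (j : ℕ)) hle
  rw [sum_weights hp] at h1 h2
  refine ⟨h1, ?_⟩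
  rw [wrPoly, h2, ← det_ascPochhammer]
  congr 1
  ext i j
  exact (wrEntry_spec hf hf3 i j).2

/-- **Degree and leading coefficient of the Wronskian polynomial.** -/
theorem wrPoly_spec {f : R[X]} (hf : f.Monic) (hf3 : f.natDegree = 3) {p : ℕ} (hp : Odd p)
    (hc : ((wrConst p : ℤ) : R) ≠ 0) :
    (wrPoly f p).natDegree = (p ^ 2 - 1) / 2 ∧
      (wrPoly f p).leadingCoeff = ((wrConst p : ℤ) : R) := by
  obtain ⟨h1, h2⟩ := wrPoly_coeff (R := R) hf hf3 hp
  have heq : (wrPoly f p).natDegree = (p ^ 2 - 1) / 2 := by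
    refine le_antisymm h1 (le_natDegree_of_ne_zero ?_)
    rw [h2]
    exact hc
  exact ⟨heq, by rw [leadingCoeff, heq, h2]⟩

/-! ### Arithmetic of the constant -/

lemma wdeg_strictMono : StrictMono wdeg := by
  intro a b hab
  unfold wdeg
  split_ifs <;> omega

lemma wdeg_le (j : ℕ) : wdeg j ≤ j + 1 := by
  unfold wdeg
  split_ifs <;> omega

/-- `wrConst p = p * (a product of integers in `[1, p-1]`)`. -/
theorem wrConst_eq_mul {p : ℕ} (hp : 2 ≤ p) :
    ∃ c' : ℤ, wrConst p = p * c' ∧
      ∃ (ι : Type) (s : Finset ι) (d : ι → ℤ), c' = ∏ x ∈ s, d x ∧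
        ∀ x ∈ s, 0 < d x ∧ d x < p := by
  classical
  let S : Finset (Σ _ : Fin p, Fin p) :=
    (Finset.univ : Finset (Fin p)).sigma (fun i => Finset.Ioi i)
  let d : (Σ _ : Fin p, Fin p) → ℤ :=
    fun x => (((wdeg (x.2 : ℕ) : ℕ) : ℤ) - ((wdeg (x.1 : ℕ) : ℕ) : ℤ))
  have hprod : wrConst p = ∏ x ∈ S, d x := by
    rw [wrConst, Finset.prod_sigma]
  let x₀ : (Σ _ : Fin p, Fin p) := ⟨⟨0, by omega⟩, ⟨p - 1, by omega⟩⟩
  have hx₀ : x₀ ∈ S := by
    simp only [S, Finset.mem_sigma, Finset.mem_univ, Finset.mem_Ioi, true_and, x₀]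
    rw [Fin.lt_def]
    simp only
    omega
  have hd₀ : d x₀ = p := by
    simp only [d, x₀, wdeg_zero, Nat.cast_zero, sub_zero]
    rw [wdeg_pos (by omega)]
    congr 1
    omega
  refine ⟨∏ x ∈ S.erase x₀, d x, ?_, _, S.erase x₀, d, rfl, ?_⟩
  · rw [hprod, ← Finset.mul_prod_erase S d hx₀, hd₀]
  · intro x hx
    obtain ⟨hne, hxS⟩ := Finset.mem_erase.mp hx
    simp only [S, Finset.mem_sigma, Finset.mem_univ, Finset.mem_Ioi, true_and] at hxS
    obtain ⟨i, j⟩ := x
    have hij : (i : ℕ) < (j : ℕ) := hxS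
    have hj : (j : ℕ) < p := j.2
    have hmono := wdeg_strictMono hij
    simp only [d]
    refine ⟨by omega, ?_⟩
    rcases Nat.eq_zero_or_pos (i : ℕ) with hi | hi
    · have hjne : (j : ℕ) ≠ p - 1 := by
        intro hjp
        apply hne
        have hi' : i = ⟨0, by omega⟩ := Fin.ext hi
        have hj' : j = ⟨p - 1, by omega⟩ := Fin.ext hjp
        rw [hi', hj']
      rw [hi, wdeg_zero]
      have := wdeg_le (j : ℕ)
      omega
    · rw [wdeg_pos hi.ne', wdeg_pos (by omega : (j : ℕ) ≠ 0)]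
      push_cast
      omega

/-- `p` divides `wrConst p` exactly once. -/
theorem wrConst_arith {p : ℕ} (hp : p.Prime) :
    (p : ℤ) ∣ wrConst p ∧ ¬ ((p : ℤ) ^ 2 ∣ wrConst p) := by
  obtain ⟨c', hc, ι, s, d, hc', hd⟩ := wrConst_eq_mul hp.two_le
  have hpi : Prime (p : ℤ) := Nat.prime_iff_prime_int.mp hp
  have hndvd : ¬ (p : ℤ) ∣ c' := by
    rw [hc', hpi.dvd_finsetProd_iff]
    rintro ⟨x, hx, hdvd⟩
    obtain ⟨h0, h1⟩ := hd x hx
    have := Int.le_of_dvd h0 hdvd
    omega
  refine ⟨⟨c', hc⟩, ?_⟩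
  rw [hc, pow_two]
  intro h
  exact hndvd ((mul_dvd_mul_iff_left hpi.ne_zero).mp h)

theorem wrConst_ne_zero {p : ℕ} (hp : p.Prime) : wrConst p ≠ 0 := by
  intro h
  have := (wrConst_arith hp).2
  rw [h] at this
  exact this (dvd_zero _)

/-- Over a ring of characteristic zero: degree and leading coefficient. -/
theorem wrPoly_spec_charZero [CharZero R] {f : R[X]} (hf : f.Monic) (hf3 : f.natDegree = 3)
    {p : ℕ} (hp : p.Prime) (hp2 : p ≠ 2) :
    (wrPoly f p).natDegree = (p ^ 2 - 1) / 2 ∧
      (wrPoly f p).leadingCoeff = ((wrConst p : ℤ) : R) :=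
  wrPoly_spec hf hf3 (hp.odd_of_ne_two hp2) (Int.cast_ne_zero.mpr (wrConst_ne_zero hp))

end Fermat.Agent.S13.W.H26

namespace Fermat.Agent.S13.W.H26

variable {R S : Type*} [CommRing R] [CommRing S]

/-! ### Base change -/

lemma map_dA (φ : R →+* S) (g : R[X]) : (dA g).map φ = dA (g.map φ) := by
  simp [dA, Polynomial.map_mul, derivative_map, map_ofNat]

lemma map_dB (φ : R →+* S) (f g : R[X]) : (dB f g).map φ = dB (f.map φ) (g.map φ) := by
  simp [dB, Polynomial.map_mul, Polynomial.map_add, derivative_map, map_ofNat]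

lemma map_comp (φ : R →+* S) (f : R[X]) (n i : ℕ) :
    (comp f n i).map φ = comp (f.map φ) n i := by
  induction i with
  | zero => simp
  | succ i ih =>
    rw [comp_succ, comp_succ]
    split_ifs
    · rw [map_dA, ih]
    · rw [map_dB, ih]

lemma map_wrEntry (φ : R →+* S) (f : R[X]) (i j : ℕ) :
    (wrEntry f i j).map φ = wrEntry (f.map φ) i j := by
  rw [wrEntry, wrEntry, Polynomial.map_mul, map_comp]
  split_ifs
  · rfl
  · rw [Polynomial.map_one]

/-- The Wronskian polynomial commutes with base change. -/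
theorem map_wrPoly (φ : R →+* S) (f : R[X]) (p : ℕ) :
    (wrPoly f p).map φ = wrPoly (f.map φ) p := by
  rw [wrPoly, wrPoly, ← Polynomial.coe_mapRingHom, RingHom.map_det]
  congr 1
  ext i j : 1
  simp only [RingHom.mapMatrix_apply, Matrix.map_apply, wrMatrix, Matrix.of_apply,
    Polynomial.coe_mapRingHom]
  exact map_wrEntry φ f i j

end Fermat.Agent.S13.W.H26
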