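import Mathlib
import Fermat.Prelude.Def_FLTPrelim_FreyPackage

/-!
# S13, package W, leaf H (helper29): the Frey curve is defined over `ℤ`

`P.freyCurve` is the base change to `ℚ` of the integral Weierstrass curve `P.freyCurveInt`
(prelude), because `4 ∣ b^p - 1 - a^p` and `16 ∣ a^p b^p`.
-/

set_option autoImplicit false

namespace Fermat.Agent.S13.Wr

/-- `16 ∣ b^p` for a Frey package. -/
lemma h29_sixteen_dvd_b_pow (P : FreyPackage) : (16 : ℤ) ∣ P.b ^ P.p := by
  have h2 : (2 : ℤ) ∣ P.b := (ZMod.intCast_zmod_eq_zero_iff_dvd P.b 2).1 P.hb2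
  have h4 : (2 : ℤ) ^ 4 ∣ P.b ^ P.p :=
    (pow_dvd_pow_of_dvd h2 4).trans (pow_dvd_pow P.b (by have := P.hp5; omega))
  simpa using h4

/-- `16 ∣ a^p b^p` (in the shape of the prelude definition). -/
lemma h29_sixteen_dvd (P : FreyPackage) : (16 : ℤ) ∣ -(P.a ^ P.p) * (P.b ^ P.p) :=
  Dvd.dvd.mul_left (h29_sixteen_dvd_b_pow P) _

/-- `4 ∣ b^p - 1 - a^p`. -/
lemma h29_four_dvd (P : FreyPackage) : (4 : ℤ) ∣ P.b ^ P.p - 1 - P.a ^ P.p := by
  have hb : (4 : ℤ) ∣ P.b ^ P.p :=
    (show (4 : ℤ) ∣ 16 by norm_num).trans (h29_sixteen_dvd_b_pow P)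
  have ha : (4 : ℤ) ∣ P.a ^ P.p + 1 := by
    apply (ZMod.intCast_zmod_eq_zero_iff_dvd (P.a ^ P.p + 1) 4).1
    push_cast
    rw [P.ha4]
    have h3 : (3 : ZMod 4) = -1 := by decide
    rw [h3, Odd.neg_one_pow P.hp_odd]
    simp
  have : P.b ^ P.p - 1 - P.a ^ P.p = P.b ^ P.p - (P.a ^ P.p + 1) := by ring
  rw [this]
  exact dvd_sub hb ha

/-- **Leaf H**: the Frey curve is the base change of the integral model `P.freyCurveInt`. -/
theorem h29_freyCurveInt_map (P : FreyPackage) :
    P.freyCurveInt.map (algebraMap ℤ ℚ) = P.freyCurve := by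
  have h4 : ((4 : ℤ) : ℚ) ≠ 0 := by norm_num
  have h16 : ((16 : ℤ) : ℚ) ≠ 0 := by norm_num
  ext
  · simp [FreyPackage.freyCurveInt, FreyPackage.freyCurve, WeierstrassCurve.map]
  · simp only [FreyPackage.freyCurveInt, FreyPackage.freyCurve, WeierstrassCurve.map,
      eq_intCast]
    rw [Int.cast_div (h29_four_dvd P) h4]
    push_cast
    rfl
  · simp [FreyPackage.freyCurveInt, FreyPackage.freyCurve, WeierstrassCurve.map]
  · simp only [FreyPackage.freyCurveInt, FreyPackage.freyCurve, WeierstrassCurve.map,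
      eq_intCast]
    rw [Int.cast_div (h29_sixteen_dvd P) h16]
    push_cast
    rfl
  · simp [FreyPackage.freyCurveInt, FreyPackage.freyCurve, WeierstrassCurve.map]

/-- The base change of the Frey curve to any `ℚ`-algebra `K` is the base change of the integral
model along `ℤ → K`. -/
theorem h29_freyCurve_baseChange (P : FreyPackage) (K : Type*) [CommRing K] [Algebra ℚ K] :
    (P.freyCurve.baseChange K) = P.freyCurveInt.map (Int.castRingHom K) := by
  rw [WeierstrassCurve.baseChange, ← h29_freyCurveInt_map, WeierstrassCurve.map_map]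
  congr 1
  exact RingHom.ext_int _ _

/-- **Leaf H** in the shape of the interface. -/
theorem H_frey_integral (P : FreyPackage) :
    ∃ W0 : WeierstrassCurve ℤ, W0.map (algebraMap ℤ ℚ) = P.freyCurve :=
  ⟨P.freyCurveInt, h29_freyCurveInt_map P⟩

end Fermat.Agent.S13.Wr
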