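import Fermat.Agent.S13.W.H1_Iter

/-!
# S13, package W, leaf P (helper29, HEDGE of helper1's `H1_Parity`): parity of the Wronskian

Everything lives in the sub-namespace `Fermat.Agent.S13.Wr.H29` (the canonical copy is
`Fermat.Agent.S13.Wr.cq_Wr_eq_zero` in `H1_Parity.lean`).

For a curve with `a₁ = a₃ = 0` (so `Y ↦ -Y` is an automorphism), an element `p + q Y` of the
coordinate ring is *even* if `q = 0` and *odd* if `p = 0`.  The derivation `D` swaps parities,
the monomial of pole order `n` has the parity of `n`, hence every term of the Wronskian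
determinant `Wr W n` has the parity of `∑ i + ∑ ordN j = n² - 1`.  For odd `n` the Wronskian is
even: `Wr W n = pq W Ψ 0`, a polynomial in `X` alone.
-/

set_option autoImplicit false

open Polynomial
open scoped Polynomial.Bivariate
open WeierstrassCurve.Affine

namespace Fermat.Agent.S13.Wr.H29

variable {K : Type*} [CommRing K] (W : WeierstrassCurve.Affine K)

/-- `Par k g`: the element `g` has the parity of `k`. -/
def Par (k : ℕ) (g : W.CoordinateRing) : Prop :=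
  (Even k → cq W g = 0) ∧ (Odd k → cp W g = 0)

lemma Par_pq_iff (k : ℕ) (p q : K[X]) :
    Par W k (pq W p q) ↔ (Even k → q = 0) ∧ (Odd k → p = 0) := by
  unfold Par; rw [cp_pq, cq_pq]

lemma h29_cp_zero : cp W 0 = 0 := by
  have := cp_pq W 0 0
  rwa [pq_zero] at this

lemma h29_cq_zero : cq W 0 = 0 := by
  have := cq_pq W 0 0
  rwa [pq_zero] at this

lemma h29_cp_neg (g : W.CoordinateRing) : cp W (-g) = -cp W g := by
  have h := cp_add W g (-g)
  rw [add_neg_cancel, h29_cp_zero] at h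
  exact eq_neg_of_add_eq_zero_right h.symm

lemma h29_cq_neg (g : W.CoordinateRing) : cq W (-g) = -cq W g := by
  have h := cq_add W g (-g)
  rw [add_neg_cancel, h29_cq_zero] at h
  exact eq_neg_of_add_eq_zero_right h.symm

lemma Par_zero_elt (k : ℕ) : Par W k 0 :=
  ⟨fun _ => h29_cq_zero W, fun _ => h29_cp_zero W⟩

lemma Par_add {k : ℕ} {g h : W.CoordinateRing} (hg : Par W k g) (hh : Par W k h) :
    Par W k (g + h) :=
  ⟨fun hk => by rw [cq_add, hg.1 hk, hh.1 hk, add_zero],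
    fun hk => by rw [cp_add, hg.2 hk, hh.2 hk, add_zero]⟩

lemma Par_neg {k : ℕ} {g : W.CoordinateRing} (hg : Par W k g) : Par W k (-g) :=
  ⟨fun hk => by rw [h29_cq_neg, hg.1 hk, neg_zero],
    fun hk => by rw [h29_cp_neg, hg.2 hk, neg_zero]⟩

lemma Par_one : Par W 0 (1 : W.CoordinateRing) := by
  rw [← pq_one, Par_pq_iff]
  exact ⟨fun _ => rfl, fun h => absurd h (by decide)⟩

variable {W}

lemma h29_polyA_eq_zero (h1 : W.a₁ = 0) (h3 : W.a₃ = 0) : polyA W = 0 := by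
  unfold polyA; rw [h1, h3]; simp

lemma Par_mul (h1 : W.a₁ = 0) (h3 : W.a₃ = 0) {m n : ℕ} {g h : W.CoordinateRing}
    (hg : Par W m g) (hh : Par W n h) : Par W (m + n) (g * h) := by
  obtain ⟨p, q, rfl⟩ : ∃ p q, g = pq W p q := ⟨_, _, (pq_cp_cq W g).symm⟩
  obtain ⟨p', q', rfl⟩ : ∃ p q, h = pq W p q := ⟨_, _, (pq_cp_cq W h).symm⟩
  rw [Par_pq_iff] at hg hh
  rw [pq_mul, Par_pq_iff, h29_polyA_eq_zero h1 h3]
  rcases Nat.even_or_odd m with hm | hm <;> rcases Nat.even_or_odd n with hn | hn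
  · refine ⟨fun _ => ?_, fun ho => absurd (hm.add hn) (Nat.not_even_iff_odd.mpr ho)⟩
    rw [hg.1 hm, hh.1 hn]; ring
  · refine ⟨fun he => absurd he (Nat.not_even_iff_odd.mpr (hm.add_odd hn)), fun _ => ?_⟩
    rw [hg.1 hm, hh.2 hn]; ring
  · refine ⟨fun he => absurd he (Nat.not_even_iff_odd.mpr (hm.add_even hn)), fun _ => ?_⟩
    rw [hg.2 hm, hh.1 hn]; ring
  · refine ⟨fun _ => ?_, fun ho => absurd (hm.add_odd hn) (Nat.not_even_iff_odd.mpr ho)⟩
    rw [hg.2 hm, hh.2 hn]; ring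

lemma Par_D (h1 : W.a₁ = 0) (h3 : W.a₃ = 0) {k : ℕ} {g : W.CoordinateRing}
    (hg : Par W k g) : Par W (k + 1) (D W g) := by
  obtain ⟨p, q, rfl⟩ : ∃ p q, g = pq W p q := ⟨_, _, (pq_cp_cq W g).symm⟩
  rw [Par_pq_iff] at hg
  rw [D_pq, Par_pq_iff, h29_polyA_eq_zero h1 h3]
  rcases Nat.even_or_odd k with hk | hk
  · refine ⟨fun he => absurd he (Nat.not_even_iff_odd.mpr hk.add_one), fun _ => ?_⟩
    rw [hg.1 hk]; simp
  · refine ⟨fun _ => ?_, fun ho => absurd hk.add_one (Nat.not_even_iff_odd.mpr ho)⟩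
    rw [hg.2 hk]; simp

lemma Par_iter (h1 : W.a₁ = 0) (h3 : W.a₃ = 0) {k : ℕ} {g : W.CoordinateRing}
    (hg : Par W k g) (i : ℕ) : Par W (i + k) ((D W)^[i] g) := by
  induction i with
  | zero => simpa using hg
  | succ i ih =>
    rw [Function.iterate_succ_apply']
    have e : i + 1 + k = (i + k) + 1 := by omega
    rw [e]
    exact Par_D h1 h3 ih

variable (W)

lemma Par_monoN (n : ℕ) : Par W n (monoN W n) := by
  unfold monoN
  split_ifs with h
  · rw [Par_pq_iff]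
    exact ⟨fun _ => rfl, fun ho => absurd (Nat.even_iff.mpr h) (Nat.not_even_iff_odd.mpr ho)⟩
  · rw [Par_pq_iff]
    exact ⟨fun he => absurd (Nat.even_iff.mp he) h, fun _ => rfl⟩

lemma Par_mono (j : ℕ) : Par W (ordN j) (mono W j) := Par_monoN W (ordN j)

variable {W}

/-- The Wronskian has the parity of `∑ i + ∑ ordN j`. -/
theorem Par_Wr (h1 : W.a₁ = 0) (h3 : W.a₃ = 0) (n : ℕ) :
    Par W (∑ i : Fin n, (i : ℕ) + ∑ j : Fin n, ordN (j : ℕ)) (Wr W n) := by
  have h := h1_det_fil (K := PUnit.{1}) (Par W) (fun _ _ => PUnit.unit) (Par_zero_elt W)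
    (fun _ _ _ => Par_add W) (fun _ _ => Par_neg W) (Par_one W)
    (fun _ _ _ _ => Par_mul h1 h3) (fun _ => rfl) (fun _ _ _ => rfl) (fun _ _ => rfl) rfl
    (fun _ _ _ _ _ _ => rfl) (WrMat W n) (fun i => (i : ℕ)) (fun j => ordN (j : ℕ))
    (fun i j => Par_iter h1 h3 (Par_mono W j) i)
  exact h.1

/-- **Leaf P**: for a curve with `a₁ = a₃ = 0` and odd `n`, the Wronskian `Wr W n` is a
polynomial in `X` alone. -/
theorem cq_Wr_eq_zero (W : WeierstrassCurve.Affine K) (h1 : W.a₁ = 0) (h3 : W.a₃ = 0) (n : ℕ)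
    (hn : Odd n) : cq W (Wr W n) = 0 := by
  have hpos : 0 < n := hn.pos
  have h := Par_Wr h1 h3 n
  rw [sum_ord n hpos] at h
  apply h.1
  obtain ⟨k, rfl⟩ := hn
  refine ⟨2 * k ^ 2 + 2 * k, ?_⟩
  have : (2 * k + 1) ^ 2 = 4 * k ^ 2 + 4 * k + 1 := by ring
  omega

/-- The Wronskian of odd order is `pq W Ψ 0` with `Ψ = cp W (Wr W n)`. -/
theorem Wr_eq_pq (W : WeierstrassCurve.Affine K) (h1 : W.a₁ = 0) (h3 : W.a₃ = 0) (n : ℕ)
    (hn : Odd n) : Wr W n = pq W (cp W (Wr W n)) 0 := by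
  conv_lhs => rw [← pq_cp_cq W (Wr W n), cq_Wr_eq_zero W h1 h3 n hn]

/-- Evaluation of the Wronskian of odd order at a point is the evaluation of `Ψ` at `x`. -/
theorem evalAt_Wr (W : WeierstrassCurve.Affine K) (h1 : W.a₁ = 0) (h3 : W.a₃ = 0) (n : ℕ)
    (hn : Odd n) {x y : K} (h : W.Equation x y) :
    evalAt W h (Wr W n) = (cp W (Wr W n)).eval x := by
  conv_lhs => rw [Wr_eq_pq W h1 h3 n hn]
  rw [evalAt_pq]
  simp

end Fermat.Agent.S13.Wr.H29
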