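import Mathlib

/-!
# S13, package W, leaf A (helper5): the determinant in a filtered ring

Abstract lemma: if `Fil n` is an increasing-type filtration of a commutative ring `R`
(closed under `0`, `+`, `-`, containing `1` in degree `0`, multiplicative) with an additive
"leading coefficient" map `lc n : R → K` which is multiplicative on the filtration, and `M` is a
square matrix with `M i j ∈ Fil (r i + c j)`, then `det M ∈ Fil (∑ r + ∑ c)` and its leading
coefficient is the determinant of the leading coefficients.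
-/

set_option autoImplicit false

universe u v

namespace Fermat.Agent.S13.Wr

open Finset

section

variable {R : Type u} {K : Type v} [CommRing R] [CommRing K]
  (Fil : ℕ → R → Prop) (lc : ℕ → R → K)

/-- Finite sums stay in the filtration. -/
theorem h5_Fil_sum (h0 : ∀ n, Fil n 0) (hadd : ∀ n g h, Fil n g → Fil n h → Fil n (g + h))
    {α : Type*} (s : Finset α) (n : ℕ) (g : α → R) (hg : ∀ a ∈ s, Fil n (g a)) :
    Fil n (∑ a ∈ s, g a) := by
  classical
  induction s using Finset.induction_on with
  | empty => simpa using h0 n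
  | insert a s ha ih =>
    rw [Finset.sum_insert ha]
    exact hadd n _ _ (hg a (Finset.mem_insert_self a s))
      (ih fun b hb => hg b (Finset.mem_insert_of_mem hb))

/-- The leading coefficient is additive on finite sums. -/
theorem h5_lc_sum (lc0 : ∀ n, lc n 0 = 0) (lcadd : ∀ n g h, lc n (g + h) = lc n g + lc n h)
    {α : Type*} (s : Finset α) (n : ℕ) (g : α → R) :
    lc n (∑ a ∈ s, g a) = ∑ a ∈ s, lc n (g a) := by
  classical
  induction s using Finset.induction_on with
  | empty => simpa using lc0 n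
  | insert a s ha ih =>
    rw [Finset.sum_insert ha, Finset.sum_insert ha, lcadd, ih]

/-- Finite products: the filtration degrees add up and the leading coefficients multiply. -/
theorem h5_Fil_lc_prod (hone : Fil 0 1)
    (hmul : ∀ m n g h, Fil m g → Fil n h → Fil (m + n) (g * h)) (lcone : lc 0 1 = 1)
    (lcmul : ∀ m n g h, Fil m g → Fil n h → lc (m + n) (g * h) = lc m g * lc n h)
    {α : Type*} (s : Finset α) (d : α → ℕ) (f : α → R) (hf : ∀ a ∈ s, Fil (d a) (f a)) :
    Fil (∑ a ∈ s, d a) (∏ a ∈ s, f a) ∧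
      lc (∑ a ∈ s, d a) (∏ a ∈ s, f a) = ∏ a ∈ s, lc (d a) (f a) := by
  classical
  induction s using Finset.induction_on with
  | empty => simpa using ⟨hone, lcone⟩
  | insert a s ha ih =>
    have ih' := ih fun b hb => hf b (Finset.mem_insert_of_mem hb)
    have ha' := hf a (Finset.mem_insert_self a s)
    rw [Finset.sum_insert ha, Finset.prod_insert ha, Finset.prod_insert ha]
    exact ⟨hmul _ _ _ _ ha' ih'.1, by rw [lcmul _ _ _ _ ha' ih'.1, ih'.2]⟩

/-- Multiplication by a sign `±1` (as a unit of `ℤ`) preserves the filtration. -/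
theorem h5_Fil_sign_smul (hneg : ∀ n g, Fil n g → Fil n (-g)) (ε : ℤˣ) (n : ℕ) (g : R)
    (hg : Fil n g) : Fil n (ε • g) := by
  rcases Int.units_eq_one_or ε with h | h
  · rw [h, one_smul]; exact hg
  · rw [h, Units.neg_smul, one_smul]; exact hneg n g hg

/-- Multiplication by a sign `±1` commutes with the leading coefficient. -/
theorem h5_lc_sign_smul (lcneg : ∀ n g, lc n (-g) = - lc n g) (ε : ℤˣ) (n : ℕ) (g : R) :
    lc n (ε • g) = ε • lc n g := by
  rcases Int.units_eq_one_or ε with h | h
  · rw [h, one_smul, one_smul]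
  · rw [h, Units.neg_smul, one_smul, Units.neg_smul, one_smul, lcneg]

/-- **Leaf A.** The determinant of a matrix with entries `M i j ∈ Fil (r i + c j)` lies in
`Fil (∑ r + ∑ c)` and its leading coefficient is the determinant of the matrix of leading
coefficients. -/
theorem A_det
    (h0 : ∀ n, Fil n 0) (hadd : ∀ n g h, Fil n g → Fil n h → Fil n (g + h))
    (hneg : ∀ n g, Fil n g → Fil n (-g)) (hone : Fil 0 1)
    (hmul : ∀ m n g h, Fil m g → Fil n h → Fil (m + n) (g * h))
    (lc0 : ∀ n, lc n 0 = 0) (lcadd : ∀ n g h, lc n (g + h) = lc n g + lc n h)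
    (lcneg : ∀ n g, lc n (-g) = - lc n g) (lcone : lc 0 1 = 1)
    (lcmul : ∀ m n g h, Fil m g → Fil n h → lc (m + n) (g * h) = lc m g * lc n h)
    {ι : Type} [Fintype ι] [DecidableEq ι] (M : Matrix ι ι R) (r c : ι → ℕ)
    (hM : ∀ i j, Fil (r i + c j) (M i j)) :
    Fil (∑ i, r i + ∑ j, c j) M.det ∧
      lc (∑ i, r i + ∑ j, c j) M.det = (Matrix.of fun i j => lc (r i + c j) (M i j)).det := by
  classical
  have hdeg : ∀ σ : Equiv.Perm ι, ∑ i, (r (σ i) + c i) = ∑ i, r i + ∑ j, c j := by
    intro σ
    rw [Finset.sum_add_distrib, Equiv.sum_comp σ r]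
  have hprod : ∀ σ : Equiv.Perm ι,
      Fil (∑ i, r i + ∑ j, c j) (∏ i, M (σ i) i) ∧
        lc (∑ i, r i + ∑ j, c j) (∏ i, M (σ i) i) = ∏ i, lc (r (σ i) + c i) (M (σ i) i) := by
    intro σ
    have h := h5_Fil_lc_prod Fil lc hone hmul lcone lcmul Finset.univ
      (fun i => r (σ i) + c i) (fun i => M (σ i) i) (fun i _ => hM (σ i) i)
    rw [hdeg σ] at h
    exact h
  rw [Matrix.det_apply, Matrix.det_apply]
  refine ⟨?_, ?_⟩
  · exact h5_Fil_sum Fil h0 hadd _ _ _ fun σ _ =>
      h5_Fil_sign_smul Fil hneg _ _ _ (hprod σ).1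
  · rw [h5_lc_sum lc lc0 lcadd]
    refine Finset.sum_congr rfl fun σ _ => ?_
    rw [h5_lc_sign_smul lc lcneg, (hprod σ).2]
    rfl

end

end Fermat.Agent.S13.Wr
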