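import Fermat.Agent.S13.W.H6_Zeros
import Fermat.Agent.S13.W.H17_LinAlg

/-!
# S13, package W, leaf [W2] (hedge, helper6): the principal ideal criterion by a dimension count

`n • P = 0 ↔ ∃ g ≠ 0, g ∈ m_P ^ n ∧ Fil W n g`, where `m_P = XYIdeal W x (C y)`.

Route: `toClass` is injective, so `n • P = 0` iff `m_P ^ n` is principal.  For a nonzero `g`,
`finrank K (R ⧸ (g)) = natDegree (norm g)` (Mathlib), and `n ≤ finrank K (R ⧸ m_P ^ n)` because
the chain `m_P ^ i` is strictly decreasing (`m_P` is invertible: `m_P * m_{-P} = (X - x)`).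
-/

set_option autoImplicit false

open Polynomial
open scoped Polynomial.Bivariate nonZeroDivisors
open WeierstrassCurve.Affine

namespace Fermat.Agent.S13.Wr.H6

universe u

/-! ### Abstract part: powers of an invertible proper ideal -/

section Abstract

variable {R : Type*} [CommRing R] [IsDomain R]

/-- The powers of an invertible proper ideal are strictly decreasing. -/
lemma h6_pow_succ_ne_pow {m m' : Ideal R} {a : R} (ha : a ≠ 0)
    (hmm : m * m' = Ideal.span {a}) (hm : m ≠ ⊤) (n : ℕ) : m ^ (n + 1) ≠ m ^ n := by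
  intro h
  have h1 : m ^ n * m' ^ n = Ideal.span {a ^ n} := by
    rw [← mul_pow, hmm, Ideal.span_singleton_pow]
  have h2 : Ideal.span {a ^ n} * m = Ideal.span {a ^ n} * ⊤ := by
    rw [Ideal.mul_top, ← h1, mul_comm, ← mul_assoc, ← pow_succ', h]
  exact hm ((Ideal.span_singleton_mul_right_inj (pow_ne_zero n ha)).mp h2)

lemma h6_exists_mem_pow_not_mem {m m' : Ideal R} {a : R} (ha : a ≠ 0)
    (hmm : m * m' = Ideal.span {a}) (hm : m ≠ ⊤) (n : ℕ) :
    ∃ s ∈ m ^ n, s ∉ m ^ (n + 1) := by
  have hle : m ^ (n + 1) ≤ m ^ n := Ideal.pow_le_pow_right (Nat.le_succ n)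
  have hlt : m ^ (n + 1) < m ^ n := lt_of_le_of_ne hle (h6_pow_succ_ne_pow ha hmm hm n)
  obtain ⟨s, hs, hs'⟩ := SetLike.exists_of_lt hlt
  exact ⟨s, hs, hs'⟩

variable (K : Type*) [Field K] [Algebra K R]

/-- `n ≤ dim R ⧸ m ^ n` for an invertible proper ideal `m`. -/
lemma h6_le_finrank_quotient_pow {m m' : Ideal R} {a : R} (ha : a ≠ 0)
    (hmm : m * m' = Ideal.span {a}) (hm : m ≠ ⊤) :
    ∀ n : ℕ, Module.Finite K (R ⧸ m ^ n) → n ≤ Module.finrank K (R ⧸ m ^ n) := by
  intro n
  induction n with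
  | zero => intro _; exact Nat.zero_le _
  | succ n ih =>
    intro hfin
    have hle : m ^ (n + 1) ≤ m ^ n := Ideal.pow_le_pow_right (Nat.le_succ n)
    let f : (R ⧸ m ^ (n + 1)) →ₗ[K] (R ⧸ m ^ n) := (Ideal.Quotient.factorₐ K hle).toLinearMap
    have hf : Function.Surjective f := Ideal.Quotient.factor_surjective hle
    have hfin' : Module.Finite K (R ⧸ m ^ n) := Module.Finite.of_surjective f hf
    have h1 := ih hfin'
    have h2 := LinearMap.finrank_range_add_finrank_ker f
    have h3 : Module.finrank K (LinearMap.range f) = Module.finrank K (R ⧸ m ^ n) := by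
      rw [LinearMap.range_eq_top.mpr hf, finrank_top]
    have h4 : 1 ≤ Module.finrank K (LinearMap.ker f) := by
      obtain ⟨s, hs, hs'⟩ := h6_exists_mem_pow_not_mem ha hmm hm n
      have hmem : Ideal.Quotient.mk (m ^ (n + 1)) s ∈ LinearMap.ker f := by
        rw [LinearMap.mem_ker]
        show Ideal.Quotient.factor hle (Ideal.Quotient.mk _ s) = 0
        rw [Ideal.Quotient.factor_mk, Ideal.Quotient.eq_zero_iff_mem]
        exact hs
      have hne : Ideal.Quotient.mk (m ^ (n + 1)) s ≠ 0 := by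
        rw [Ne, Ideal.Quotient.eq_zero_iff_mem]
        exact hs'
      have hbot : LinearMap.ker f ≠ ⊥ := by
        intro hb
        rw [hb, Submodule.mem_bot] at hmem
        exact hne hmem
      by_contra hlt
      have h0 : Module.finrank K (LinearMap.ker f) = 0 := by omega
      exact hbot (Submodule.finrank_eq_zero.mp h0)
    omega

omit [IsDomain R] in
/-- If `J ≤ I`, `R ⧸ J` is finite-dimensional and `dim R ⧸ J ≤ dim R ⧸ I` then `I = J`. -/
lemma h6_eq_of_finrank_le {I J : Ideal R} (hJI : J ≤ I) [Module.Finite K (R ⧸ J)]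
    (hle : Module.finrank K (R ⧸ J) ≤ Module.finrank K (R ⧸ I)) : I = J := by
  let f : (R ⧸ J) →ₗ[K] (R ⧸ I) := (Ideal.Quotient.factorₐ K hJI).toLinearMap
  have hf : Function.Surjective f := Ideal.Quotient.factor_surjective hJI
  have h2 := LinearMap.finrank_range_add_finrank_ker f
  have h3 : Module.finrank K (LinearMap.range f) = Module.finrank K (R ⧸ I) := by
    rw [LinearMap.range_eq_top.mpr hf, finrank_top]
  have h0 : Module.finrank K (LinearMap.ker f) = 0 := by omega
  have hker : LinearMap.ker f = ⊥ := Submodule.finrank_eq_zero.mp h0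
  refine le_antisymm ?_ hJI
  intro r hr
  have hmem : Ideal.Quotient.mk J r ∈ LinearMap.ker f := by
    rw [LinearMap.mem_ker]
    show Ideal.Quotient.factor hJI (Ideal.Quotient.mk _ r) = 0
    rw [Ideal.Quotient.factor_mk, Ideal.Quotient.eq_zero_iff_mem]
    exact hr
  rw [hker, Submodule.mem_bot, Ideal.Quotient.eq_zero_iff_mem] at hmem
  exact hmem

end Abstract

/-! ### The coordinate ring -/

section Curve

variable {K : Type u} [Field K] (W : WeierstrassCurve.Affine K)

lemma h6_XYIdeal_ne_top {x y : K} (h : W.Equation x y) :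
    CoordinateRing.XYIdeal W x (C y) ≠ ⊤ := by
  intro htop
  have h1 : (1 : W.CoordinateRing) ∈ CoordinateRing.XYIdeal W x (C y) := by
    rw [htop]; trivial
  have h2 := h6_evalAt_eq_zero_of_mem W h h1
  rw [map_one] at h2
  exact one_ne_zero h2

lemma h6_XYIdeal_mul {x y : K} (h : W.Nonsingular x y) :
    CoordinateRing.XYIdeal W x (C y) * CoordinateRing.XYIdeal W x (C (W.negY x y)) =
      Ideal.span {CoordinateRing.XClass W x} := by
  rw [mul_comm, CoordinateRing.XYIdeal_neg_mul h]
  rfl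

lemma h6_XYIdeal_mul' {x y : K} (h : W.Nonsingular x y) :
    CoordinateRing.XYIdeal W x (C (W.negY x y)) * CoordinateRing.XYIdeal W x (C y) =
      Ideal.span {CoordinateRing.XClass W x} := by
  rw [CoordinateRing.XYIdeal_neg_mul h]
  rfl

/-- The quotient of the coordinate ring by a nonzero ideal is finite-dimensional. -/
lemma h6_finite_quotient {I : Ideal W.CoordinateRing} (hI : I ≠ ⊥) :
    Module.Finite K (W.CoordinateRing ⧸ I) :=
  Module.Finite.equiv (Ideal.quotientEquivDirectSum K (CoordinateRing.basis W) hI).symm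

lemma h6_norm_XClass (x : K) :
    Algebra.norm K[X] (CoordinateRing.XClass W x) = (X - C x) ^ 2 := by
  have h1 : CoordinateRing.XClass W x =
      (X - C x) • (1 : W.CoordinateRing) + (0 : K[X]) • CoordinateRing.mk W Y := by
    rw [zero_smul, add_zero, Algebra.smul_def, mul_one]
    rfl
  rw [h1, CoordinateRing.norm_smul_basis]
  ring

lemma h6_finrank_span {g : W.CoordinateRing} (hg : g ≠ 0) :
    Module.finrank K (W.CoordinateRing ⧸ Ideal.span {g}) = (Algebra.norm K[X] g).natDegree :=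
  finrank_quotient_span_eq_natDegree_norm (CoordinateRing.basis W) hg

/-- `n ≤ natDegree (norm g)` if `m_P ^ n = (g)`. -/
lemma h6_le_natDegree_norm {x y : K} (h : W.Nonsingular x y) {n : ℕ} {g : W.CoordinateRing}
    (hg : g ≠ 0) (hgm : CoordinateRing.XYIdeal W x (C y) ^ n = Ideal.span {g}) :
    n ≤ (Algebra.norm K[X] g).natDegree := by
  have hbot : (Ideal.span {g} : Ideal W.CoordinateRing) ≠ ⊥ := by
    rw [Ne, Ideal.span_singleton_eq_bot]; exact hg
  have hfin : Module.Finite K (W.CoordinateRing ⧸ CoordinateRing.XYIdeal W x (C y) ^ n) := by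
    rw [hgm]; exact h6_finite_quotient W hbot
  have h1 := h6_le_finrank_quotient_pow K (CoordinateRing.XClass_ne_zero x)
    (h6_XYIdeal_mul W h) (h6_XYIdeal_ne_top W h.1) n hfin
  rw [hgm, h6_finrank_span W hg] at h1
  exact h1

/-- `natDegree (norm g) = n` if `m_P ^ n = (g)`. -/
lemma h6_natDegree_norm_of_pow_eq {x y : K} (h : W.Nonsingular x y) {n : ℕ}
    {g : W.CoordinateRing} (hg : g ≠ 0)
    (hgm : CoordinateRing.XYIdeal W x (C y) ^ n = Ideal.span {g}) :
    (Algebra.norm K[X] g).natDegree = n := by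
  have hneg : W.Nonsingular x (W.negY x y) := (nonsingular_neg x y).mpr h
  have hξ : CoordinateRing.XClass W x ≠ 0 := CoordinateRing.XClass_ne_zero x
  -- `m ^ n * m' ^ n = (ξ ^ n)`
  have h1 : CoordinateRing.XYIdeal W x (C y) ^ n * CoordinateRing.XYIdeal W x (C (W.negY x y)) ^ n
      = Ideal.span {CoordinateRing.XClass W x ^ n} := by
    rw [← mul_pow, h6_XYIdeal_mul W h, Ideal.span_singleton_pow]
  rw [hgm] at h1
  -- a generator of `m' ^ n`
  obtain ⟨k, hk, hgk⟩ : ∃ k ∈ CoordinateRing.XYIdeal W x (C (W.negY x y)) ^ n,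
      g * k = CoordinateRing.XClass W x ^ n := by
    have : CoordinateRing.XClass W x ^ n ∈
        Ideal.span {g} * CoordinateRing.XYIdeal W x (C (W.negY x y)) ^ n := by
      rw [h1]; exact Ideal.mem_span_singleton_self _
    exact Ideal.mem_span_singleton_mul.mp this
  have hk0 : k ≠ 0 := by
    rintro rfl
    rw [mul_zero] at hgk
    exact pow_ne_zero n hξ hgk.symm
  have hkm : CoordinateRing.XYIdeal W x (C (W.negY x y)) ^ n = Ideal.span {k} := by
    apply (Ideal.span_singleton_mul_right_inj hg).mp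
    rw [h1, Ideal.span_singleton_mul_span_singleton, hgk]
  -- degrees
  have hy : W.negY x (W.negY x y) = y := negY_negY x y
  have h2 : n ≤ (Algebra.norm K[X] g).natDegree := h6_le_natDegree_norm W h hg hgm
  have h3 : n ≤ (Algebra.norm K[X] k).natDegree := by
    have hfin : Module.Finite K
        (W.CoordinateRing ⧸ CoordinateRing.XYIdeal W x (C (W.negY x y)) ^ n) := by
      rw [hkm]
      exact h6_finite_quotient W (by rw [Ne, Ideal.span_singleton_eq_bot]; exact hk0)
    have h1 := h6_le_finrank_quotient_pow K hξ (h6_XYIdeal_mul' W h)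
      (h6_XYIdeal_ne_top W hneg.1) n hfin
    rw [hkm, h6_finrank_span W hk0] at h1
    exact h1
  have h4 : Algebra.norm K[X] g * Algebra.norm K[X] k = ((X - C x) ^ 2) ^ n := by
    rw [← map_mul, hgk, map_pow, h6_norm_XClass]
  have hNg : Algebra.norm K[X] g ≠ 0 := by
    intro h0; rw [h0, zero_mul] at h4
    exact pow_ne_zero n (pow_ne_zero 2 (X_sub_C_ne_zero x)) h4.symm
  have hNk : Algebra.norm K[X] k ≠ 0 := by
    intro h0; rw [h0, mul_zero] at h4
    exact pow_ne_zero n (pow_ne_zero 2 (X_sub_C_ne_zero x)) h4.symm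
  have h5 := congrArg natDegree h4
  rw [natDegree_mul hNg hNk, natDegree_pow, natDegree_pow, natDegree_X_sub_C] at h5
  omega

/-- `m_P ^ n = (g)` if `g ∈ m_P ^ n` is nonzero with norm of degree `≤ n`. -/
lemma h6_pow_eq_span_of_mem {x y : K} (h : W.Nonsingular x y) {n : ℕ} {g : W.CoordinateRing}
    (hg : g ≠ 0) (hmem : g ∈ CoordinateRing.XYIdeal W x (C y) ^ n)
    (hdeg : (Algebra.norm K[X] g).natDegree ≤ n) :
    CoordinateRing.XYIdeal W x (C y) ^ n = Ideal.span {g} := by
  have hbot : (Ideal.span {g} : Ideal W.CoordinateRing) ≠ ⊥ := by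
    rw [Ne, Ideal.span_singleton_eq_bot]; exact hg
  have hle : Ideal.span {g} ≤ CoordinateRing.XYIdeal W x (C y) ^ n :=
    (Ideal.span_singleton_le_iff_mem _).mpr hmem
  have hbot' : CoordinateRing.XYIdeal W x (C y) ^ n ≠ ⊥ := fun h0 => hbot (le_bot_iff.mp (h0 ▸ hle))
  have hfin : Module.Finite K (W.CoordinateRing ⧸ Ideal.span {g}) := h6_finite_quotient W hbot
  have hfin' : Module.Finite K (W.CoordinateRing ⧸ CoordinateRing.XYIdeal W x (C y) ^ n) :=
    h6_finite_quotient W hbot'
  have h1 := h6_le_finrank_quotient_pow K (CoordinateRing.XClass_ne_zero x)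
    (h6_XYIdeal_mul W h) (h6_XYIdeal_ne_top W h.1) n hfin'
  have h2 := h6_finrank_span W hg
  exact h6_eq_of_finrank_le K hle (by omega)

/-- `n • P = 0` iff `m_P ^ n` is principal. -/
lemma h6_nsmul_eq_zero_iff_principal [DecidableEq K] {x y : K} (h : W.Nonsingular x y) (n : ℕ) :
    n • (Point.some x y h : W.Point) = 0 ↔
      ∃ g : W.CoordinateRing, g ≠ 0 ∧ CoordinateRing.XYIdeal W x (C y) ^ n = Ideal.span {g} := by
  rw [← Point.toClass_eq_zero, map_nsmul, Point.toClass_some]
  have hcoe : ((CoordinateRing.XYIdeal' (W := W) h ^ n :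
        (FractionalIdeal W.CoordinateRing⁰ W.FunctionField)ˣ) :
        FractionalIdeal W.CoordinateRing⁰ W.FunctionField) =
      ((CoordinateRing.XYIdeal W x (C y) ^ n : Ideal W.CoordinateRing) :
        FractionalIdeal W.CoordinateRing⁰ W.FunctionField) := by
    rw [Units.val_pow_eq_pow_val, CoordinateRing.XYIdeal'_eq, FractionalIdeal.coeIdeal_pow]
  rw [← ClassGroup.mk_eq_one_of_coe_ideal hcoe, map_pow]
  rfl

/-- **W2**, in the `natDegree (norm g) ≤ n` form. -/
theorem h6_W2_natDegree [DecidableEq K] {x y : K} (h : W.Nonsingular x y) (n : ℕ) :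
    n • (Point.some x y h : W.Point) = 0 ↔
      ∃ g : W.CoordinateRing, g ≠ 0 ∧ g ∈ (CoordinateRing.XYIdeal W x (C y)) ^ n ∧
        (Algebra.norm K[X] g).natDegree ≤ n := by
  rw [h6_nsmul_eq_zero_iff_principal W h n]
  constructor
  · rintro ⟨g, hg, hgm⟩
    refine ⟨g, hg, ?_, (h6_natDegree_norm_of_pow_eq W h hg hgm).le⟩
    rw [hgm]; exact Ideal.mem_span_singleton_self g
  · rintro ⟨g, hg, hmem, hdeg⟩
    exact ⟨g, hg, h6_pow_eq_span_of_mem W h hg hmem hdeg⟩

/-- **W2**, verbatim from the interface (findings 130). -/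
theorem W2_nsmul_eq_zero_iff [DecidableEq K] {x y : K} (h : W.Nonsingular x y) (n : ℕ)
    (hn : 0 < n) :
    n • (Point.some x y h : W.Point) = 0 ↔
      ∃ g : W.CoordinateRing, g ≠ 0 ∧ g ∈ (CoordinateRing.XYIdeal W x (C y)) ^ n ∧ Fil W n g := by
  have _ := hn
  rw [h6_W2_natDegree W h n]
  simp only [Fermat.Agent.S13.W.fil_iff_natDegree_norm]

end Curve

end Fermat.Agent.S13.Wr.H6
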